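import Mathlib.RingTheory.IntegralClosure.IsIntegralClosure.Basic
import Mathlib.RingTheory.LocalRing.Defs
import Mathlib.RingTheory.Noetherian.Basic
import Mathlib.Algebra.Polynomial.Div
import Mathlib.RingTheory.Finiteness.Cardinality
import Mathlib.Algebra.Module.LinearMap.End

/-!
S59, unit C2c: in a finite reduced algebra every point is separated from the others by an element.
-/

set_option autoImplicit false
set_option linter.style.haveILetI false

noncomputable section

namespace Fermat.Agent.R59.Levels

open Polynomial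

/-- At a point of a finite reduced algebra there is an element, not zero at the point, killing the
kernel of the point. -/
theorem exists_sep {O R : Type} [CommRing O] [IsDomain O] [IsNoetherianRing O] [CommRing R]
    [Algebra O R] [Module.Finite O R] (red : ∀ z : R, z * z = 0 → z = 0) (g : R →ₐ[O] O) :
    ∃ r : R, g r ≠ 0 ∧ ∀ x : R, g x = 0 → r * x = 0 := by
  classical
  have hpow : ∀ (k : ℕ) (z : R), z ^ (k + 1) = 0 → z = 0 := by
    intro k
    induction k with
    | zero => intro z hz; rwa [zero_add, pow_one] at hz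
    | succ k ih =>
      intro z hz
      refine ih z (red _ ?_)
      rw [← pow_add, show k + 1 + (k + 1) = k + 1 + 1 + k by omega, pow_add, hz, zero_mul]
  have key : ∀ z : R, g z = 0 → ∃ q : R, g q ≠ 0 ∧ q * z = 0 := fun z hz => by
    obtain ⟨P, hPm, hPz⟩ := Algebra.IsIntegral.isIntegral (R := O) z
    change Polynomial.aeval z P = 0 at hPz
    obtain ⟨Q, hQ, hQ0⟩ := P.exists_eq_pow_rootMultiplicity_mul_and_not_dvd hPm.ne_zero 0
    rw [map_zero, sub_zero] at hQ hQ0
    have hgQ : g (Polynomial.aeval z Q) ≠ 0 := by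
      rw [← Polynomial.aeval_algHom_apply, hz, ← Polynomial.coeff_zero_eq_aeval_zero']
      intro h
      exact hQ0 (Polynomial.X_dvd_iff.mpr h)
    refine ⟨Polynomial.aeval z Q, hgQ, hpow (P.rootMultiplicity 0) _ ?_⟩
    rw [hQ, map_mul, map_pow, Polynomial.aeval_X] at hPz
    rw [mul_pow, pow_succ, pow_succ, show
      (Polynomial.aeval z Q) ^ P.rootMultiplicity 0 * Polynomial.aeval z Q *
        (z ^ P.rootMultiplicity 0 * z) =
      (Polynomial.aeval z Q) ^ P.rootMultiplicity 0 * z *
        (z ^ P.rootMultiplicity 0 * Polynomial.aeval z Q) by ring, hPz, mul_zero]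
  obtain ⟨s, hs⟩ := IsNoetherian.noetherian (R := O) (LinearMap.ker g.toLinearMap)
  have hmem : ∀ z ∈ s, g z = 0 := fun z hz => by
    have h : z ∈ LinearMap.ker g.toLinearMap := hs ▸ Submodule.subset_span hz
    exact h
  choose! q hq1 hq2 using key
  refine ⟨∏ z ∈ s, q z, ?_, fun x hx => ?_⟩
  · rw [map_prod]
    exact Finset.prod_ne_zero_iff.mpr fun z hz => hq1 z (hmem z hz)
  · have h : x ∈ LinearMap.ker g.toLinearMap := hx
    clear hx
    rw [← hs] at h
    induction h using Submodule.span_induction with
    | mem z hz =>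
      rw [Finset.mem_coe] at hz
      obtain ⟨u, hu⟩ := Finset.dvd_prod_of_mem q hz
      rw [hu, mul_right_comm, hq2 z (hmem z hz), zero_mul]
    | zero => rw [mul_zero]
    | add y z _ _ hy hz => rw [mul_add, hy, hz, add_zero]
    | smul c z _ hz => rw [mul_smul_comm, hz, smul_zero]

/-- An element of a reduced algebra of operators whose square kills a vector kills it. -/
theorem apply_eq_zero_of_sq {O L : Type} [CommRing O] [IsDomain O] [IsNoetherianRing O]
    [AddCommGroup L] [Module O L] [Module.Finite O L] [Module.IsTorsionFree O L]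
    (A : Subalgebra O (Module.End O L)) (hA : ∀ z ∈ A, z * z = 0 → z = 0) {z : Module.End O L}
    (hz : z ∈ A) {x : L} (hx : z (z x) = 0) : z x = 0 := by
  classical
  haveI : Module.Finite O (Module.End O L) := by
    obtain ⟨n, f, hf⟩ := Module.Finite.exists_fin' O L
    exact Module.Finite.of_injective (LinearMap.lcomp O L f) (LinearMap.lcomp_injective_of_surjective f hf)
  obtain ⟨P, hPm, hPz⟩ := Algebra.IsIntegral.isIntegral (R := O) z
  change Polynomial.aeval z P = 0 at hPz
  obtain ⟨Q, hQ, hQ0⟩ := P.exists_eq_pow_rootMultiplicity_mul_and_not_dvd hPm.ne_zero 0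
  rw [map_zero, sub_zero] at hQ hQ0
  set k := P.rootMultiplicity 0
  set w := z * Polynomial.aeval z Q with hw
  have hwA : w ∈ A := by
    have h : Polynomial.aeval z (Polynomial.X * Q) ∈ A := by
      have h1 := Polynomial.aeval_subalgebra_coe (Polynomial.X * Q) A ⟨z, hz⟩
      exact h1 ▸ SetLike.coe_mem _
    rwa [map_mul, Polynomial.aeval_X] at h
  have hw1 : w ^ (k + 1) = 0 := by
    have e : w = Polynomial.aeval z (Polynomial.X * Q) := by rw [map_mul, Polynomial.aeval_X]
    rw [e, ← map_pow, show (Polynomial.X * Q) ^ (k + 1) =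
      Polynomial.X ^ k * Q * (Polynomial.X * Q ^ k) by ring, map_mul, ← hQ, hPz, zero_mul]
  have hw0 : w = 0 := by
    clear_value w k
    clear hw hQ
    induction k generalizing w with
    | zero => rwa [zero_add, pow_one] at hw1
    | succ k ih =>
      refine ih (w := w) hwA ?_
      refine hA _ (pow_mem hwA _) ?_
      rw [← pow_add, show k + 1 + (k + 1) = k + 1 + 1 + k by omega, pow_add, hw1, zero_mul]
  obtain ⟨Q', hQ'⟩ : Polynomial.X ∣ Q - Polynomial.C (Q.coeff 0) :=
    Polynomial.X_dvd_iff.mpr (by simp)
  have h1 : Polynomial.aeval z Q = algebraMap O (Module.End O L) (Q.coeff 0) +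
      Polynomial.aeval z Q' * z := by
    conv_lhs => rw [show Q = Polynomial.C (Q.coeff 0) + Q' * Polynomial.X by
      rw [mul_comm, ← hQ', add_sub_cancel]]
    rw [map_add, Polynomial.aeval_C, map_mul, Polynomial.aeval_X]
  have h2 : (z * Polynomial.aeval z Q) x = 0 := by rw [← hw, hw0]; rfl
  have h3 : Commute z (Polynomial.aeval z Q) := by
    have := (Commute.all (Polynomial.X : Polynomial O) Q).map (Polynomial.aeval z)
    rwa [Polynomial.aeval_X] at this
  rw [h3.eq, Module.End.mul_apply, h1, LinearMap.add_apply, Module.algebraMap_end_apply,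
    Module.End.mul_apply, hx, map_zero, add_zero] at h2
  exact (smul_eq_zero.mp h2).resolve_left fun h => hQ0 (Polynomial.X_dvd_iff.mpr h)

end Fermat.Agent.R59.Levels
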