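import Fermat.Agent.Auto.Inertia
import Fermat.Agent.Auto.Free.Loc

/-!
S59, unit C1: inertia at a prime exactly dividing the level for every odd `p`.
-/

set_option autoImplicit false
set_option linter.unusedSectionVars false
set_option linter.style.haveILetI false
set_option synthInstance.maxHeartbeats 400000

noncomputable section

namespace Fermat.Agent.R59.Levels

open CongruenceSubgroup IsLocalRing
open Fermat.Agent.Galois (GQ)
open Fermat.Agent.GalRep (cyc cyc_inertia cyc_frobenius)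
open Fermat.Agent.GalRep.Level (cycM)
open scoped MatrixGroups
open Fermat.Agent.Auto hiding galLat_inertia inerOp_apply_eq_zero

/-- `r + 1` is a unit for `r ≡ 1` modulo an odd `p`. -/
theorem isUnit_natCast_succ' {p : ℕ} [Fact p.Prime] {O : Type} [CommRing O] [IsDomain O]
    [IsDiscreteValuationRing O] [IsAdicComplete (maximalIdeal O) O] [Finite (ResidueField O)]
    [Algebra ℤ_[p] O] [Module.Finite ℤ_[p] O] [CharZero O] {r : ℕ} (hp2 : p ≠ 2) (hr1 : r ≡ 1 [MOD p]) :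
    IsUnit ((r + 1 : ℕ) : O) := by
  refine isUnit_natCast (natCast_p_mem p O) fun hd => hp2 ?_
  have h2 : p ∣ 2 := (Nat.ModEq.dvd_iff (hr1.add_right 1) dvd_rfl).mp hd
  exact (Nat.prime_dvd_prime_iff_eq Fact.out Nat.prime_two).mp h2

variable {M : ℕ} [NeZero M] {Δ : Type} [CommGroup Δ] [Finite Δ] {c : (ZMod M)ˣ →* Δ}
  {p : ℕ} [Fact p.Prime] {O : Type} [CommRing O] [IsDomain O] [IsDiscreteValuationRing O]
  [IsAdicComplete (maximalIdeal O) O] [Finite (ResidueField O)]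
  [Algebra ℤ_[p] O] [Module.Finite ℤ_[p] O] [CharZero O]
  {S : Finset ℕ} {a : ℕ → O}

section Level

variable {r m : ℕ} [NeZero r] [NeZero m] [Fact (Nat.Coprime r m)] {c : (ZMod (r * m))ˣ →* Δ}

set_option maxHeartbeats 1000000 in
theorem inerOp_apply_eq_zero (hp2 : p ≠ 2) (hr : r.Prime) (hrp : r ≠ p) (hrm : ¬ r ∣ m)
    (hr1 : r ≡ 1 [MOD p]) {t : ℕ} (hcard : Nat.card Δ = p ^ t) (hne : NonEis S a)
    (hred : ∀ z ∈ twAlg (r * m) c O, z * z = 0 → z = 0)
    {A : ValuationSubring (AlgebraicClosure ℚ)} (hA : A.LiesOverPrime r)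
    (hres : ∀ σ ∈ A.inertiaSubgroupIn ℚ, ∀ x ∈ latLoc (r * m) c O S a, ∃ j : ℕ,
      ((galLat (r * m) c p O σ - 1) ^ j) x ∈ maximalIdeal O • (⊤ : Submodule O (Lat (r * m) c O)))
    {σ : GQ} (hσ : σ ∈ A.inertiaSubgroupIn ℚ) {x : Lat (r * m) c O}
    (hx : x ∈ latLoc (r * m) c O S a) : inerOp (r * m) c p O σ x = 0 := by
  have hp : p.Prime := Fact.out
  have hodd : Odd (Nat.card Δ) := by rw [hcard]; exact (hp.odd_of_ne_two hp2).pow
  exact Core.apply_eq_zero (L := Lat (r * m) c O) (p := p) (r := r) (a := t) hp (natCast_p_mem p O)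
    (fun z hz => by
      rw [← two_mul] at hz
      exact (mul_eq_zero.mp hz).resolve_left two_ne_zero)
    hr hrp hA (isUnit_natCast_succ' hp2 hr1) (galLat (r * m) c p O) (twDia (r * m) c O)
    (fun g _ => galLat_latDia g _) (fun _ _ => latDia_commute_dia _ _)
    (fun g => by rw [← hcard]; exact twDia_pow_card g) (fun g hg => twDia_pow_eq hr hrm hA hg)
    (fun f g hg => twTr_conj_inertia hodd f (cyc_inertia p hr hrp hA hg))
    (latLoc (r * m) c O S a) (fun g _ => galLat_mem_latLoc g) (fun g _ => latDia_mem_latLoc _)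
    (fun k y => mem_smul_top_locPart) (fun k => galLat_continuous k) hres (twAlg (r * m) c O) hred
    (inerOp (r * m) c p O σ) (inerOp_mem hodd σ) (fun g => commute_galLat (inerOp_mem hodd σ) g)
    (twAlg_mem_latLoc (inerOp_mem hodd σ)) (fun y hy => inerOp_fixed hr hrp hrm hodd hne hA hσ hy) hx

end Level

set_option maxHeartbeats 1000000 in
/-- On a part where inertia is residually unipotent, `(σ - 1) (σ - ⟨cyc σ⟩) = 0`. -/
theorem galLat_inertia (hp2 : p ≠ 2) (hΔ : IsPGroup p Δ) (hc : Function.Surjective c)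
    (hpS : p ∈ S) (hMS : ∀ r : ℕ, r.Prime → r ∣ M → r ∈ S) (hne : NonEis S a)
    {r : ℕ} (hr : r.Prime) (hrp : r ≠ p) (hrM : r ∣ M) (hr2 : ¬ r ^ 2 ∣ M)
    (hr1 : r ≡ 1 [MOD p])
    (hred : ∀ z ∈ Algebra.adjoin O (Set.range (twT M c O) ∪ Set.range (latDia M c O)),
      z * z = 0 → z = 0)
    (A : ValuationSubring (AlgebraicClosure ℚ)) (hA : A.LiesOverPrime r)
    (hres : ∀ σ ∈ A.inertiaSubgroupIn ℚ, ∀ x ∈ latLoc M c O S a, ∃ j : ℕ,
      ((galLat M c p O σ - 1) ^ j) x ∈ maximalIdeal O • (⊤ : Submodule O (Lat M c O)))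
    {σ : GQ} (hσ : σ ∈ A.inertiaSubgroupIn ℚ) {x : Lat M c O} (hx : x ∈ latLoc M c O S a) :
    (galLat M c p O σ - 1) ((galLat M c p O σ - latDia M c O (cycM M σ)) x) = 0 := by
  obtain ⟨m, rfl⟩ := hrM
  have hrm : ¬ r ∣ m := fun h => hr2 (by rw [sq]; exact Nat.mul_dvd_mul_left r h)
  haveI : NeZero r := ⟨hr.ne_zero⟩
  haveI : NeZero m := ⟨fun h => NeZero.ne (r * m) (by rw [h, mul_zero])⟩
  haveI : Fact (Nat.Coprime r m) := ⟨hr.coprime_iff_not_dvd.mpr hrm⟩
  have hp : p.Prime := Fact.out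
  obtain ⟨t, hcard⟩ := IsPGroup.iff_card.mp hΔ
  have hodd : Odd (Nat.card Δ) := by rw [hcard]; exact (hp.odd_of_ne_two hp2).pow
  have he := inerOp_apply_eq_zero hp2 hr hrp hrm hr1 hcard hne hred hA hres hσ hx
  have h1 := LinearMap.congr_fun
    (quadratic_eq_inerOp (M := r * m) (c := c) (O := O) hodd (cyc_inertia p hr hrp hA hσ)) x
  rw [Module.End.mul_apply, Module.End.mul_apply (galTw (r * m) c p O σ), he, map_zero] at h1
  have h2 : (twDia (r * m) c O σ⁻¹ * twDia (r * m) c O σ⁻¹) ((twDia (r * m) c O σ * twDia (r * m) c O σ)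
      (((galLat (r * m) c p O σ - 1) * (galLat (r * m) c p O σ - latDia (r * m) c O (cycM (r * m) σ))) x))
      = 0 := by
    rw [h1, map_zero]
  rw [← Module.End.mul_apply _ (twDia (r * m) c O σ * twDia (r * m) c O σ), ← map_mul, ← map_mul,
    ← map_mul, show σ⁻¹ * σ⁻¹ * (σ * σ) = 1 by group, map_one, Module.End.one_apply,
    Module.End.mul_apply] at h2
  exact h2

end Fermat.Agent.R59.Levels
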