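import Fermat.Agent.R59.Levels.Degeneracy

/-!
S59, unit C1: the residual part at level `N ∏ Q` is `2 ^ #Q` copies of the one of level `N`.
-/

set_option autoImplicit false
set_option linter.unusedSectionVars false
set_option linter.style.haveILetI false
set_option synthInstance.maxHeartbeats 400000

noncomputable section

namespace Fermat.Agent.R59.Levels

open IsLocalRing
open Fermat.Agent.Auto hiding finrank_latLoc_qm_le finrank_latLoc_mul_le finrank_latLoc_prod_le
open Fermat.Agent.GalRep (GoodPrime)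
open Fermat.Agent.Galois (GQ)

variable {p : ℕ} [Fact p.Prime] {O : Type} [CommRing O] [IsDomain O] [IsDiscreteValuationRing O]
  [IsAdicComplete (maximalIdeal O) O] [Finite (ResidueField O)]
  [Algebra ℤ_[p] O] [Module.Finite ℤ_[p] O] [CharZero O]
  {S : Finset ℕ} {a : ℕ → O}

set_option maxHeartbeats 1000000 in
/-- The iterated degeneracy isomorphism. -/
theorem exists_iterate (hp2 : p ≠ 2) (hp : (p : O) ∈ maximalIdeal O)
    (ρbar : ResidualGaloisRep (ResidueField O)) (habs : ρbar.IsAbsolutelyIrreducible)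
    (hfrob : ∀ l : ℕ, l.Prime → l ∉ S → ∀ A : ValuationSubring (AlgebraicClosure ℚ),
      A.LiesOverPrime l → ∀ σ : GQ, A.IsFrobeniusAt σ l →
        LinearMap.charpoly (ρbar.ρ σ) = Polynomial.X ^ 2 -
          Polynomial.C (residue O (a l)) * Polynomial.X + Polynomial.C ((l : ResidueField O)))
    {N : ℕ} [NeZero N] (hpS : p ∈ S) (hNS : ∀ l : ℕ, l.Prime → l ∣ N → l ∈ S) (Q : Finset ℕ)
    (hQ : ∀ q ∈ Q, q.Prime) (hQS : ∀ q ∈ Q, q ∉ S) (hQ1 : ∀ q ∈ Q, q ≡ 1 [MOD p])
    (hQa : ∀ q ∈ Q, residue O (a q) ^ 2 ≠ 4) :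
    ∀ (M : ℕ) [NeZero M] (_ : M = N * ∏ q ∈ Q, q) (hNM : N ∣ M),
      ∃ e : latLoc M (1 : (ZMod M)ˣ →* Unit) O (S ∪ Q) a ≃ₗ[O]
          (Fin (2 ^ Q.card) → latLoc N (1 : (ZMod N)ˣ →* Unit) O S a),
        ∀ (i : GoodPrime M) (x : latLoc M (1 : (ZMod M)ˣ →* Unit) O (S ∪ Q) a)
          (k : Fin (2 ^ Q.card)),
          (e ⟨latT M (1 : (ZMod M)ˣ →* Unit) O i x, latT_mem_latLoc i x.2⟩ k).1 =
            latT N (1 : (ZMod N)ˣ →* Unit) O (downPrime hNM i) (e x k).1 := by
  induction Q using Finset.induction_on with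
  | empty =>
    intro M _ hM hNM
    rw [Finset.prod_empty, mul_one] at hM
    subst hM
    rw [Finset.union_empty]
    exact ⟨(LinearEquiv.funUnique (Fin 1) O _).symm, fun i x k => rfl⟩
  | @insert q Q hqQ ih =>
    intro M _ hM hNM
    have hq : q.Prime := hQ q (Finset.mem_insert_self q Q)
    have hpos : N * ∏ r ∈ Q, r ≠ 0 := mul_ne_zero (NeZero.ne N)
      (Finset.prod_ne_zero_iff.mpr fun r hr => (hQ r (Finset.mem_insert_of_mem hr)).ne_zero)
    haveI : NeZero (N * ∏ r ∈ Q, r) := ⟨hpos⟩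
    obtain ⟨e₁, he₁⟩ := ih (fun r hr => hQ r (Finset.mem_insert_of_mem hr))
      (fun r hr => hQS r (Finset.mem_insert_of_mem hr))
      (fun r hr => hQ1 r (Finset.mem_insert_of_mem hr))
      (fun r hr => hQa r (Finset.mem_insert_of_mem hr)) (N * ∏ r ∈ Q, r) rfl (dvd_mul_right N _)
    obtain rfl : M = (N * ∏ r ∈ Q, r) * q := by rw [hM, Finset.prod_insert hqQ]; ring
    have hS' : S ∪ insert q Q = insert q (S ∪ Q) := by rw [Finset.union_insert]
    have hNS' : ∀ l : ℕ, l.Prime → l ∣ N * ∏ r ∈ Q, r → l ∈ S ∪ Q := fun l hl h => by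
      rcases hl.dvd_mul.mp h with h | h
      · exact Finset.mem_union_left Q (hNS l hl h)
      · obtain ⟨r, hr, hlr⟩ := hl.prime.exists_mem_finset_dvd h
        rw [(Nat.prime_dvd_prime_iff_eq hl (hQ r (Finset.mem_insert_of_mem hr))).mp hlr]
        exact Finset.mem_union_right S hr
    obtain ⟨e₂, he₂⟩ := exists_degeneracy hp2 hp ρbar habs
      (fun l hl h => hfrob l hl fun h' => h (Finset.mem_union_left Q h'))
      (N := N * ∏ r ∈ Q, r) (q := q) (S := S ∪ Q) (a := a) (Finset.mem_union_left Q hpS) hNS' hq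
      (fun h => (Finset.mem_union.mp h).elim (hQS q (Finset.mem_insert_self q Q)) hqQ)
      (hQ1 q (Finset.mem_insert_self q Q)) (hQa q (Finset.mem_insert_self q Q))
    rw [hS']
    let σ : Fin (2 ^ Q.card) ⊕ Fin (2 ^ Q.card) ≃ Fin (2 ^ (insert q Q).card) :=
      finSumFinEquiv.trans (finCongr (by rw [Finset.card_insert_of_notMem hqQ, pow_succ]; ring))
    refine ⟨e₂.symm ≪≫ₗ e₁.prodCongr e₁ ≪≫ₗ (LinearEquiv.sumArrowLequivProdArrow _ _ O _).symm ≪≫ₗ
      LinearEquiv.funCongrLeft O _ σ.symm, fun i x k => ?_⟩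
    obtain ⟨h1, h2⟩ := he₂ i x
    have hd : downPrime hNM i = downPrime (dvd_mul_right N _) (downPrime (dvd_mul_right _ q) i) :=
      Subtype.ext rfl
    rw [hd]
    obtain ⟨k, rfl⟩ := σ.surjective k
    rcases k with k | k
    · simp only [LinearEquiv.trans_apply, LinearEquiv.funCongrLeft_apply, LinearMap.funLeft_apply,
        Equiv.symm_apply_apply]
      exact (congrArg (fun v => (e₁ v k).1) (Subtype.ext h1)).trans
        (he₁ (downPrime (dvd_mul_right _ q) i) _ k)
    · simp only [LinearEquiv.trans_apply, LinearEquiv.funCongrLeft_apply, LinearMap.funLeft_apply,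
        Equiv.symm_apply_apply]
      exact (congrArg (fun v => (e₁ v k).1) (Subtype.ext h2)).trans
        (he₁ (downPrime (dvd_mul_right _ q) i) _ k)

end Fermat.Agent.R59.Levels
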