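import Fermat.Agent.Auto.Level.Rank
import Fermat.Agent.Auto.Inertia.Loc

/-!
S59, unit C1: the trace of a Frobenius element acts as the Hecke operator; consequently the residual
part does not change when a good prime is added to the excluded set; two actions agreeing at
Frobenius elements agree everywhere.
-/

set_option autoImplicit false
set_option linter.unusedSectionVars false
set_option linter.style.haveILetI false
set_option synthInstance.maxHeartbeats 400000

noncomputable section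

namespace Fermat.Agent.R59.Levels

open IsLocalRing CongruenceSubgroup
open Fermat.Agent.Auto
open Fermat.Agent.Galois (GQ)
open Fermat.Agent.GalRep (GoodPrime)

section Intertwine

variable {O : Type} [CommRing O] [IsLocalRing O] [IsNoetherianRing O]
  {T₁ T₂ : Type} [CommRing T₁] [IsLocalRing T₁] [Algebra O T₁] [Module.Finite O T₁]
  [CommRing T₂] [IsLocalRing T₂] [Algebra O T₂] [Module.Finite O T₂]
  {L₁ L₂ : Type} [AddCommGroup L₁] [Module O L₁] [AddCommGroup L₂] [Module O L₂]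

/-- The action is continuous in the trace. -/
theorem act_mem_pow {T : Type} [CommRing T] [Algebra O T] {L : Type} [AddCommGroup L] [Module O L]
    (ψ : T →ₐ[O] Module.End O L) {j : ℕ} {z : T}
    (hz : z ∈ (maximalIdeal O ^ j).map (algebraMap O T)) (y : L) :
    ψ z y ∈ (maximalIdeal O ^ j) • (⊤ : Submodule O L) := by
  induction hz using Submodule.span_induction generalizing y with
  | mem z hz =>
    obtain ⟨o, ho, rfl⟩ := hz
    rw [AlgHom.commutes, Module.algebraMap_end_apply]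
    exact Submodule.smul_mem_smul ho trivial
  | zero => simp
  | add a b _ _ ha hb => rw [map_add, LinearMap.add_apply]; exact add_mem (ha y) (hb y)
  | smul t z _ hz =>
    rw [smul_eq_mul, mul_comm, map_mul, Module.End.mul_apply]
    exact hz _

/-- Intertwining at Frobenius elements gives intertwining of all traces. -/
theorem intertwine_of_frobenius [Module.Finite O L₂] (ρ₁ : GaloisRepAdic T₁) (ρ₂ : GaloisRepAdic T₂)
    (ψ₁ : T₁ →ₐ[O] Module.End O L₁) (ψ₂ : T₂ →ₐ[O] Module.End O L₂) (f : L₁ →ₗ[O] L₂)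
    (bad : Finset ℕ)
    (h : ∀ l : ℕ, l.Prime → l ∉ bad → ∀ A : ValuationSubring (AlgebraicClosure ℚ),
      A.LiesOverPrime l → ∀ σ : GQ, A.IsFrobeniusAt σ l → ∀ x,
        f (ψ₁ (ρ₁.trace σ) x) = ψ₂ (ρ₂.trace σ) (f x))
    (g : GQ) (x : L₁) : f (ψ₁ (ρ₁.trace g) x) = ψ₂ (ρ₂.trace g) (f x) := by
  haveI : IsHausdorff (maximalIdeal O) L₂ :=
    IsHausdorff.of_le_jacobson _ _ (IsLocalRing.maximalIdeal_le_jacobson _)
  refine sub_eq_zero.mp (eq_zero_of_frobenius (maximalIdeal O)
    (fun g => f (ψ₁ (ρ₁.trace g) x) - ψ₂ (ρ₂.trace g) (f x)) bad (fun j => ?_)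
    (fun l hl hlb A hA σ hσ τ => ?_) g)
  · obtain ⟨N₁, hN₁⟩ := exists_pow_maximalIdeal_le_map O T₁
    obtain ⟨N₂, hN₂⟩ := exists_pow_maximalIdeal_le_map O T₂
    obtain ⟨E₁, hE₁, h1⟩ := exists_level_det_trace ρ₁ (N₁ * j)
    obtain ⟨E₂, hE₂, h2⟩ := exists_level_det_trace ρ₂ (N₂ * j)
    refine ⟨E₁ ⊔ E₂, IntermediateField.finiteDimensional_sup E₁ E₂, fun g g' H => ?_⟩
    have e : ∀ (a b : L₂) (c d : L₂), a - b - (c - d) = (a - c) - (b - d) := fun a b c d => by abel
    rw [e, ← map_sub, ← LinearMap.sub_apply, ← LinearMap.sub_apply, ← map_sub, ← map_sub]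
    refine sub_mem ?_ (act_mem_pow ψ₂ ?_ _)
    · have hm := act_mem_pow ψ₁ (j := j) (z := ρ₁.trace g - ρ₁.trace g') (by
        rw [Ideal.map_pow]
        refine Ideal.pow_right_mono hN₁ j ?_
        rw [← pow_mul]
        exact (h1 g g' fun y hy => H y (le_sup_left (b := E₂) hy)).2) x
      have hm' := Submodule.mem_map_of_mem (f := f) hm
      rw [Submodule.map_smul''] at hm'
      exact Submodule.smul_mono le_rfl le_top hm'
    · rw [Ideal.map_pow]
      refine Ideal.pow_right_mono hN₂ j ?_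
      rw [← pow_mul]
      exact (h2 g g' fun y hy => H y (le_sup_right (a := E₁) hy)).2
  · simp only [trace_conj, h l hl hlb A hA σ hσ, sub_self]

end Intertwine

variable {p : ℕ} [Fact p.Prime] {O : Type} [CommRing O] [IsDomain O] [IsDiscreteValuationRing O]
  [IsAdicComplete (maximalIdeal O) O] [Finite (ResidueField O)]
  [Algebra ℤ_[p] O] [Module.Finite ℤ_[p] O] [CharZero O]
  {M : ℕ} [NeZero M] {Δ : Type} [CommGroup Δ] [Fintype Δ] {c : (ZMod M)ˣ →* Δ}
  {S : Finset ℕ} {a : ℕ → O}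

/-- The trace of a Frobenius element at a good prime acts as the twisted Hecke operator. -/
theorem trace_frobenius_eq_twT (hodd : Odd (Nat.card Δ)) {T : Type} [CommRing T] [IsLocalRing T]
    [Algebra O T] (ρ : GaloisRepAdic T) (Φ : T →ₐ[O] Module.End O (latLoc M c O S a))
    (hquad : ∀ (σ : GQ) (x : latLoc M c O S a),
      galTw M c p O σ (galTw M c p O σ x) -
        (Φ (ρ.trace σ) ⟨galTw M c p O σ x, galTw_mem_latLoc σ x.2⟩ : latLoc M c O S a) +
          cycO (p := p) O σ • (x : Lat M c O) = 0)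
    (ℓ : GoodPrime M) (hℓp : (ℓ : ℕ) ≠ p) {A : ValuationSubring (AlgebraicClosure ℚ)}
    (hA : A.LiesOverPrime (ℓ : ℕ)) {σ : GQ} (hσ : A.IsFrobeniusAt σ (ℓ : ℕ))
    (x : latLoc M c O S a) :
    ((Φ (ρ.trace σ) x : latLoc M c O S a) : Lat M c O) = twT M c O ℓ x := by
  set y : latLoc M c O S a := ⟨galTw M c p O σ⁻¹ x, galTw_mem_latLoc σ⁻¹ x.2⟩
  have hy : galTw M c p O σ (y : Lat M c O) = x := by
    show galTw M c p O σ (galTw M c p O σ⁻¹ x) = x
    rw [← Module.End.mul_apply, galTw_mul_inv, Module.End.one_apply]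
  have h1 := hquad σ y
  rw [show (⟨galTw M c p O σ y, galTw_mem_latLoc σ y.2⟩ : latLoc M c O S a) = x from Subtype.ext hy,
    cycO_frobenius ℓ.1.2 hℓp hA hσ, hy] at h1
  have h2 := LinearMap.congr_fun (galTw_frobenius (M := M) (c := c) (p := p) (O := O) hodd ℓ hℓp A
    hA σ hσ) (y : Lat M c O)
  simp only [LinearMap.add_apply, LinearMap.sub_apply, Module.End.mul_apply, LinearMap.zero_apply,
    Module.End.natCast_apply, hy] at h2
  rw [← Nat.cast_smul_eq_nsmul O] at h2
  have h3 := h2.trans h1.symm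
  have h4 : galTw M c p O σ x - twT M c O ℓ x = galTw M c p O σ x -
      ((Φ (ρ.trace σ) x : latLoc M c O S a) : Lat M c O) := add_right_cancel h3
  exact (sub_right_inj.mp h4).symm

/-- With the trivial character the twisted operator is the Hecke operator. -/
theorem twT_one (ℓ : GoodPrime M) :
    twT M (1 : (ZMod M)ˣ →* Δ) O ℓ = latT M (1 : (ZMod M)ˣ →* Δ) O ℓ := by
  rw [twT, latDia_eq_one rfl, mul_one]

/-- A good prime with the residual trace may be added to the excluded set. -/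
theorem latLoc_insert_eq (hp2 : p ≠ 2) (hp : (p : O) ∈ maximalIdeal O)
    (ρbar : ResidualGaloisRep (ResidueField O)) (habs : ρbar.IsAbsolutelyIrreducible)
    (hfrob : ∀ l : ℕ, l.Prime → l ∉ S → ∀ A : ValuationSubring (AlgebraicClosure ℚ),
      A.LiesOverPrime l → ∀ σ : GQ, A.IsFrobeniusAt σ l →
        LinearMap.charpoly (ρbar.ρ σ) = Polynomial.X ^ 2 -
          Polynomial.C (residue O (a l)) * Polynomial.X + Polynomial.C ((l : ResidueField O)))
    (hpS : p ∈ S) (hMS : ∀ l : ℕ, l.Prime → l ∣ M → l ∈ S) {q : ℕ} (hq : q.Prime) (hqS : q ∉ S) :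
    latLoc M (1 : (ZMod M)ˣ →* Unit) O (insert q S) a =
      latLoc M (1 : (ZMod M)ˣ →* Unit) O S a := by
  refine le_antisymm (fun x hx => ?_) (latLoc_mono (Finset.subset_insert q S))
  by_cases hne : latLoc M (1 : (ZMod M)ˣ →* Unit) O (insert q S) a = ⊥
  · rw [hne, Submodule.mem_bot] at hx
    rw [hx]; exact zero_mem _
  intro i k
  by_cases hi : ((i.1 : Nat.Primes) : ℕ) ≠ q
  · exact hx ⟨i.1, by simp only [Finset.mem_coe, Finset.mem_insert]; exact fun h => h.elim hi i.2⟩ k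
  push Not at hi
  haveI : NeZero (M * 1) := ⟨by rw [mul_one]; exact NeZero.ne M⟩
  obtain ⟨θ, H, Φ, hres, -, -, hquad⟩ := exists_levelRep (p := p) (D := 1) (S := insert q S) ρbar
    hp2 hp (fun g => ⟨0, Subsingleton.elim _ _⟩) (one_dvd M) squarefree_one (fun u _ => rfl)
    (Finset.mem_insert_of_mem hpS) (fun l hl h => Finset.mem_insert_of_mem (hMS l hl h)) habs
    (fun l hl hlS => hfrob l hl fun h => hlS (Finset.mem_insert_of_mem h)) hne
  set T := CuspForm.heckeLocal (M * 1) (↑(insert q S) : Set ℕ) O θ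
  obtain ⟨A, hA⟩ := Galois.exists_liesOverPrime hq
  obtain ⟨σ, hσ⟩ := Galois.exists_isFrobeniusAt hq hA
  have hqp : (i.1 : ℕ) ≠ p := fun h => hqS (hi ▸ (h.symm ▸ hpS))
  set z : T := H.ρ.trace σ - algebraMap O T (a q)
  have hz : z ∈ maximalIdeal T := by
    rw [← residue_eq_zero_iff, map_sub, residue_trace H.ρ ρbar hres,
      trace_residual_frobenius ρbar (hfrob q hq hqS A hA σ hσ), sub_eq_zero]
    rfl
  obtain ⟨Nk, hNk⟩ := exists_pow_maximalIdeal_le_map O T
  refine ⟨Nk * k, fun j' hj' => ?_⟩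
  have hmem : z ^ j' ∈ (maximalIdeal O ^ k).map (algebraMap O T) := by
    rw [Ideal.map_pow]
    refine Ideal.pow_right_mono hNk k ?_
    rw [← pow_mul]
    exact Ideal.pow_le_pow_right hj' (Ideal.pow_mem_pow hz j')
  have h1 := Submodule.mem_map_of_mem
    (f := (latLoc M (1 : (ZMod M)ˣ →* Unit) O (insert q S) a).subtype)
    (act_mem_pow Φ hmem (⟨x, hx⟩ : latLoc M (1 : (ZMod M)ˣ →* Unit) O (insert q S) a))
  rw [Submodule.map_smul''] at h1
  have h2 := Submodule.smul_mono (le_refl (maximalIdeal O ^ k)) le_top h1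
  have key : ∀ y : latLoc M (1 : (ZMod M)ˣ →* Unit) O (insert q S) a,
      ((Φ z y : latLoc M (1 : (ZMod M)ˣ →* Unit) O (insert q S) a) :
        Lat M (1 : (ZMod M)ˣ →* Unit) O) =
      (latT M 1 O i.1 - algebraMap O _ (a (i.1 : ℕ))) (y : Lat M (1 : (ZMod M)ˣ →* Unit) O) :=
    fun y => by
    have h := trace_frobenius_eq_twT (O := O) (S := insert q S) (a := a)
      (by rw [Nat.card_unique]; exact odd_one) H.ρ Φ hquad i.1 hqp (A := A) (σ := σ)
      (hi.symm ▸ hA) (hi.symm ▸ hσ) y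
    rw [twT_one] at h
    show ((Φ (H.ρ.trace σ - algebraMap O T (a q)) y : latLoc M (1 : (ZMod M)ˣ →* Unit) O (insert q S) a) :
        Lat M (1 : (ZMod M)ˣ →* Unit) O) =
      latT M 1 O i.1 (y : Lat M (1 : (ZMod M)ˣ →* Unit) O) -
        a ((i.1 : Nat.Primes) : ℕ) • (y : Lat M (1 : (ZMod M)ˣ →* Unit) O)
    rw [map_sub, AlgHom.commutes]
    show ((Φ (H.ρ.trace σ) y : latLoc M (1 : (ZMod M)ˣ →* Unit) O (insert q S) a) :
        Lat M (1 : (ZMod M)ˣ →* Unit) O) - a q • (y : Lat M (1 : (ZMod M)ˣ →* Unit) O) = _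
    rw [h, hi]
  rw [map_pow] at h2
  rw [← coe_restrict_pow key j' (⟨x, hx⟩ : latLoc M (1 : (ZMod M)ˣ →* Unit) O (insert q S) a)]
  exact h2

end Fermat.Agent.R59.Levels
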