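import Fermat.Agent.R59.Levels.Free
import Fermat.Agent.R59.Levels.Frobenius
import Fermat.Agent.Auto.Descent.Invariant
import Fermat.Agent.Auto.Level.Chi

/-!
S59, unit C1: the norm identifies the coinvariants of the residual part with the part of level
`Γ₀(M)`, equivariantly for the Hecke operators.
-/

set_option autoImplicit false
set_option linter.unusedSectionVars false
set_option linter.style.haveILetI false

noncomputable section

namespace Fermat.Agent.R59.Levels

open CongruenceSubgroup IsLocalRing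
open Fermat.Agent.GalRep (GoodPrime)
open Fermat.Agent.Auto hiding homLoc_le_parabolic mem_latLoc_iff exists_latLoc_equiv norm_criterion exists_latLoc_basis exists_latRes_eq_norm
open scoped MatrixGroups

variable {p : ℕ} [Fact p.Prime] {O : Type} [CommRing O] [IsDomain O] [IsDiscreteValuationRing O]
  [IsAdicComplete (maximalIdeal O) O] [Finite (ResidueField O)]
  [Algebra ℤ_[p] O] [Module.Finite ℤ_[p] O] [CharZero O]
  {M : ℕ} [NeZero M] {Δ Δ' : Type} [CommGroup Δ] [Fintype Δ] [CommGroup Δ'] [Fintype Δ']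
  [DecidableEq Δ'] {c : (ZMod M)ˣ →* Δ} {S : Finset ℕ} {a : ℕ → O}

/-- A norm over the kernel of `π` comes from the level of `π ∘ c`. -/
theorem exists_latRes_eq_norm (hp2 : p ≠ 2) (hp : (p : O) ∈ maximalIdeal O)
    (hMS : ∀ r : ℕ, r.Prime → r ∣ M → r ∈ S) (hne : NonEis S a) (hc : Function.Surjective c)
    (π : Δ →* Δ') {x : Lat M c O} (hx : x ∈ latLoc M c O S a) :
    ∃ y ∈ latLoc M (π.comp c) O S a, latRes (grp_le_comp π) y =
      ∑ u ∈ Finset.univ.filter (fun u => π u = 1), latDelta M c O hc u x := by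
  classical
  haveI : Fintype π.ker := Fintype.ofFinite _
  set N := ∑ u ∈ Finset.univ.filter (fun u => π u = 1), latDelta M c O hc u x
  have hN : N.1 = ∑ u : π.ker, (grpQuot hc).dia O (u : Δ) x.1 := by
    simp only [N, Submodule.coe_sum, coe_latDelta]
    exact Finset.sum_subtype _ (fun u => by simp [MonoidHom.mem_ker]) _
  have hNinv : ∀ k : π.ker, (grpQuot hc).dia O (k : Δ) N.1 = N.1 := fun k => by
    rw [hN, map_sum]
    refine Eq.trans (Finset.sum_congr rfl fun u _ => ?_)
      (Equiv.sum_comp (Equiv.mulLeft k) fun u : π.ker => (grpQuot hc).dia O (u : Δ) x.1)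
    rw [Equiv.coe_mulLeft, Subgroup.coe_mul, map_mul, Module.End.mul_apply]
  have hNmem : N.1 ∈ homLoc M c O S a := by
    rw [hN]
    exact Submodule.sum_mem _ fun u _ =>
      dia_mem_homLoc hc _ ((mem_latLoc_iff hp2 hp hMS hne x).mp hx)
  obtain ⟨i, -, -, hiE⟩ := exists_eis_prime hp hMS hne
  set ℓ : ℕ := ((i.1 : Nat.Primes) : ℕ)
  obtain ⟨⟨N₁, hN₁⟩, hU⟩ := (bijective_restrict_locPart
    (a := fun i : PrimeOff M S => a ((i.1 : Nat.Primes) : ℕ))
    (T := hT' M c O S) hT'_commute i hiE).2 ⟨N.1, hNmem⟩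
  have hU' : homT c O O i.1 N₁ - (ℓ + 1) • N₁ = N.1 := by
    refine Eq.trans ?_ (congrArg Subtype.val hU :)
    show _ = (hT' M c O S i - algebraMap O _ ((ℓ : O) + 1)) N₁
    rw [LinearMap.sub_apply, Module.algebraMap_end_apply, ← Nat.cast_add_one,
      Nat.cast_smul_eq_nsmul]
  have hinv : ∀ k : π.ker, (kerQuot hc π).dia O k N₁ = N₁ := fun k => by
    rw [kerQuot_dia]
    refine congrArg Subtype.val ((bijective_restrict_locPart
      (a := fun i : PrimeOff M S => a ((i.1 : Nat.Primes) : ℕ)) (T := hT' M c O S) hT'_commute i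
      hiE).1 (a₁ := ⟨_, dia_mem_homLoc hc (k : Δ) hN₁⟩) (a₂ := ⟨N₁, hN₁⟩) (Subtype.ext ?_))
    show (hT' M c O S i - algebraMap O _ ((ℓ : O) + 1)) ((grpQuot hc).dia O (k : Δ) N₁) =
      (hT' M c O S i - algebraMap O _ ((ℓ : O) + 1)) N₁
    have hcomm : homT c O O i.1 ((grpQuot hc).dia O (k : Δ) N₁) =
        (grpQuot hc).dia O (k : Δ) (homT c O O i.1 N₁) :=
      (LinearMap.congr_fun (homT_dia hc i.1 (k : Δ)).eq N₁).symm
    simp only [LinearMap.sub_apply, Module.algebraMap_end_apply, ← Nat.cast_add_one,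
      Nat.cast_smul_eq_nsmul]
    rw [hcomm, ← map_nsmul, ← map_sub, hU', hNinv]
  obtain ⟨φ, hφ⟩ := exists_res_eq_transfer_sub (kerQuot hc π)
    (isReps_grp (c := c) i.1.1.2 i.1.2 (gpDia i.1))
    (isReps_grp (c := π.comp c) i.1.1.2 i.1.2 (gpDia i.1)) O (kerQuot_class hc π i.1) N₁ hinv
  rw [Fintype.card_option, Fintype.card_fin] at hφ
  have hres : (kerQuot hc π).res O φ = N.1 := hφ.trans hU'
  have hcompat : ∀ (j : PrimeOff M S) (w : Additive (grp M (π.comp c)) →+ O),
      (kerQuot hc π).res O (hT' M (π.comp c) O S j w) = hT' M c O S j ((kerQuot hc π).res O w) :=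
    fun j w => res_transfer (kerQuot hc π) _ _ O w
  set φ' := locProj (fun j : PrimeOff M S => a ((j.1 : Nat.Primes) : ℕ))
    (T := hT' M (π.comp c) O S) hT'_commute φ
  have hφ' : φ' ∈ homLoc M (π.comp c) O S a := locProj_mem _ hT'_commute φ
  refine ⟨⟨φ', homLoc_le_parabolic hp2 hp hMS hne hφ'⟩,
    (mem_latLoc_iff hp2 hp hMS hne _).mpr hφ', Subtype.ext ?_⟩
  show (kerQuot hc π).res O φ' = N.1
  have e := locProj_natural (fun j : PrimeOff M S => a ((j.1 : Nat.Primes) : ℕ))
    (T := hT' M (π.comp c) O S) hT'_commute (T' := hT' M c O S) hT'_commute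
    ((kerQuot hc π).res O) hcompat φ
  rw [e, hres]
  exact locProj_apply_of_mem _ hT'_commute hNmem

variable (O) in
/-- The action of the quotient group. -/
def deltaHom (hc : Function.Surjective c) : Δ →* Module.End O (Lat M c O) where
  toFun := latDelta M c O hc
  map_one' := latDia_eq_one (by rw [Function.surjInv_eq hc])
  map_mul' x y := by
    show latDia M c O _ = latDia M c O _ * latDia M c O _
    rw [← latDia_mul]
    refine latDia_eq_of_c ?_
    rw [map_mul, Function.surjInv_eq hc, Function.surjInv_eq hc, Function.surjInv_eq hc]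

theorem latDia_eq_deltaHom (hc : Function.Surjective c) (d : (ZMod M)ˣ) :
    latDia M c O d = deltaHom O hc (c d) :=
  latDia_eq_of_c (by rw [Function.surjInv_eq hc])

theorem deltaHom_mem (hc : Function.Surjective c) (u : Δ) {v : Lat M c O}
    (hv : v ∈ latLoc M c O S a) : deltaHom O hc u v ∈ latLoc M c O S a :=
  latDia_mem_part _ hv

omit [Fintype Δ] in
theorem grp_le_one : grp M c ≤ grp M (1 : (ZMod M)ˣ →* Unit) := fun _ h => mem_grp_one.mpr h.1

set_option maxHeartbeats 1600000 in
/-- The norm onto the part of level `Γ₀(M)`. -/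
theorem exists_norm_proj (hp2 : p ≠ 2) (hp : (p : O) ∈ maximalIdeal O)
    (hMS : ∀ r : ℕ, r.Prime → r ∣ M → r ∈ S) (hne : NonEis S a) (hc : Function.Surjective c)
    {n : ℕ} {b : Fin n → Lat M c O} (hb : ∀ i, b i ∈ latLoc M c O S a)
    (hbasis : ∀ x ∈ latLoc M c O S a, ∃! f : Fin n → Δ → O,
      x = ∑ i, ∑ u, f i u • latDelta M c O hc u (b i)) :
    ∃ pr : latLoc M c O S a →ₗ[O] latLoc M (1 : (ZMod M)ˣ →* Unit) O S a,
      Function.Surjective pr ∧
      (∀ v, pr v = 0 ↔ v ∈ Submodule.span O {y : latLoc M c O S a |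
        ∃ x w, y = ⟨deltaHom O hc x w.1, deltaHom_mem hc x w.2⟩ - w}) ∧
      ∀ (i : GoodPrime M) (v : latLoc M c O S a),
        (pr ⟨twT M c O i v, twT_mem_latLoc i v.2⟩).1 =
          latT M (1 : (ZMod M)ˣ →* Unit) O i (pr v).1 := by
  classical
  set act := deltaHom O hc with hact
  have hact' : ∀ u, latDelta M c O hc u = act u := fun u => rfl
  set Nm : Module.End O (Lat M c O) := ∑ u : Δ, act u with hNm
  let R : latLoc M (1 : (ZMod M)ˣ →* Unit) O S a →ₗ[O] Lat M c O :=
    latRes (grp_le_one (c := c)) ∘ₗ (latLoc M (1 : (ZMod M)ˣ →* Unit) O S a).subtype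
  have hRinj : Function.Injective R := fun x y h =>
    Subtype.ext (latRes_injective (hle := grp_le_one (c := c)) h)
  have hRmem : ∀ y, R y ∈ latLoc M c O S a := fun y =>
    map_mem_locPart (latRes (grp_le_one (c := c)))
      (fun i v => latRes_latT _ dvd_rfl i.1.1 i.1.2 i.1.2 v) y.2
  have hRdia : ∀ (d : (ZMod M)ˣ) y, latDia M c O d (R y) = R y := fun d y => by
    show latDia M c O d (latRes _ y.1) = latRes _ y.1
    rw [← latRes_latDia, latDia_eq_one rfl, Module.End.one_apply]
  have hNmR : ∀ v : latLoc M c O S a, Nm v.1 ∈ LinearMap.range R := fun v => by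
    obtain ⟨y, hy, hy'⟩ := exists_latRes_eq_norm hp2 hp hMS hne hc (1 : Δ →* Unit) v.2
    have h1 : (1 : Δ →* Unit).comp c = 1 := MonoidHom.ext fun _ => rfl
    refine ⟨⟨latRes (fun _ h => mem_grp_one.mpr h.1) y, map_mem_locPart _
      (fun i v => latRes_latT _ dvd_rfl i.1.1 i.1.2 i.1.2 v) hy⟩, ?_⟩
    show latRes _ (latRes _ y) = Nm v.1
    rw [hNm, LinearMap.sum_apply]
    refine Eq.trans ?_ ((hy'.trans (Finset.sum_congr ?_ fun u _ => rfl)))
    · rfl
    · exact Finset.filter_true_of_mem fun u _ => rfl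
  let e := LinearEquiv.ofInjective R hRinj
  let g : latLoc M c O S a →ₗ[O] LinearMap.range R :=
    (Nm ∘ₗ (latLoc M c O S a).subtype).codRestrict _ hNmR
  let pr : latLoc M c O S a →ₗ[O] latLoc M (1 : (ZMod M)ˣ →* Unit) O S a := e.symm.toLinearMap ∘ₗ g
  have hpr : ∀ v, R (pr v) = Nm v.1 := fun v =>
    congrArg Subtype.val (e.apply_symm_apply (g v))
  have hNmact : ∀ x w, Nm (act x w) = Nm w := fun x w => by
    rw [hNm, LinearMap.sum_apply, LinearMap.sum_apply,
      ← Equiv.sum_comp (Equiv.mulRight x) (fun u => act u w)]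
    refine Finset.sum_congr rfl fun u _ => ?_
    rw [Equiv.coe_mulRight, map_mul, Module.End.mul_apply]
  have hNmsum : ∀ f : Fin n → Δ → O, Nm (∑ i, ∑ u, f i u • latDelta M c O hc u (b i)) =
      ∑ i, ∑ w, (∑ u, f i u) • latDelta M c O hc w (b i) := fun f => by
    rw [map_sum]
    refine Finset.sum_congr rfl fun i _ => ?_
    rw [map_sum, ← Finset.smul_sum, Finset.sum_smul]
    refine Finset.sum_congr rfl fun u _ => ?_
    rw [map_smul, hact', hNmact, hNm, LinearMap.sum_apply]
    rfl
  refine ⟨pr, fun y => ?_, fun v => ⟨fun hv => ?_, fun hv => ?_⟩, fun i v => ?_⟩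
  · obtain ⟨f, hf, huni⟩ := hbasis (R y) (hRmem y)
    have hconst : ∀ i u, f i u = f i 1 := fun i u => by
      have h2 : R y = ∑ i, ∑ w, f i (u * w) • latDelta M c O hc w (b i) := by
        have h3 : act u⁻¹ (R y) = R y := hRdia _ y
        rw [← h3]
        conv_lhs => rw [hf]
        rw [map_sum]
        refine Finset.sum_congr rfl fun i _ => ?_
        rw [map_sum, ← Equiv.sum_comp (Equiv.mulLeft u)]
        refine Finset.sum_congr rfl fun w _ => ?_
        rw [map_smul, Equiv.coe_mulLeft, hact', ← Module.End.mul_apply, ← map_mul,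
          inv_mul_cancel_left, hact']
      have h4 := congrFun (congrFun (huni _ h2) i) 1
      simpa using h4
    refine ⟨⟨∑ i, f i 1 • b i, Submodule.sum_mem _ fun i _ => Submodule.smul_mem _ _ (hb i)⟩,
      hRinj ?_⟩
    rw [hpr]
    show Nm (∑ i, f i 1 • b i) = R y
    rw [hf, map_sum]
    refine Finset.sum_congr rfl fun i _ => ?_
    rw [map_smul, hNm, LinearMap.sum_apply, Finset.smul_sum]
    exact Finset.sum_congr rfl fun u _ => by rw [hconst i u]; rfl
  · obtain ⟨f, hf, -⟩ := hbasis v.1 v.2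
    obtain ⟨g', -, huni⟩ := hbasis 0 (zero_mem _)
    have h0 : Nm v.1 = 0 := by rw [← hpr, hv, map_zero]
    rw [hf, hNmsum] at h0
    have e1 := huni (fun i _ => ∑ u, f i u) h0.symm
    have e2 := huni 0 (by simp)
    have hsum : ∀ i, ∑ u, f i u = 0 := fun i => congrFun (congrFun (e1.trans e2.symm) i) 1
    have hv' : v = ∑ i, ∑ u, f i u •
        ((⟨act u (b i), deltaHom_mem hc u (hb i)⟩ : latLoc M c O S a) - ⟨b i, hb i⟩) := by
      refine Subtype.ext ?_
      simp only [Submodule.coe_sum, Submodule.coe_smul, Submodule.coe_sub, smul_sub,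
        Finset.sum_sub_distrib, ← Finset.sum_smul, hsum, zero_smul,
        sub_zero]
      exact hf
    rw [hv']
    exact Submodule.sum_mem _ fun i _ => Submodule.sum_mem _ fun u _ =>
      Submodule.smul_mem _ _ (Submodule.subset_span ⟨u, ⟨b i, hb i⟩, rfl⟩)
  · induction hv using Submodule.span_induction with
    | mem y hy =>
      obtain ⟨x, w, rfl⟩ := hy
      refine hRinj ?_
      rw [hpr, map_zero]
      show Nm (act x w.1 - w.1) = 0
      rw [map_sub, hNmact, sub_self]
    | zero => exact map_zero _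
    | add y z _ _ hy hz => rw [map_add, hy, hz, add_zero]
    | smul r y _ hy => rw [map_smul, hy, smul_zero]
  · have hcomm : ∀ w, Nm (twT M c O i w) = twT M c O i (Nm w) := fun w => by
      rw [hNm, LinearMap.sum_apply, LinearMap.sum_apply, map_sum]
      exact Finset.sum_congr rfl fun u _ =>
        LinearMap.congr_fun (twT_latDia i (Function.surjInv hc u)).eq.symm w
    apply latRes_injective (hle := grp_le_one (c := c))
    show R _ = _
    rw [hpr, hcomm, ← hpr]
    show twT M c O i (R (pr v)) = _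
    rw [twT, Module.End.mul_apply, hRdia]
    exact (latRes_latT _ dvd_rfl i.1 i.2 i.2 _).symm

end Fermat.Agent.R59.Levels
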