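import Fermat.Agent.R59.Levels.Defs
import Fermat.Agent.R59.Levels.Inertia
import Fermat.Agent.R59.Levels.Iterate
import Fermat.Agent.R59.Levels.Norm
import Fermat.Agent.Auto.Level.Assemble
import Fermat.Agent.Auto.New
import Fermat.Agent.S31
import Fermat.Agent.S32
import Fermat.Agent.S33
import Fermat.Agent.S34

/-!
S59, unit C1: assembly of the data at level `N` and at the Taylor-Wiles levels over it.
-/

set_option autoImplicit false
set_option linter.unusedSectionVars false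
set_option linter.style.haveILetI false
set_option synthInstance.maxHeartbeats 400000

noncomputable section

namespace Fermat.Agent.R59.Levels

open IsLocalRing CongruenceSubgroup CuspForm
open Fermat.Agent.Galois (GQ)
open Fermat.Agent.GalRep (GoodPrime cyc_inertia)
open Fermat.Agent.GalRep.Level (cycM)
open Fermat.Agent.Auto hiding homLoc_le_parabolic mem_latLoc_iff exists_latLoc_equiv norm_criterion exists_latLoc_basis exists_latRes_eq_norm galLat_inertia trace_inertia_levelRep finrank_latLoc_qm_le finrank_latLoc_mul_le finrank_latLoc_prod_le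

variable {p : ℕ} [Fact p.Prime] {O : Type} [CommRing O] [IsDomain O] [IsDiscreteValuationRing O]
  [IsAdicComplete (maximalIdeal O) O] [Finite (ResidueField O)]
  [Algebra ℤ_[p] O] [Module.Finite ℤ_[p] O] [CharZero O]
  {ρbar : ResidualGaloisRep (ResidueField O)} {N : ℕ} [NeZero N] {S : Finset ℕ} {a : ℕ → O}

/-- The traces of Frobenius elements outside any finite set generate what all traces generate. -/
theorem adjoin_frobenius_eq_top {T : Type} [CommRing T] [IsLocalRing T] [Algebra O T]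
    [Module.Finite O T] (ρ : GaloisRepAdic T) (h : Algebra.adjoin O (Set.range ρ.trace) = ⊤)
    (bad : Finset ℕ) :
    Algebra.adjoin O {t : T | ∃ l : ℕ, l.Prime ∧ l ∉ bad ∧
      ∃ A : ValuationSubring (AlgebraicClosure ℚ), A.LiesOverPrime l ∧
        ∃ σ : GQ, A.IsFrobeniusAt σ l ∧ t = ρ.trace σ} = ⊤ := by
  set B := Algebra.adjoin O {t : T | ∃ l : ℕ, l.Prime ∧ l ∉ bad ∧
      ∃ A : ValuationSubring (AlgebraicClosure ℚ), A.LiesOverPrime l ∧
        ∃ σ : GQ, A.IsFrobeniusAt σ l ∧ t = ρ.trace σ}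
  set B' := Subalgebra.toSubmodule B
  haveI : IsHausdorff (maximalIdeal O) (T ⧸ B') :=
    IsHausdorff.of_le_jacobson _ _ (IsLocalRing.maximalIdeal_le_jacobson _)
  refine eq_top_iff.mpr (h.ge.trans (Algebra.adjoin_le ?_))
  rintro _ ⟨g, rfl⟩
  refine (Submodule.Quotient.mk_eq_zero B').mp (eq_zero_of_frobenius (maximalIdeal O)
    (fun g => B'.mkQ (ρ.trace g)) bad (fun j => ?_) (fun l hl hlb A hA σ hσ τ => ?_) g)
  · obtain ⟨N₁, hN₁⟩ := exists_pow_maximalIdeal_le_map O T
    obtain ⟨E, hE, h1⟩ := exists_level_det_trace ρ (N₁ * j)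
    refine ⟨E, hE, fun g g' H => ?_⟩
    have hm : ρ.trace g - ρ.trace g' ∈ (maximalIdeal O ^ j) • (⊤ : Submodule O T) := by
      rw [Ideal.smul_top_eq_map, Submodule.restrictScalars_mem, Ideal.map_pow]
      refine Ideal.pow_right_mono hN₁ j ?_
      rw [← pow_mul]
      exact (h1 g g' H).2
    have hm' := Submodule.mem_map_of_mem (f := B'.mkQ) hm
    rw [Submodule.map_smul''] at hm'
    rw [← map_sub]
    exact Submodule.smul_mono le_rfl le_top hm'
  · simp only [trace_conj]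
    exact (Submodule.Quotient.mk_eq_zero B').mpr (Algebra.subset_adjoin ⟨l, hl, hlb, A, hA, σ, hσ, rfl⟩)

/-- The local conditions on the representation over a localised Hecke algebra of level `N R`. -/
theorem repAt_of_datum (H : Setting p O ρbar N S a) {Q S' : Finset ℕ}
    (hS' : ∀ l, l ∈ S' ↔ l ∈ insert p N.primeFactors ∨ l ∈ Q) (hQS : ∀ l ∈ Q, l ∉ S) {K : ℕ} [NeZero K] {R : ℕ}
    (hK : K = N * R) (hRQ : ∀ l : ℕ, l.Prime → l ∣ R → l ∈ Q)
    {θ : heckeAlgebra K 2 (↑S' : Set ℕ) →+* ResidueField O}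
    {T : Type} [CommRing T] [IsLocalRing T] [IsNoetherianRing T]
    [IsAdicComplete (maximalIdeal T) T] [Algebra O T] [IsLocalHom (algebraMap O T)]
    [Module.Finite O T] [Module.Free O T] (HR : HeckeGaloisRepDatum K (↑S' : Set ℕ) O θ T)
    (hres : HR.ρ.residual.IsEquiv (ρbar.baseChangeAlong (ResidueField.map (algebraMap O T)))) :
    RepAt p O ρbar N S Q HR.ρ := by
  have hp : (p : O) ∈ maximalIdeal O := natCast_p_mem_maximalIdeal
  have hpS' : p ∈ S' := (hS' p).mpr (Or.inl (Finset.mem_insert_self _ _))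
  have hKS : ∀ l : ℕ, l.Prime → l ∣ K → l ∈ S' := fun l hl h => by
    rw [hK] at h
    exact (hS' l).mpr ((hl.dvd_mul.mp h).imp
      (fun h => Finset.mem_insert_of_mem (Nat.mem_primeFactors.mpr ⟨hl, h, NeZero.ne N⟩)) (hRQ l hl))
  have hR : ∀ l : ℕ, l.Prime → l ∈ S → ¬ l ∣ R := fun l hl hlS h => hQS l (hRQ l hl h) hlS
  have h2 : ∀ l : ℕ, l.Prime → l ∈ S → ¬ l ^ 2 ∣ N → ¬ l ^ 2 ∣ K := fun l hl hlS h h' => h
    ((Nat.Coprime.pow_left 2 (hl.coprime_iff_not_dvd.mpr (hR l hl hlS))).dvd_of_dvd_mul_right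
      (hK ▸ h'))
  refine ⟨HR.residue_surjective, hres, ?_,
    fun σ => det_eq_cycO hp HR.ρ S' (fun l hl hlS A hA τ hτ =>
      (trace_det_frobenius HR hl (fun h => hlS (hKS l hl h)) hlS hA hτ).2) σ,
    fun l hl hlp hlN hlQ => Fermat.Agent.S31.result (Fact.out : p.Prime) hp hpS' hKS HR l hl
      fun h => ((hS' l).mp h).elim (fun h => (Finset.mem_insert.mp h).elim hlp
        fun h => hlN (Nat.mem_primeFactors.mp h).2.1) hlQ,
    fun l hl hlp hlN hl2 => Fermat.Agent.S34.result (Fact.out : p.Prime) hp hpS' hKS HR l hl hlp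
      (hK ▸ hlN.trans (dvd_mul_right N R)) (h2 l hl (H.level_mem l hl hlN) hl2),
    fun hpN => Fermat.Agent.S32.result (Fact.out : p.Prime) H.ne_two hp (fun h => ?_) hpS' hKS HR,
    fun hpN hp2N hord => Fermat.Agent.S33.result (Fact.out : p.Prime) H.ne_two hp
      ⟨hK ▸ hpN.trans (dvd_mul_right N R), h2 p Fact.out H.p_mem hp2N⟩ hKS HR hord⟩
  · have h1 : Algebra.adjoin O (Set.range HR.ρ.trace) = ⊤ :=
      eq_top_iff.mpr ((adjoin_trace_frobenius_eq_top HR hKS).ge.trans (Algebra.adjoin_mono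
        (by rintro _ ⟨l, -, -, A, -, σ, -, rfl⟩; exact ⟨σ, rfl⟩)))
    refine eq_top_iff.mpr ((adjoin_frobenius_eq_top HR.ρ h1 (S ∪ Q)).ge.trans (Algebra.adjoin_mono ?_))
    rintro t ⟨l, hl, hlS, hAσ⟩
    exact ⟨l, hl, fun h => hlS (Finset.mem_union_left _ h), fun h => hlS (Finset.mem_union_right _ h),
      hAσ⟩
  · rw [hK] at h
    exact ((Fact.out : p.Prime).dvd_mul.mp h).elim hpN (hR p Fact.out H.p_mem)

/-- The primes of the level and `p`. -/
abbrev levelPrimes (p N : ℕ) : Finset ℕ := insert p N.primeFactors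

theorem Setting.levelPrimes_subset (H : Setting p O ρbar N S a) : levelPrimes p N ⊆ S :=
  Finset.insert_subset H.p_mem fun l hl =>
    H.level_mem l (Nat.mem_primeFactors.mp hl).1 (Nat.mem_primeFactors.mp hl).2.1

theorem Setting.mem_levelPrimes (_H : Setting p O ρbar N S a) (l : ℕ) (hl : l.Prime) (h : l ∣ N) :
    l ∈ levelPrimes p N :=
  Finset.mem_insert_of_mem (Nat.mem_primeFactors.mpr ⟨hl, h, NeZero.ne N⟩)

theorem Setting.frob_of_notMem (H : Setting p O ρbar N S a) (l : ℕ) (hl : l.Prime)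
    (hlS : l ∉ levelPrimes p N) (A : ValuationSubring (AlgebraicClosure ℚ))
    (hA : A.LiesOverPrime l) (σ : GQ) (hσ : A.IsFrobeniusAt σ l) :
    LinearMap.charpoly (ρbar.ρ σ) = Polynomial.X ^ 2 -
      Polynomial.C (residue O (a l)) * Polynomial.X + Polynomial.C ((l : ResidueField O)) :=
  H.charpoly_frob l hl (fun h => hlS (Finset.mem_insert.mpr (Or.inl h)))
    (fun h => hlS (H.mem_levelPrimes l hl h)) A hA σ hσ

/-- The residual part only depends on the primes of the level. -/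
theorem Setting.latLoc_levelPrimes (H : Setting p O ρbar N S a) :
    latLoc N (1 : (ZMod N)ˣ →* Unit) O (levelPrimes p N) a =
      latLoc N (1 : (ZMod N)ˣ →* Unit) O S a := by
  suffices key : ∀ R : Finset ℕ, latLoc N (1 : (ZMod N)ˣ →* Unit) O (levelPrimes p N ∪ R) a =
      latLoc N (1 : (ZMod N)ˣ →* Unit) O (levelPrimes p N) a by
    rw [← key S, Finset.union_eq_right.mpr H.levelPrimes_subset]
  intro R
  induction R using Finset.induction_on with
  | empty => rw [Finset.union_empty]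
  | @insert q R _ ih =>
    rw [Finset.union_insert, ← ih]
    by_cases hqm : q ∈ levelPrimes p N ∪ R
    · rw [Finset.insert_eq_of_mem hqm]
    by_cases hq : q.Prime
    · exact latLoc_insert_eq H.ne_two natCast_p_mem_maximalIdeal ρbar H.absIrr
        (fun l hl h => H.frob_of_notMem l hl fun h' => h (Finset.mem_union_left _ h'))
        (Finset.mem_union_left _ (Finset.mem_insert_self _ _))
        (fun l hl h => Finset.mem_union_left _ (H.mem_levelPrimes l hl h)) hq hqm
    · refine le_antisymm (fun x hx i => ?_) (latLoc_mono (Finset.subset_insert _ _))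
      have hi : ((i.1 : Nat.Primes) : ℕ) ∉ insert q (levelPrimes p N ∪ R) := fun h =>
        (Finset.mem_insert.mp h).elim (fun e => hq (e ▸ i.1.1.2)) i.2
      exact hx ⟨i.1, hi⟩

/-- The data at level `N`. -/
theorem exists_baseData (H : Setting p O ρbar N S a) : Nonempty (BaseData p O ρbar N S a) := by
  have hbot : latLoc N (1 : (ZMod N)ˣ →* Unit) O (levelPrimes p N) a ≠ ⊥ :=
    H.latLoc_levelPrimes ▸ H.ne_bot
  haveI : NeZero (N * 1) := ⟨by rw [mul_one]; exact NeZero.ne N⟩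
  obtain ⟨θ, HR, Φ, hres, -, -, hquad⟩ := exists_levelRep (p := p) (D := 1) ρbar H.ne_two
    natCast_p_mem_maximalIdeal (fun g => ⟨0, Subsingleton.elim _ _⟩) (one_dvd N) squarefree_one
    (fun u _ => rfl) (Finset.mem_insert_self _ _) H.mem_levelPrimes H.absIrr H.frob_of_notMem hbot
  let eW := LinearEquiv.ofEq _ _ H.latLoc_levelPrimes
  exact ⟨{
    T := heckeLocal (N * 1) (↑(levelPrimes p N) : Set ℕ) O θ
    ρ := HR.ρ
    repAt := repAt_of_datum H (Q := ∅) (S' := levelPrimes p N) (fun l => by simp [levelPrimes])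
      (fun l hl => by simp at hl)
      (R := 1) rfl (fun l hl h => absurd h hl.not_dvd_one) HR hres
    act := (eW.conjAlgEquiv O).toAlgHom.comp Φ
    act_frobenius := fun l hlS A hA σ hσ v => by
      have h := trace_frobenius_eq_twT (O := O) (S := levelPrimes p N) (a := a)
        (by rw [Nat.card_unique]; exact odd_one) HR.ρ Φ hquad l (fun h => hlS (h.symm ▸ H.p_mem))
        hA hσ (eW.symm v)
      rwa [twT_one] at h
    nontrivial := (Submodule.nontrivial_iff_ne_bot).mpr H.ne_bot }⟩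

/-- The trace of inertia on the residual part, at a prime `r ≡ 1` exactly dividing the level with
trivial residual inertia. -/
theorem trace_inertia_levelRep {M : ℕ} [NeZero M] {Δ : Type} [CommGroup Δ] [Fintype Δ]
    {c : (ZMod M)ˣ →* Δ} {S' : Finset ℕ} (hp2 : p ≠ 2) (hΔ : IsPGroup p Δ)
    (hc : Function.Surjective c) (hpS : p ∈ S') (hMS : ∀ l : ℕ, l.Prime → l ∣ M → l ∈ S')
    (hne : NonEis S' a)
    (hred : ∀ z ∈ Algebra.adjoin O (Set.range (twT M c O) ∪ Set.range (latDia M c O)),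
      z * z = 0 → z = 0)
    {T : Type} [CommRing T] [IsLocalRing T] [Algebra O T] [IsLocalHom (algebraMap O T)]
    [Module.Finite O T] (ρ : GaloisRepAdic T)
    (hres : ρ.residual.IsEquiv (ρbar.baseChangeAlong (ResidueField.map (algebraMap O T))))
    (Φ : T →ₐ[O] Module.End O (latLoc M c O S' a))
    (hgal : ∀ (σ : GQ) t (x : latLoc M c O S' a),
      galTw M c p O σ ((Φ t x : latLoc M c O S' a) : Lat M c O) =
        (Φ t ⟨galTw M c p O σ x, galTw_mem_latLoc σ x.2⟩ : latLoc M c O S' a))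
    (hquad : ∀ (σ : GQ) (x : latLoc M c O S' a),
      galTw M c p O σ (galTw M c p O σ x) -
        (Φ (ρ.trace σ) ⟨galTw M c p O σ x, galTw_mem_latLoc σ x.2⟩ : latLoc M c O S' a) +
          cycO (p := p) O σ • (x : Lat M c O) = 0)
    {r : ℕ} (hr : r.Prime) (hrp : r ≠ p) (hrM : r ∣ M) (hr2 : ¬ r ^ 2 ∣ M) (hr1 : r ≡ 1 [MOD p])
    {A : ValuationSubring (AlgebraicClosure ℚ)} (hA : A.LiesOverPrime r)
    (hbar : ∀ τ ∈ A.inertiaSubgroupIn ℚ, ρbar.ρ τ = 1)
    {σ : GQ} (hσ : σ ∈ A.inertiaSubgroupIn ℚ) (x : latLoc M c O S' a) :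
    ((Φ (ρ.trace σ) x : latLoc M c O S' a) : Lat M c O) =
      latDia M c O (cycM M σ ^ ((Nat.card Δ - 1) / 2)) x +
        latDia M c O (cycM M σ ^ ((Nat.card Δ - 1) / 2))⁻¹ x := by
  have hodd : Odd (Nat.card Δ) := by
    obtain ⟨e, he⟩ := IsPGroup.iff_card.mp hΔ
    rw [he]
    exact ((Fact.out : p.Prime).odd_of_ne_two hp2).pow
  have hq1 : ∀ τ ∈ A.inertiaSubgroupIn ℚ, ∀ y : latLoc M c O S' a,
      galTw M c p O τ (galTw M c p O τ y) -
        (Φ (ρ.trace τ) ⟨galTw M c p O τ y, galTw_mem_latLoc τ y.2⟩ : latLoc M c O S' a) +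
          (y : Lat M c O) = 0 := fun τ hτ y => by
    have h := hquad τ y
    rwa [cycO_inertia hr hrp hA hτ, one_smul] at h
  refine trace_inertia_eq hodd Φ (ρ.trace σ) σ (hq1 σ hσ) (fun y hy => ?_) x
  refine galLat_inertia hp2 hΔ hc hpS hMS hne hr hrp hrM hr2 hr1 hred A hA ?_ hσ hy
  intro τ hτ z hz
  exact hres_of_levelRep natCast_p_mem_maximalIdeal hΔ Φ (ρ.trace τ)
    (trace_sub_two_mem ρ ρbar hres (hbar τ hτ)) τ
    ((galTw M c p O τ).restrict fun w hw => galTw_mem_latLoc τ hw) (fun w => rfl)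
    (fun t => LinearMap.ext fun w => Subtype.ext (hgal τ t w)) (hq1 τ hτ) z hz

/-- The residual part is stable under the diamond operators of the quotient group. -/
def diaRestrict {M : ℕ} [NeZero M] {Δ : Type} [CommGroup Δ] [Fintype Δ] {c : (ZMod M)ˣ →* Δ}
    (hc : Function.Surjective c) (S' : Finset ℕ) (a : ℕ → O) :
    Δ →* Module.End O (latLoc M c O S' a) where
  toFun u := (deltaHom O hc u).restrict fun _ hx => deltaHom_mem hc u hx
  map_one' := LinearMap.ext fun v => Subtype.ext (by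
    show deltaHom O hc 1 (v : Lat M c O) = (v : Lat M c O)
    rw [map_one, Module.End.one_apply])
  map_mul' x y := LinearMap.ext fun v => Subtype.ext (by
    show deltaHom O hc (x * y) (v : Lat M c O) = deltaHom O hc x (deltaHom O hc y (v : Lat M c O))
    rw [map_mul, Module.End.mul_apply])

theorem coe_diaRestrict {M : ℕ} [NeZero M] {Δ : Type} [CommGroup Δ] [Fintype Δ]
    {c : (ZMod M)ˣ →* Δ} (hc : Function.Surjective c) (S' : Finset ℕ) (u : Δ)
    (v : latLoc M c O S' a) :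
    ((diaRestrict hc S' a u v : latLoc M c O S' a) : Lat M c O) = deltaHom O hc u v := rfl

set_option maxHeartbeats 1600000 in
/-- The data at a level `N ∏ Q`. -/
theorem exists_levelData_at (H : Setting p O ρbar N S a) (B : BaseData p O ρbar N S a) {n : ℕ}
    {Q : Finset ℕ}
    (hQn : ∀ v ∈ Q, v.Prime ∧ v ∉ S ∧ v ≡ 1 [MOD p ^ (n + 1)] ∧ residue O (a v) ^ 2 ≠ 4) :
    Nonempty (LevelData p O B Q n) := by
  classical
  have hp2 := H.ne_two
  have hp : (p : O) ∈ maximalIdeal O := natCast_p_mem_maximalIdeal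
  have hQ := tw_prime (p := p) hQn
  have hQp : ∀ v ∈ Q, v.Prime := fun v hv => (hQ v hv).1
  have hQS : ∀ v ∈ Q, v ∉ S := fun v hv => (hQ v hv).2.1
  set M := N * ∏ v ∈ Q, v with hMdef
  haveI : NeZero M :=
    ⟨mul_ne_zero (NeZero.ne N) (Finset.prod_ne_zero_iff.mpr fun v hv => (hQp v hv).ne_zero)⟩
  set D := ∏ v ∈ Q, v with hDdef
  haveI : NeZero (M * D) := ⟨mul_ne_zero (NeZero.ne M)
    (Finset.prod_ne_zero_iff.mpr fun v hv => (hQp v hv).ne_zero)⟩
  have hD : D ∣ M := dvd_mul_left _ N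
  have hsq : Squarefree D := squarefree_prod_primes Q hQp
  have hQM : ∀ l ∈ Q, l.Prime ∧ l ∣ M ∧ p ^ (fun _ => n + 1 : ℕ → ℕ) l ∣ l - 1 := fun l hl =>
    ⟨hQp l hl, (Finset.dvd_prod_of_mem (fun v => v) hl).trans hD,
      (Nat.modEq_iff_dvd' (hQp l hl).one_le).mp (hQn l hl).2.2.1.symm⟩
  obtain ⟨c, g, hc, hgs, hg⟩ := exists_char_factor (p := p) (M := M) Q (fun _ => n + 1) hQM
  set Δ := CharGrp p Q (fun _ => n + 1) with hΔdef
  have hΔ : IsPGroup p Δ := isPGroup_charGrp Q _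
  have hodd : Odd (Nat.card Δ) := odd_card_charGrp hp2 Q _
  set hh := (Nat.card Δ - 1) / 2 with hhdef
  have hcD : ∀ u : (ZMod M)ˣ, ((u : ZMod M).val : ZMod D) = 1 → c u = 1 := fun u hu =>
    char_eq_one_of_prod hQM hg u hu
  set S' := levelPrimes p N ∪ Q with hS'
  have hQS₁ : ∀ v ∈ Q, v ∉ levelPrimes p N := fun v hv h => hQS v hv (H.levelPrimes_subset h)
  have hpS' : p ∈ S' := Finset.mem_union_left _ (Finset.mem_insert_self _ _)
  have hDQ : ∀ l : ℕ, l.Prime → l ∣ D → l ∈ Q := fun l hl h => by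
    obtain ⟨v, hv, hlv⟩ := (Prime.dvd_finsetProd_iff hl.prime _).mp h
    exact ((Nat.prime_dvd_prime_iff_eq hl (hQp v hv)).mp hlv) ▸ hv
  have hMS : ∀ l : ℕ, l.Prime → l ∣ M → l ∈ S' := fun l hl h =>
    Finset.mem_union.mpr ((hl.dvd_mul.mp h).imp (H.mem_levelPrimes l hl) (hDQ l hl))
  have hfrob' := fun l (hl : Nat.Prime l) (h : l ∉ S') =>
    H.frob_of_notMem l hl fun h' => h (Finset.mem_union_left Q h')
  have hne : NonEis S' a := nonEis_of_absIrr hp H.absIrr hfrob'
  have hneat : p = 3 → ∃ r : ℕ, r.Prime ∧ r ∣ M ∧ r % 3 = 2 := fun h => by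
    obtain ⟨r, hr, hrN, hr3⟩ := H.neat h
    exact ⟨r, hr, hrN.trans (dvd_mul_right N _), hr3⟩
  obtain ⟨e, he⟩ := exists_iterate hp2 hp ρbar H.absIrr H.frob_of_notMem
    (Finset.mem_insert_self _ _) H.mem_levelPrimes Q hQp hQS₁
    (fun v hv => (hQ v hv).2.2.1) (fun v hv => (hQ v hv).2.2.2) M rfl (dvd_mul_right N _)
  let eW := LinearEquiv.ofEq _ _ H.latLoc_levelPrimes
  let eQ := LinearEquiv.piCongrRight (R := O) (fun _ : Fin (2 ^ Q.card) => eW)
  obtain ⟨n₀, b, hb, hn₀, hbasis⟩ :=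
    exists_latLoc_basis (M := M) (c := c) (S := S') (a := a) hp2 hneat hp hΔ hc hpS' hMS hne
  haveI : Nontrivial (latLoc N (1 : (ZMod N)ˣ →* Unit) O S a) := B.nontrivial
  haveI hbfin : Module.Finite O (latLoc N (1 : (ZMod N)ˣ →* Unit) O S a) := inferInstance
  haveI hbfree : Module.Free O (latLoc N (1 : (ZMod N)ˣ →* Unit) O S a) :=
    @Module.free_of_finite_type_torsion_free' O _ (latLoc N (1 : (ZMod N)ˣ →* Unit) O S a)
      _ _ _ _ _ _
  have hrank : n₀ = 2 ^ Q.card * Module.finrank O (latLoc N (1 : (ZMod N)ˣ →* Unit) O S a) := by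
    rw [hn₀, finrank_latLoc_one, (e.trans eQ).finrank_eq, Module.finrank_pi_fintype, Finset.sum_const,
      Finset.card_univ, Fintype.card_fin, smul_eq_mul]
  have hpos : 0 < n₀ := hrank ▸ Nat.mul_pos (Nat.two_pow_pos _)
    (Module.finrank_pos (R := O) (M := ↥(latLoc N (1 : (ZMod N)ˣ →* Unit) O S a)))
  have hbot : latLoc M c O S' a ≠ ⊥ := fun h => by
    obtain ⟨f₀, -, huni⟩ := hbasis 0 (zero_mem _)
    have hb0 : ∀ i, b i = 0 := fun i => by
      have := hb i
      rwa [h, Submodule.mem_bot] at this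
    have h1 := huni 0 (by simp)
    have h2 := huni 1 (by simp [hb0])
    have := congrFun (congrFun (h1.trans h2.symm) ⟨0, hpos⟩) 1
    exact zero_ne_one this
  obtain ⟨θ, HR, Φ, hres, hdiaΦ, hgalΦ, hquad⟩ := exists_levelRep (p := p) ρbar hp2 hp hΔ hD hsq
    hcD hpS' hMS H.absIrr hfrob' hbot
  obtain ⟨pr, hprs, hker, hpreq⟩ := exists_norm_proj hp2 hp hMS hne hc hb hbasis
  have hred : ∀ z ∈ Algebra.adjoin O (Set.range (twT M c O) ∪ Set.range (latDia M c O)),
      z * z = 0 → z = 0 := fun z hz h => twAlg_sq_eq_zero hD hsq hcD hodd hz h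
  have hbotN : latLoc N (1 : (ZMod N)ˣ →* Unit) O (levelPrimes p N) a ≠ ⊥ :=
    H.latLoc_levelPrimes ▸ Submodule.nontrivial_iff_ne_bot.mp B.nontrivial
  haveI : Module.IsTorsionFree O (latLoc M c O S' a) :=
    Function.Injective.moduleIsTorsionFree _ (latLoc M c O S' a).injective_subtype
      fun r x => map_smul (latLoc M c O S' a).subtype r x
  haveI hVfin : Module.Finite O (latLoc M c O S' a) := inferInstance
  haveI hVfree : Module.Free O (latLoc M c O S' a) :=
    @Module.free_of_finite_type_torsion_free' O _ (latLoc M c O S' a) _ _ _ _ _ _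
  let delta : (r : Q) → (ZMod (r : ℕ))ˣ →* Δ := fun r =>
    (powMonoidHom hh).comp
      ((MonoidHom.mulSingle (fun l : Q => Multiplicative (ZMod (p ^ (fun _ => n + 1 : ℕ → ℕ) l))) r).comp
        (g r))
  have hbasis' : ∀ v : latLoc M c O S' a, ∃! f : Fin n₀ → Δ → O,
      v = ∑ i, ∑ x, f i x • diaRestrict hc S' a x ⟨b i, hb i⟩ := fun v => by
    have hcoe : ∀ f : Fin n₀ → Δ → O,
        ((∑ i, ∑ x, f i x • diaRestrict hc S' a x ⟨b i, hb i⟩ : latLoc M c O S' a) : Lat M c O) =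
          ∑ i, ∑ x, f i x • latDelta M c O hc x (b i) := fun f => by
      simp only [Submodule.coe_sum, Submodule.coe_smul]
      rfl
    obtain ⟨f, hf, huni⟩ := hbasis v.1 v.2
    exact ⟨f, Subtype.ext (hf.trans (hcoe f).symm), fun f' hf' =>
      huni f' ((congrArg Subtype.val hf').trans (hcoe f'))⟩
  refine ⟨{
    T := heckeLocal (M * D) (↑S' : Set ℕ) O θ
    ρ := HR.ρ
    repAt := repAt_of_datum H (fun l => Finset.mem_union) hQS (R := D * D) (by rw [hMdef]; ring)
      (fun l hl h => (hl.dvd_mul.mp h).elim (hDQ l hl) (hDQ l hl)) HR hres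
    V := latLoc M c O S' a
    act := Φ
    dia := diaRestrict hc S' a
    dia_commute := fun x t => LinearMap.ext fun v => Subtype.ext ?_
    basis := ?_
    delta := delta
    delta_off := fun r r' u h => ?_
    delta_surjective := fun r y => ?_
    inertia_tw := fun r _ A hA σ hσ => ?_
    proj := (e.trans eQ).toLinearMap ∘ₗ pr
    proj_surjective := (e.trans eQ).surjective.comp hprs
    ker_proj := fun v => by
      show (e.trans eQ) (pr v) = 0 ↔ _
      rw [LinearEquiv.map_eq_zero_iff]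
      exact hker v
    proj_act := fun σ v i => ?_ }⟩
  · exact hdiaΦ _ t v
  · rw [← hrank]
    exact ⟨fun i => ⟨b i, hb i⟩, hbasis'⟩
  · show ((Pi.mulSingle r (g r u) : Δ) ^ hh) r' = 1
    rw [Pi.pow_apply, Pi.mulSingle_eq_of_ne h, one_pow]
  · obtain ⟨v, hv⟩ := hgs r (y⁻¹ * y⁻¹)
    refine ⟨v, ?_⟩
    show ((Pi.mulSingle r (g r v) : Δ) ^ hh) r = y
    rw [Pi.pow_apply, Pi.mulSingle_eq_same, hv]
    let π : Δ →* Multiplicative (ZMod (p ^ (fun _ => n + 1 : ℕ → ℕ) r)) :=
      Pi.evalMonoidHom (fun l : Q => Multiplicative (ZMod (p ^ (fun _ => n + 1 : ℕ → ℕ) l))) r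
    have h1 := congrArg π (pow_half_surjective hodd (Pi.mulSingle r y : Δ))
    rw [map_pow, map_mul, map_inv, show π (Pi.mulSingle r y : Δ) = y by
      show (Pi.mulSingle r y : Δ) r = y
      simp] at h1
    exact h1
  · have hr := hQp r r.2
    have hrS := hQS r r.2
    have hr2 : ¬ (r : ℕ) ^ 2 ∣ M := fun h => by
      have h2 : (r : ℕ) ^ 2 ∣ D := (Nat.Coprime.pow_left 2 (hr.coprime_iff_not_dvd.mpr fun h' =>
        hrS (H.level_mem r hr h'))).dvd_of_dvd_mul_left h
      exact hr.not_isUnit (hsq r (by rwa [← pow_two]))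
    have h1 := trace_inertia_levelRep (ρbar := ρbar) hp2 hΔ hc hpS' hMS hne hred HR.ρ hres Φ hgalΦ
      hquad hr (fun h => hrS (h ▸ H.p_mem)) (hQM r r.2).2.1 hr2 (hQ r r.2).2.2.1 hA
      (fun τ hτ => residual_unramified hp2 (Finset.mem_insert_self _ _)
        H.mem_levelPrimes H.absIrr H.frob_of_notMem hbotN hr (hQS₁ r r.2)
        A hA hτ) hσ
    refine LinearMap.ext fun x => Subtype.ext ?_
    rw [LinearMap.add_apply, Submodule.coe_add, coe_diaRestrict, coe_diaRestrict, h1,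
      latDia_eq_deltaHom hc, latDia_eq_deltaHom hc, map_inv c, map_pow c,
      char_cycM_of_mem hQM hg hr hA hσ r.2]
    rfl
  · let f : latLoc M c O S' a →ₗ[O] latLoc N (1 : (ZMod N)ˣ →* Unit) O S a :=
      LinearMap.proj i ∘ₗ ((e.trans eQ).toLinearMap ∘ₗ pr)
    refine intertwine_of_frobenius (L₁ := ↥(latLoc M c O S' a))
      (L₂ := ↥(latLoc N (1 : (ZMod N)ˣ →* Unit) O S a)) HR.ρ B.ρ Φ B.act f (S ∪ Q)
      (fun l hl hlS A hA τ hτ x => ?_) σ v
    have hlS' : l ∉ S' := fun h =>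
      hlS (Finset.union_subset_union H.levelPrimes_subset (Finset.Subset.refl Q) h)
    have hlM : ¬ l ∣ M := fun h => hlS' (hMS l hl h)
    let ℓ : GoodPrime M := ⟨⟨l, hl⟩, hlM⟩
    refine Subtype.ext ?_
    have h1 := trace_frobenius_eq_twT (O := O) (S := S') (a := a) hodd HR.ρ Φ hquad ℓ
      (fun h => hlS' (by rw [show l = p from h]; exact hpS')) hA hτ x
    have h2 := B.act_frobenius (downPrime (dvd_mul_right N D) ℓ)
      (fun h => hlS (Finset.mem_union_left Q h)) A hA τ hτ (eW (e (pr x) i))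
    show (e (pr (Φ (HR.ρ.trace τ) x)) i).1 = (B.act (B.ρ.trace τ) (eW (e (pr x) i))).1
    rw [h2]
    show _ = latT N (1 : (ZMod N)ˣ →* Unit) O _ (e (pr x) i).1
    rw [← he ℓ (pr x) i, show Φ (HR.ρ.trace τ) x = ⟨_, twT_mem_latLoc ℓ x.2⟩ from Subtype.ext h1]
    exact congrArg (fun z => (e z i).1) (Subtype.ext (hpreq ℓ x))

end Fermat.Agent.R59.Levels
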