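import Fermat.Agent.Auto.Level.Rank
import Fermat.Agent.Auto.Inertia.Loc
import Fermat.Agent.Raise.Ops

/-!
S59, unit C1: the two degeneracy maps between the residual parts of the lattices of levels `N` and
`N q`, and the composite with the two corestrictions.
-/

set_option autoImplicit false
set_option linter.unusedSectionVars false
set_option linter.style.haveILetI false

noncomputable section

namespace Fermat.Agent.R59.Levels

open CongruenceSubgroup IsLocalRing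
open Fermat.Agent.Auto
open Fermat.Agent.GalRep (GoodPrime transferHom)
open Fermat.Agent.Raise (GHom IsFam LevData zMat trans_heckeRep isFam_heckeRep)
open Fermat.Agent.DS (IsReps exists_twist)
open scoped MatrixGroups

variable {M : ℕ} [NeZero M] {A : Type} [AddCommGroup A]

theorem gamma0_le_grp_one : Gamma0 M ≤ grp M (1 : (ZMod M)ˣ →* Unit) := fun _ h => mem_grp_one.mpr h

theorem grp_one_le_gamma0 : grp M (1 : (ZMod M)ˣ →* Unit) ≤ Gamma0 M := fun _ h => h.1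

/-- A homomorphism of the group of the trivial character as one of `Γ₀(M)`. -/
def toG (z : Additive (grp M (1 : (ZMod M)ˣ →* Unit)) →+ A) : GHom (Gamma0 M) A :=
  z.comp (Subgroup.inclusion gamma0_le_grp_one).toAdditive

/-- A homomorphism of `Γ₀(M)` as one of the group of the trivial character. -/
def ofG (z : GHom (Gamma0 M) A) : Additive (grp M (1 : (ZMod M)ˣ →* Unit)) →+ A :=
  z.comp (Subgroup.inclusion grp_one_le_gamma0).toAdditive

theorem toG_ofG (z : GHom (Gamma0 M) A) : toG (ofG z) = z := AddMonoidHom.ext fun _ => rfl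

theorem toG_injective : Function.Injective (toG (M := M) (A := A)) := fun x y h =>
  AddMonoidHom.ext fun γ => by
    have := DFunLike.congr_fun h
      (Additive.ofMul (⟨((γ.toMul : grp M (1 : (ZMod M)ˣ →* Unit)) : SL(2, ℤ)),
        grp_one_le_gamma0 γ.toMul.2⟩ : Gamma0 M))
    exact this

/-- The operators agree. -/
theorem toG_homT (ℓ : GoodPrime M) {R : Type} [CommRing R] [Module R A]
    (z : Additive (grp M (1 : (ZMod M)ˣ →* Unit)) →+ A) :
    toG (homT (1 : (ZMod M)ˣ →* Unit) R A ℓ z) = transferHom (GalRep.goodIndex ℓ) (toG z) := by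
  have hℓ := ℓ.1.2
  obtain ⟨π, u, -, hu0, -, hu⟩ := exists_twist hℓ ℓ.2 (gpDia ℓ)
  set h := isReps_grp (c := (1 : (ZMod M)ˣ →* Unit)) hℓ ℓ.2 (gpDia ℓ)
  have hF : IsFam (Gamma0 M) (Gamma0 M) (GalRep.Level.heckeRepG M (ℓ : ℕ)
      (DS.diaMat (ZMod.unitOfCoprime _ ((ℓ.1.2.coprime_iff_not_dvd).2 ℓ.2)))) :=
    { det_ne := h.det_ne_zero
      inj := fun i j g e => h.sep i j ⟨g, gamma0_le_grp_one g.2⟩ e
      step := fun γ i => by
        obtain ⟨j, g, e⟩ := h.step ⟨γ, gamma0_le_grp_one γ.2⟩ i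
        exact ⟨j, ⟨g, grp_one_le_gamma0 g.2⟩, e⟩ }
  have h1 : toG (homT (1 : (ZMod M)ˣ →* Unit) R A ℓ z) = hF.trans (toG z) := by
    refine AddMonoidHom.ext fun t => ?_
    obtain ⟨γ, rfl⟩ := Additive.ofMul.surjective t
    show h.transfer z (Additive.ofMul ⟨(γ : SL(2, ℤ)), gamma0_le_grp_one γ.2⟩) = _
    rw [IsReps.transfer_apply, IsFam.trans_apply]
    refine Finset.sum_congr rfl fun i _ => ?_
    rw [(h.unique (γ := ⟨(γ : SL(2, ℤ)), gamma0_le_grp_one γ.2⟩) (i := i) (j := hF.idx γ i)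
      (g := ⟨(hF.coef γ i : SL(2, ℤ)), gamma0_le_grp_one (hF.coef γ i).2⟩) (hF.spec γ i)).2]
    rfl
  rw [h1, ← trans_heckeRep (GalRep.goodIndex ℓ)]
  exact hF.trans_congr (isFam_heckeRep (GalRep.goodIndex ℓ)) rfl 1 π.optionCongr
    (fun i => ⟨u i, hu0 i⟩) (fun i => by rw [one_smul]; exact hu i) (toG z)

variable {O : Type} [CommRing O]

theorem toG_latT (ℓ : GoodPrime M) (v : Lat M (1 : (ZMod M)ˣ →* Unit) O) :
    toG (latT M (1 : (ZMod M)ˣ →* Unit) O ℓ v).1 = transferHom (GalRep.goodIndex ℓ) (toG v.1) :=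
  toG_homT (R := O) ℓ v.1

theorem trans_smul {G G' : Subgroup SL(2, ℤ)} {ι : Type} [Fintype ι] {β : ι → Raise.ZMat}
    (h : IsFam G G' β) (r : O) (z : GHom G O) : h.trans (r • z) = r • h.trans z :=
  h.trans_comp_coeff (AddMonoidHom.mulLeft r) z

section Degeneracy

variable {N q : ℕ} [NeZero N] [NeZero (N * q)] (D : LevData N q)

theorem grp_mul_le :
    grp (N * q) (1 : (ZMod (N * q))ˣ →* Unit) ≤ grp N (1 : (ZMod N)ˣ →* Unit) := fun _ h =>
  mem_grp_one.mpr (LevData.mem_of_mem h.1)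

/-- The first degeneracy map. -/
def resL : Lat N (1 : (ZMod N)ˣ →* Unit) O →ₗ[O] Lat (N * q) (1 : (ZMod (N * q))ˣ →* Unit) O :=
  latRes grp_mul_le

theorem toG_resL (v : Lat N (1 : (ZMod N)ˣ →* Unit) O) : toG (resL (q := q) v).1 = D.res (toG v.1) := by
  refine AddMonoidHom.ext fun t => ?_
  obtain ⟨γ, rfl⟩ := Additive.ofMul.surjective t
  rw [LevData.res_apply]
  rfl

/-- The Atkin-Lehner operator on the lattice. -/
def wL : Module.End O (Lat (N * q) (1 : (ZMod (N * q))ˣ →* Unit) O) where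
  toFun v := ⟨ofG (D.wOp (toG v.1)), fun γ hγ => by
    show D.wOp (toG v.1) (Additive.ofMul ⟨(γ : SL(2, ℤ)), grp_one_le_gamma0 γ.2⟩) = 0
    rw [LevData.wOp, IsFam.trans_apply]
    refine Finset.sum_eq_zero fun i _ => v.2 _ ?_
    have e := congrArg (fun X => (D.wMat.adjugate * X).trace)
      (D.isFam_w.spec ⟨(γ : SL(2, ℤ)), grp_one_le_gamma0 γ.2⟩ i)
    simp only [LevData.wRep, ← Matrix.mul_assoc, Matrix.adjugate_mul, Matrix.smul_mul,
      Matrix.one_mul, Matrix.trace_smul] at e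
    rw [Matrix.trace_mul_comm, ← Matrix.mul_assoc, Matrix.mul_adjugate, Matrix.smul_mul,
      Matrix.one_mul, Matrix.trace_smul] at e
    have h2 := mul_left_cancel₀ (D.isFam_w.det_ne ()) e
    show (((D.isFam_w.coef ⟨(γ : SL(2, ℤ)), grp_one_le_gamma0 γ.2⟩ i : Gamma0 (N * q)) : SL(2, ℤ)) :
      Raise.ZMat).trace ^ 2 = 4
    rw [show (((D.isFam_w.coef ⟨(γ : SL(2, ℤ)), grp_one_le_gamma0 γ.2⟩ i : Gamma0 (N * q)) :
      SL(2, ℤ)) : Raise.ZMat).trace = ((γ : SL(2, ℤ)) : Raise.ZMat).trace from h2.symm]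
    exact hγ⟩
  map_add' v w := Subtype.ext (by
    show ofG (D.wOp (toG (v.1 + w.1))) = ofG (D.wOp (toG v.1)) + ofG (D.wOp (toG w.1))
    rw [show toG (v.1 + w.1) = toG v.1 + toG w.1 from rfl, map_add]
    rfl)
  map_smul' r v := Subtype.ext (by
    show ofG (D.wOp (toG (r • v.1))) = r • ofG (D.wOp (toG v.1))
    rw [show toG (r • v.1) = r • toG v.1 from rfl, LevData.wOp, trans_smul]
    rfl)

theorem toG_wL (v : Lat (N * q) (1 : (ZMod (N * q))ˣ →* Unit) O) :
    toG (wL D v).1 = D.wOp (toG v.1) := toG_ofG _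

theorem resL_latT (l : Nat.Primes) (hl : ¬ (l : ℕ) ∣ N) (hl' : ¬ (l : ℕ) ∣ N * q)
    (v : Lat N (1 : (ZMod N)ˣ →* Unit) O) :
    resL (q := q) (latT N 1 O ⟨l, hl⟩ v) = latT (N * q) 1 O ⟨l, hl'⟩ (resL v) :=
  latRes_latT _ (dvd_mul_right N q) l hl hl' v

theorem wL_latT (ℓ : GoodPrime (N * q)) (v : Lat (N * q) (1 : (ZMod (N * q))ˣ →* Unit) O) :
    wL D (latT (N * q) 1 O ℓ v) = latT (N * q) 1 O ℓ (wL D v) :=
  Subtype.ext (toG_injective (by rw [toG_wL, toG_latT, toG_latT, toG_wL, LevData.wOp_transfer]))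

/-- The composite with the two corestrictions. -/
theorem cor_pair (hq : ¬ q ∣ N) (x y : Lat N (1 : (ZMod N)ˣ →* Unit) O) :
    D.cor (toG (resL (q := q) x + wL D (resL y)).1) =
        toG (((q + 1 : ℕ) : O) • x + latT N 1 O ⟨⟨q, D.prime⟩, hq⟩ y).1 ∧
      D.cor (D.wOp (toG (resL (q := q) x + wL D (resL y)).1)) =
        toG (latT N 1 O ⟨⟨q, D.prime⟩, hq⟩ x + ((q + 1 : ℕ) : O) • y).1 := by
  have hadd : toG (resL (q := q) x + wL D (resL y)).1 =
      D.res (toG x.1) + D.wOp (D.res (toG y.1)) := by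
    rw [← toG_resL D x, ← toG_resL D y, ← toG_wL]
    rfl
  have hs : ∀ v : Lat N (1 : (ZMod N)ˣ →* Unit) O,
      toG (((q + 1 : ℕ) : O) • v).1 = (q + 1) • toG v.1 := fun v => by
    rw [Nat.cast_smul_eq_nsmul]
    rfl
  rw [hadd]
  constructor
  · rw [map_add, D.cor_res, D.cor_wOp_res]
    show _ = toG (((q + 1 : ℕ) : O) • x).1 + toG (latT N 1 O ⟨⟨q, D.prime⟩, hq⟩ y).1
    rw [hs, toG_latT]
  · rw [map_add, map_add, D.cor_wOp_res, D.wOp_wOp, D.cor_res]
    show _ = toG (latT N 1 O ⟨⟨q, D.prime⟩, hq⟩ x).1 + toG (((q + 1 : ℕ) : O) • y).1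
    rw [hs, toG_latT]

end Degeneracy

end Fermat.Agent.R59.Levels
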