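import Fermat.Agent.Auto.Level.Char
import Fermat.Agent.Auto.Lat
import Fermat.Agent.Auto.Free.Fitting
import Fermat.Agent.GalRep.Level.SL2
import Fermat.Agent.GalRep.Cyclo
import Fermat.Prelude.Def_GaloisRep_Flat
import Fermat.Prelude.Def_GaloisRep_LocalConditions
import Fermat.Prelude.Def_CuspForm_HeckeAlgebra

/-!
S59, unit C1: what the automorphic side hands to the minimal patching, for `p` odd (flat variant if
`p` is prime to the level, ordinary variant if `p` divides it exactly once). The level `N` is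
arbitrary; for `p = 3` it carries a neat prime `r ≡ 2 (mod 3)`.
-/

set_option autoImplicit false
set_option linter.unusedSectionVars false

noncomputable section

namespace Fermat.Agent.R59.Levels

open IsLocalRing CongruenceSubgroup
open Fermat.Agent.Galois (GQ)
open Fermat.Agent.GalRep (cyc GoodPrime)
open Fermat.Agent.GalRep.Level (cycM)
open Fermat.Agent.Auto (CharGrp Lat latLoc latT)

variable (p : ℕ) [Fact p.Prime] (O : Type) [CommRing O] [IsDomain O] [IsDiscreteValuationRing O]
  [IsAdicComplete (maximalIdeal O) O] [Finite (ResidueField O)]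
  [Algebra ℤ_[p] O] [Module.Finite ℤ_[p] O] [CharZero O]

/-- The residual setting: a form of level `N` giving `ρbar`. -/
structure Setting (ρbar : ResidualGaloisRep (ResidueField O)) (N : ℕ) [NeZero N]
    (S : Finset ℕ) (a : ℕ → O) : Prop where
  ne_two : p ≠ 2
  p_mem : p ∈ S
  level_mem : ∀ l : ℕ, l.Prime → l ∣ N → l ∈ S
  neat : p = 3 → ∃ r : ℕ, r.Prime ∧ r ∣ N ∧ r % 3 = 2
  absIrr : ρbar.IsAbsolutelyIrreducible
  charpoly_frob : ∀ l : ℕ, l.Prime → l ≠ p → ¬ l ∣ N → ∀ A : ValuationSubring (AlgebraicClosure ℚ),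
    A.LiesOverPrime l → ∀ σ : GQ, A.IsFrobeniusAt σ l →
      LinearMap.charpoly (ρbar.ρ σ) = Polynomial.X ^ 2 -
        Polynomial.C (residue O (a l)) * Polynomial.X + Polynomial.C ((l : ResidueField O))
  ne_bot : latLoc N (1 : (ZMod N)ˣ →* Unit) O S a ≠ ⊥

/-- What holds of the representation at every level `N ∏ Q`. -/
structure RepAt (ρbar : ResidualGaloisRep (ResidueField O)) (N : ℕ) (S Q : Finset ℕ)
    {T : Type} [CommRing T] [IsLocalRing T] [Algebra O T] [IsLocalHom (algebraMap O T)]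
    (ρ : GaloisRepAdic T) : Prop where
  residue_surjective : Function.Surjective (residue T ∘ algebraMap O T)
  residual : ρ.residual.IsEquiv (ρbar.baseChangeAlong (ResidueField.map (algebraMap O T)))
  adjoin_trace : Algebra.adjoin O {t : T | ∃ l : ℕ, l.Prime ∧ l ∉ S ∧ l ∉ Q ∧
    ∃ A : ValuationSubring (AlgebraicClosure ℚ), A.LiesOverPrime l ∧
      ∃ σ : GQ, A.IsFrobeniusAt σ l ∧ t = ρ.trace σ} = ⊤
  det_eq : ∀ σ : GQ,
    LinearMap.det (ρ.ρ σ) = algebraMap O T (algebraMap ℤ_[p] O (cyc p σ : ℤ_[p]))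
  unramified : ∀ l : ℕ, l.Prime → l ≠ p → ¬ l ∣ N → l ∉ Q → ρ.IsUnramifiedAt l
  unipotent : ∀ l : ℕ, l.Prime → l ≠ p → l ∣ N → ¬ l ^ 2 ∣ N → ρ.IsUnipotentOnInertiaAt l
  flat : ¬ p ∣ N → ρ.IsFlatAt p
  ordinary : p ∣ N → ¬ p ^ 2 ∣ N →
    (GaloisRepAdic.ofResidualGaloisRep ρ.residual).IsOrdinaryAt p → ρ.IsOrdinaryAt p

/-- The data at level `N`: `V` is the residual part of the lattice of level `Γ₀(N)`. -/
structure BaseData (ρbar : ResidualGaloisRep (ResidueField O)) (N : ℕ) [NeZero N]
    (S : Finset ℕ) (a : ℕ → O) : Type 1 where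
  T : Type
  [commRing : CommRing T]
  [isLocalRing : IsLocalRing T]
  [algebra : Algebra O T]
  [isLocalHom : IsLocalHom (algebraMap O T)]
  [isNoetherian : IsNoetherianRing T]
  [isComplete : IsAdicComplete (maximalIdeal T) T]
  [finite : Module.Finite O T]
  [free : Module.Free O T]
  ρ : GaloisRepAdic T
  repAt : RepAt p O ρbar N S ∅ ρ
  act : T →ₐ[O] Module.End O (latLoc N (1 : (ZMod N)ˣ →* Unit) O S a)
  act_frobenius : ∀ (l : GoodPrime N), (l : ℕ) ∉ S →
    ∀ A : ValuationSubring (AlgebraicClosure ℚ), A.LiesOverPrime (l : ℕ) →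
      ∀ σ : GQ, A.IsFrobeniusAt σ (l : ℕ) → ∀ v : latLoc N (1 : (ZMod N)ˣ →* Unit) O S a,
        ((act (ρ.trace σ) v : latLoc N (1 : (ZMod N)ˣ →* Unit) O S a) :
            Lat N (1 : (ZMod N)ˣ →* Unit) O) =
          latT N (1 : (ZMod N)ˣ →* Unit) O l v
  nontrivial : Nontrivial (latLoc N (1 : (ZMod N)ˣ →* Unit) O S a)

attribute [instance] BaseData.commRing BaseData.isLocalRing BaseData.algebra BaseData.isLocalHom
  BaseData.isNoetherian BaseData.isComplete BaseData.finite BaseData.free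

/-- The data at the level `N ∏ Q` over data at level `N`: a free module over the group ring of the
diamond operators at `Q` whose coinvariants are `2 ^ #Q` copies of the module at level `N`. -/
structure LevelData {ρbar : ResidualGaloisRep (ResidueField O)} {N : ℕ} [NeZero N]
    {S : Finset ℕ} {a : ℕ → O} (B : BaseData p O ρbar N S a) (Q : Finset ℕ) (n : ℕ) : Type 1 where
  T : Type
  [commRing : CommRing T]
  [isLocalRing : IsLocalRing T]
  [algebra : Algebra O T]
  [isLocalHom : IsLocalHom (algebraMap O T)]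
  [isNoetherian : IsNoetherianRing T]
  [isComplete : IsAdicComplete (maximalIdeal T) T]
  [finite : Module.Finite O T]
  [free : Module.Free O T]
  ρ : GaloisRepAdic T
  repAt : RepAt p O ρbar N S Q ρ
  V : Type
  [addCommGroup : AddCommGroup V]
  [module : Module O V]
  [moduleFinite : Module.Finite O V]
  [moduleFree : Module.Free O V]
  act : T →ₐ[O] Module.End O V
  dia : CharGrp p Q (fun _ => n + 1) →* Module.End O V
  dia_commute : ∀ x t, Commute (dia x) (act t)
  basis : ∃ b : Fin (2 ^ Q.card * Module.finrank O (latLoc N (1 : (ZMod N)ˣ →* Unit) O S a)) → V,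
    ∀ v : V, ∃! f : Fin (2 ^ Q.card * Module.finrank O (latLoc N (1 : (ZMod N)ˣ →* Unit) O S a)) →
      CharGrp p Q (fun _ => n + 1) → O, v = ∑ i, ∑ x, f i x • dia x (b i)
  delta : (r : Q) → (ZMod (r : ℕ))ˣ →* CharGrp p Q (fun _ => n + 1)
  delta_off : ∀ (r r' : Q) (u : (ZMod (r : ℕ))ˣ), r' ≠ r → delta r u r' = 1
  delta_surjective : ∀ r : Q, Function.Surjective fun u => delta r u r
  inertia_tw : ∀ (r : Q) [NeZero (r : ℕ)] (A : ValuationSubring (AlgebraicClosure ℚ)),
    A.LiesOverPrime (r : ℕ) → ∀ σ ∈ A.inertiaSubgroupIn ℚ,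
      act (ρ.trace σ) = dia (delta r (cycM (r : ℕ) σ)) + dia (delta r (cycM (r : ℕ) σ))⁻¹
  proj : V →ₗ[O] Fin (2 ^ Q.card) → latLoc N (1 : (ZMod N)ˣ →* Unit) O S a
  proj_surjective : Function.Surjective proj
  ker_proj : ∀ v, proj v = 0 ↔ v ∈ Submodule.span O {y | ∃ x w, y = dia x w - w}
  proj_act : ∀ (σ : GQ) (v : V) (i : Fin (2 ^ Q.card)),
    proj (act (ρ.trace σ) v) i = B.act (B.ρ.trace σ) (proj v i)

attribute [instance] LevelData.commRing LevelData.isLocalRing LevelData.algebra
  LevelData.isLocalHom LevelData.isNoetherian LevelData.isComplete LevelData.finite LevelData.free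
  LevelData.addCommGroup LevelData.module LevelData.moduleFinite LevelData.moduleFree

end Fermat.Agent.R59.Levels
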