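import Fermat.Agent.Auto.Level.Rank

/-!
S59, unit C1: the rank at most doubles at each Taylor-Wiles prime for every odd `p`.
-/

set_option autoImplicit false
set_option linter.unusedSectionVars false
set_option linter.style.haveILetI false
set_option synthInstance.maxHeartbeats 400000

noncomputable section

namespace Fermat.Agent.R59.Levels

open CongruenceSubgroup IsLocalRing
open Fermat.Agent.Galois (GQ)
open Fermat.Agent.GalRep (cyc cyc_inertia cyc_frobenius)
open Fermat.Agent.GalRep.Level (cycM)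
open scoped MatrixGroups
open Fermat.Agent.Auto hiding finrank_latLoc_qm_le finrank_latLoc_mul_le finrank_latLoc_prod_le

section Residual

open Fermat.Agent.Auto.Qn hiding relOp_eq_zero_of_qnew
open Fermat.Agent.Auto.Tw (embLat mapLat)

variable {p : ℕ} [Fact p.Prime] {O : Type} [CommRing O] [IsDomain O] [IsDiscreteValuationRing O]
  [IsAdicComplete (maximalIdeal O) O] [Finite (ResidueField O)]
  [Algebra ℤ_[p] O] [Module.Finite ℤ_[p] O] [CharZero O]
  {q m D : ℕ} [Fact q.Prime] [NeZero q] [NeZero m] [NeZero (q * m)] [NeZero (q * m * D)]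
  [NeZero (m * D)] {Δ : Type} [CommGroup Δ] [Fintype Δ] {c : (ZMod (q * m))ˣ →* Δ}
  {c' : (ZMod m)ˣ →* Δ} {S : Finset ℕ} {a : ℕ → O}

set_option maxHeartbeats 1600000 in
/-- The relation at `q` for classes with vanishing translate sums. -/
theorem relOp_eq_zero_of_qnew (hp2 : p ≠ 2) (hp : (p : O) ∈ maximalIdeal O) (hΔ : IsPGroup p Δ)
    (ρbar : ResidualGaloisRep (ResidueField O)) (habs : ρbar.IsAbsolutelyIrreducible)
    (hfrob : ∀ l : ℕ, l.Prime → l ∉ S → ∀ A : ValuationSubring (AlgebraicClosure ℚ),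
      A.LiesOverPrime l → ∀ σ : GQ, A.IsFrobeniusAt σ l →
        LinearMap.charpoly (ρbar.ρ σ) = Polynomial.X ^ 2 -
          Polynomial.C (residue O (a l)) * Polynomial.X + Polynomial.C ((l : ResidueField O)))
    (hqm : q.Coprime m) (hc : ∀ u, c' (ZMod.unitsMap (dvd_mul_left m q) u) = c u)
    (hD : D ∣ m) (hsq : Squarefree D)
    (hcD : ∀ u : (ZMod (q * m))ˣ, ((u : ZMod (q * m)).val : ZMod D) = 1 → c u = 1)
    (hpS : p ∈ S) (hMS : ∀ l : ℕ, l.Prime → l ∣ q * m → l ∈ S) (hqp : q ≠ p)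
    {A : ValuationSubring (AlgebraicClosure ℚ)} (hA : A.LiesOverPrime q) {σ : GQ}
    (hσ : A.IsFrobeniusAt σ q) {x : Lat (q * m) c O} (hx : x ∈ latLoc (q * m) c O S a)
    (hnew : QNew q m (embLat (K := coeffField O) (mapLat (coeffMap O) x))) :
    relOp q (galTw (q * m) c p O σ) x = 0 := by
  by_cases hne : latLoc (q * m) c O S a = ⊥
  · rw [hne, Submodule.mem_bot] at hx
    rw [hx, map_zero]
  have hDM : D ∣ q * m := dvd_mul_of_dvd_right hD q
  have hodd : Odd (Nat.card Δ) := by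
    obtain ⟨e, he⟩ := IsPGroup.iff_card.mp hΔ
    rw [he]
    exact ((Fact.out : p.Prime).odd_of_ne_two hp2).pow
  obtain ⟨θ, H, Φ, hres, -, -, hquad⟩ := exists_levelRep (p := p) (M := q * m) (D := D) (c := c)
    (S := S) (a := a) ρbar hp2 hp hΔ hDM hsq hcD hpS hMS habs hfrob hne
  have htr : ∀ g (y : latLoc (q * m) c O S a), ((Φ (H.ρ.trace g) y :
      latLoc (q * m) c O S a) : Lat (q * m) c O) = twTr (q * m) c p O g y := by
    intro g y
    have h := hquad g ⟨galTw (q * m) c p O g⁻¹ y, galTw_mem_latLoc g⁻¹ y.2⟩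
    have e : galTw (q * m) c p O g (galTw (q * m) c p O g⁻¹ (y : Lat (q * m) c O)) =
        (y : Lat (q * m) c O) := by
      rw [← Module.End.mul_apply, galTw_mul_inv, Module.End.one_apply]
    have e' : (⟨galTw (q * m) c p O g (galTw (q * m) c p O g⁻¹ (y : Lat (q * m) c O)),
        galTw_mem_latLoc g (galTw_mem_latLoc g⁻¹ y.2)⟩ : latLoc (q * m) c O S a) = y := Subtype.ext e
    dsimp only at h
    rw [e', e] at h
    rw [twTr, LinearMap.add_apply, Module.End.mul_apply, Module.algebraMap_end_apply]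
    have h5 : galTw (q * m) c p O g (y : Lat (q * m) c O) +
        cycO (p := p) O g • galTw (q * m) c p O g⁻¹ (y : Lat (q * m) c O) =
        ((Φ (H.ρ.trace g) y : latLoc (q * m) c O S a) : Lat (q * m) c O) := by
      rw [← sub_eq_zero, ← h]; abel
    exact h5.symm
  obtain ⟨r, hr⟩ := Deform.exists_rhasMatrix ρbar
  obtain ⟨k, hk, hid⟩ := exists_idents_tw (p := p) (O := O) (c := c) hqm hc hD hsq hcD hodd hqp hA hσ
  obtain ⟨h1, h2⟩ := hid x hnew
  obtain ⟨am, at', an⟩ := agree_idents Φ H.ρ.trace (twTr (q * m) c p O) htr q k σ (chiO p O)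
  set y : latLoc (q * m) c O S a := ⟨x, hx⟩ with hy
  have hrad := mem_radical_of_idents (isUnit_two (p := p) (O := O) hp2) H.ρ.trace (trace_at_one H.ρ)
    (chiO p O) q k σ r (hr.traceNondeg habs) (fun g => exists_residual_trace H.ρ ρbar hres hr g)
    (annVec Φ y) (fun a b => Subtype.ext ((am a b y).trans (h1 a b)))
    (fun a => Subtype.ext ((at' a y).trans (h2 a)))
  obtain ⟨n, hn⟩ := hrad
  rw [mul_pow, mem_annVec, map_mul, Module.End.mul_apply,
    show ((q : CuspForm.heckeLocal (q * m * D) (↑S : Set ℕ) O θ) ^ k - 1) ^ n = algebraMap O _ (((q : O) ^ k - 1) ^ n) by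
      rw [map_pow, map_sub, map_pow, map_natCast, map_one],
    AlgHom.commutes, Module.algebraMap_end_apply] at hn
  have hQ : ((q : O) ^ k - 1) ^ n ≠ 0 := by
    refine pow_ne_zero _ (sub_ne_zero.mpr ?_)
    have : 1 < q ^ k := Nat.one_lt_pow hk.ne' (Fact.out : q.Prime).one_lt
    exact_mod_cast this.ne'
  haveI : Module.IsTorsionFree O (Lat (q * m) c O) := inferInstance
  have hen : (eOp (twTr (q * m) c p O) q σ ^ n) x = 0 := by
    have := congrArg Subtype.val hn
    rw [Submodule.coe_smul, ZeroMemClass.coe_zero, an n y] at this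
    exact (smul_eq_zero.mp this).resolve_left hQ
  have he := eOp_apply_eq_zero hDM hsq hcD hodd q σ n hen
  have hFG := galTw_mul_inv (M := q * m) (c := c) (p := p) (O := O) σ
  have hGF : galTw (q * m) c p O σ⁻¹ * galTw (q * m) c p O σ = 1 := by
    rw [← map_mul, inv_mul_cancel, map_one]
  rw [relOp_eq_sq_mul hFG hGF q (E := twTr (q * m) c p O σ) (by
      rw [twTr, cyc_frobenius p Fact.out hqp hA hσ, map_natCast, map_natCast]),
    Module.End.mul_apply]
  exact (congrArg _ he).trans (map_zero _)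

end Residual

variable {p : ℕ} [Fact p.Prime] {O : Type} [CommRing O] [IsDomain O] [IsDiscreteValuationRing O]
  [IsAdicComplete (maximalIdeal O) O] [Finite (ResidueField O)]
  [Algebra ℤ_[p] O] [Module.Finite ℤ_[p] O] [CharZero O]
  {M : ℕ} [NeZero M] {S : Finset ℕ} {a : ℕ → O}

/-- The rank at most doubles from level `m` to level `q m`. -/
theorem finrank_latLoc_qm_le {q m : ℕ} [Fact q.Prime] [NeZero q] [NeZero m] [NeZero (q * m)]
    (hqm : q.Coprime m) (hqp : q ≠ p) (hp2 : p ≠ 2) (hpS : p ∈ S)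
    (hMS : ∀ l : ℕ, l.Prime → l ∣ q * m → l ∈ S)
    (ρbar : ResidualGaloisRep (ResidueField O)) (habs : ρbar.IsAbsolutelyIrreducible)
    (hfrob : ∀ l : ℕ, l.Prime → l ∉ S → ∀ A : ValuationSubring (AlgebraicClosure ℚ),
      A.LiesOverPrime l → ∀ σ : GQ, A.IsFrobeniusAt σ l →
        LinearMap.charpoly (ρbar.ρ σ) = Polynomial.X ^ 2 -
          Polynomial.C (residue O (a l)) * Polynomial.X + Polynomial.C ((l : ResidueField O)))
    (hno : ∀ A : ValuationSubring (AlgebraicClosure ℚ), A.LiesOverPrime q → ∀ σ : GQ,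
      A.IsFrobeniusAt σ q → ∀ x : Lat (q * m) (1 : (ZMod (q * m))ˣ →* Unit) O,
        x ∈ latLoc (q * m) (1 : (ZMod (q * m))ˣ →* Unit) O S a →
        relOp q (galLat (q * m) 1 p O σ) x ∈ maximalIdeal O • (⊤ : Submodule O _) →
        x ∈ maximalIdeal O • (⊤ : Submodule O _)) :
    Module.finrank O (latLoc (q * m) (1 : (ZMod (q * m))ˣ →* Unit) O S a) ≤
      2 * Module.finrank O (latLoc m (1 : (ZMod m)ˣ →* Unit) O S a) := by
  haveI : NeZero (q * m * 1) := ⟨by rw [mul_one]; exact NeZero.ne _⟩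
  haveI : NeZero (m * 1) := ⟨by rw [mul_one]; exact NeZero.ne _⟩
  have hp : (p : O) ∈ maximalIdeal O := natCast_p_mem p O
  have hc : ∀ u, (1 : (ZMod m)ˣ →* Unit) (ZMod.unitsMap (dvd_mul_left m q) u) =
      (1 : (ZMod (q * m))ˣ →* Unit) u := fun _ => rfl
  set T₁ := (Qn.carrier_one hqm hc).traceMap (R := O)
  set T₂ := (Qn.carrier_bM hqm hc).traceMap (R := O)
  set V := latLoc (q * m) (1 : (ZMod (q * m))ˣ →* Unit) O S a
  set W := latLoc m (1 : (ZMod m)ˣ →* Unit) O S a
  let f : V →ₗ[O] W × W :=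
    (T₁.restrict fun x hx => (Qn.carrier_one hqm hc).traceMap_mem_latLoc hMS hx).prod
      (T₂.restrict fun x hx => (Qn.carrier_bM hqm hc).traceMap_mem_latLoc hMS hx)
  obtain ⟨A, hA⟩ := Galois.exists_liesOverPrime (Fact.out : q.Prime)
  obtain ⟨σ, hσ⟩ := Galois.exists_isFrobeniusAt (Fact.out : q.Prime) hA
  obtain ⟨ϖ, hϖ⟩ := IsDiscreteValuationRing.exists_irreducible O
  haveI : Module.IsTorsionFree O (Lat (q * m) (1 : (ZMod (q * m))ˣ →* Unit) O) := inferInstance
  haveI : IsHausdorff (maximalIdeal O) (Lat (q * m) (1 : (ZMod (q * m))ˣ →* Unit) O) :=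
    IsHausdorff.of_le_jacobson _ _ (IsLocalRing.maximalIdeal_le_jacobson _)
  have hker : ∀ x ∈ V, T₁ x = 0 → T₂ x = 0 → ∀ k : ℕ, x ∈ maximalIdeal O ^ k • (⊤ : Submodule O _) := by
    intro x hx h1 h2 k
    induction k with
    | zero => simp
    | succ k ih =>
      obtain ⟨y, rfl⟩ := (mem_pow_smul_of_irreducible hϖ).mp ih
      have hy : y ∈ V := locPart_pow_saturated hϖ k hx
      have e1 : T₁ y = 0 := by
        rw [map_smul] at h1
        exact (smul_eq_zero.mp h1).resolve_left (pow_ne_zero _ hϖ.ne_zero)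
      have e2 : T₂ y = 0 := by
        rw [map_smul] at h2
        exact (smul_eq_zero.mp h2).resolve_left (pow_ne_zero _ hϖ.ne_zero)
      have h := relOp_eq_zero_of_qnew (D := 1) hp2 hp (fun _ => ⟨0, Subsingleton.elim _ _⟩) ρbar
        habs hfrob hqm hc (one_dvd m) squarefree_one (fun _ _ => rfl) hpS hMS hqp hA hσ hy
        (Qn.qnew_of_traces hqm hc y e1 e2)
      rw [Qn.galTw_unit] at h
      have hy' := hno A hA σ hσ y hy (by rw [h]; exact Submodule.zero_mem _)
      rw [← pow_one (maximalIdeal O), mem_pow_smul_of_irreducible hϖ] at hy'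
      obtain ⟨z, rfl⟩ := hy'
      exact (mem_pow_smul_of_irreducible hϖ).mpr ⟨z, by rw [smul_smul, pow_one, pow_succ]⟩
  have hinj : Function.Injective f := fun x y h => by
    refine Subtype.ext (sub_eq_zero.mp (IsHausdorff.haus
      (inferInstance : IsHausdorff (maximalIdeal O) _) _ fun k => ?_))
    rw [SModEq.zero]
    refine hker _ (sub_mem x.2 y.2) ?_ ?_ k
    · rw [map_sub, sub_eq_zero]; exact congrArg (fun z : W × W => Subtype.val z.1) h
    · rw [map_sub, sub_eq_zero]; exact congrArg (fun z : W × W => Subtype.val z.2) h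
  haveI : Module.Finite O W := Module.IsNoetherian.finite O _
  haveI : Module.IsTorsionFree O W := inferInstance
  letI : AddCommGroup W := W.addCommGroup
  haveI : Module.Free O W := Module.free_of_finite_type_torsion_free' (M := W)
  exact (LinearMap.finrank_le_finrank_of_injective hinj).trans
    (by rw [Module.finrank_prod, two_mul])

/-- No new eigen-systems at a prime where the trace forbids level raising: the rank at most
doubles. -/
theorem finrank_latLoc_mul_le (r : ℕ) [NeZero (M * r)] (hr : r.Prime) (hrM : ¬ r ∣ M) (hrp : r ≠ p)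
    (hp2 : p ≠ 2) (hpS : p ∈ S) (hrS : r ∈ S) (hMS : ∀ l : ℕ, l.Prime → l ∣ M → l ∈ S)
    (hne : NonEis S a)
    (ρbar : ResidualGaloisRep (ResidueField O)) (habs : ρbar.IsAbsolutelyIrreducible)
    (hfrob : ∀ l : ℕ, l.Prime → l ∉ S → ∀ A : ValuationSubring (AlgebraicClosure ℚ),
      A.LiesOverPrime l → ∀ σ : GQ, A.IsFrobeniusAt σ l →
        LinearMap.charpoly (ρbar.ρ σ) = Polynomial.X ^ 2 -
          Polynomial.C (residue O (a l)) * Polynomial.X + Polynomial.C ((l : ResidueField O)))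
    (hno : ∀ A : ValuationSubring (AlgebraicClosure ℚ), A.LiesOverPrime r → ∀ σ : GQ,
      A.IsFrobeniusAt σ r → ∀ x : Lat (M * r) (1 : (ZMod (M * r))ˣ →* Unit) O,
        x ∈ latLoc (M * r) (1 : (ZMod (M * r))ˣ →* Unit) O S a →
        relOp r (galLat (M * r) 1 p O σ) x ∈ maximalIdeal O • (⊤ : Submodule O _) →
        x ∈ maximalIdeal O • (⊤ : Submodule O _)) :
    Module.finrank O (latLoc (M * r) (1 : (ZMod (M * r))ˣ →* Unit) O S a) ≤
      2 * Module.finrank O (latLoc M (1 : (ZMod M)ˣ →* Unit) O S a) := by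
  haveI : Fact r.Prime := ⟨hr⟩
  haveI : NeZero r := ⟨hr.ne_zero⟩
  have key : ∀ N : ℕ, N = r * M → ∀ [NeZero N],
      (∀ l : ℕ, l.Prime → l ∣ N → l ∈ S) →
      (∀ A : ValuationSubring (AlgebraicClosure ℚ), A.LiesOverPrime r → ∀ σ : GQ,
        A.IsFrobeniusAt σ r → ∀ x : Lat N (1 : (ZMod N)ˣ →* Unit) O,
          x ∈ latLoc N (1 : (ZMod N)ˣ →* Unit) O S a →
          relOp r (galLat N 1 p O σ) x ∈ maximalIdeal O • (⊤ : Submodule O _) →
          x ∈ maximalIdeal O • (⊤ : Submodule O _)) →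
      Module.finrank O (latLoc N (1 : (ZMod N)ˣ →* Unit) O S a) ≤
        2 * Module.finrank O (latLoc M (1 : (ZMod M)ˣ →* Unit) O S a) := by
    intro N hN
    subst hN
    intro _ hNS hno'
    exact finrank_latLoc_qm_le (hr.coprime_iff_not_dvd.mpr hrM) hrp hp2 hpS hNS ρbar habs hfrob hno'
  refine key _ (mul_comm M r) (fun l hl h => ?_) hno
  rcases hl.dvd_mul.mp h with h | h
  · exact hMS l hl h
  · exact ((Nat.prime_dvd_prime_iff_eq hl hr).mp h) ▸ hrS

/-- The rank grows at most by a factor two at each Taylor-Wiles prime. -/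
theorem finrank_latLoc_prod_le (hp2 : p ≠ 2) (hp : (p : O) ∈ maximalIdeal O)
    (ρbar : ResidualGaloisRep (ResidueField O)) (habs : ρbar.IsAbsolutelyIrreducible)
    {S' : Finset ℕ} (hSS : S ⊆ S')
    (hfrob : ∀ l : ℕ, l.Prime → l ∉ S → ∀ A : ValuationSubring (AlgebraicClosure ℚ),
      A.LiesOverPrime l → ∀ σ : GQ, A.IsFrobeniusAt σ l →
        LinearMap.charpoly (ρbar.ρ σ) = Polynomial.X ^ 2 -
          Polynomial.C (residue O (a l)) * Polynomial.X + Polynomial.C ((l : ResidueField O)))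
    {N : ℕ} [NeZero N] (hpS : p ∈ S) (hNS : ∀ l : ℕ, l.Prime → l ∣ N → l ∈ S) :
    ∀ Q : Finset ℕ, Q ⊆ S' → (∀ r ∈ Q, r.Prime ∧ r ∉ S ∧ r ≡ 1 [MOD p] ∧ residue O (a r) ^ 2 ≠ 4) →
      ∀ [NeZero (N * ∏ r ∈ Q, r)],
        Module.finrank O (latLoc (N * ∏ r ∈ Q, r) (1 : (ZMod (N * ∏ r ∈ Q, r))ˣ →* Unit) O S' a) ≤
          2 ^ Q.card * Module.finrank O (latLoc N (1 : (ZMod N)ˣ →* Unit) O S' a) := by
  classical
  intro Q
  induction Q using Finset.induction_on with
  | empty =>
    intro _ _ _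
    simp only [Finset.prod_empty, Finset.card_empty, pow_zero, one_mul]
    have key : ∀ M : ℕ, M = N → ∀ [NeZero M],
        Module.finrank O (latLoc M (1 : (ZMod M)ˣ →* Unit) O S' a) =
          Module.finrank O (latLoc N (1 : (ZMod N)ˣ →* Unit) O S' a) := fun M h _ => by subst h; rfl
    exact (key _ (mul_one N)).le
  | insert r Q hrQ ih =>
    intro hsub hQ _
    obtain ⟨hr, hrS, hr1, har⟩ := hQ r (Finset.mem_insert_self r Q)
    have hrp : r ≠ p := fun h => hrS (h ▸ hpS)
    have hQ' : ∀ l ∈ Q, l.Prime ∧ l ∉ S ∧ l ≡ 1 [MOD p] ∧ residue O (a l) ^ 2 ≠ 4 := fun l hl =>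
      hQ l (Finset.mem_insert_of_mem hl)
    set P := N * ∏ l ∈ Q, l with hP
    haveI : NeZero P :=
      ⟨mul_ne_zero (NeZero.ne N) (Finset.prod_ne_zero_iff.mpr fun l hl => (hQ' l hl).1.ne_zero)⟩
    have hrP : ¬ r ∣ P := fun h => by
      rcases hr.dvd_mul.mp h with h | h
      · exact hrS (hNS r hr h)
      · obtain ⟨l, hl, hrl⟩ := (Prime.dvd_finsetProd_iff hr.prime _).mp h
        exact hrQ (((Nat.prime_dvd_prime_iff_eq hr (hQ' l hl).1).mp hrl) ▸ hl)
    haveI : NeZero (P * r) := ⟨mul_ne_zero (NeZero.ne P) hr.ne_zero⟩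
    have hPS : ∀ l : ℕ, l.Prime → l ∣ P → l ∈ S' := fun l hl h => by
      rcases hl.dvd_mul.mp h with h | h
      · exact hSS (hNS l hl h)
      · obtain ⟨l', hl', hll⟩ := (Prime.dvd_finsetProd_iff hl.prime _).mp h
        exact hsub (Finset.mem_insert_of_mem (((Nat.prime_dvd_prime_iff_eq hl (hQ' l' hl').1).mp hll) ▸ hl'))
    have hPrS : ∀ l : ℕ, l.Prime → l ∣ P * r → l ∈ S' := fun l hl h => by
      rcases hl.dvd_mul.mp h with h | h
      · exact hPS l hl h
      · exact hsub (((Nat.prime_dvd_prime_iff_eq hl hr).mp h) ▸ Finset.mem_insert_self r Q)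
    have hne : NonEis S' a := nonEis_of_absIrr hp habs fun l hl hlS => hfrob l hl fun h => hlS (hSS h)
    have hstep := finrank_latLoc_mul_le (M := P) (S := S') (a := a) r hr hrP hrp hp2 (hSS hpS)
      (hsub (Finset.mem_insert_self r Q)) hPS hne ρbar habs (fun l hl hlS => hfrob l hl fun h => hlS (hSS h))
      fun A hA σ hσ x hx hrel =>
        hno_of_distinct hp2 hp ρbar habs hSS hfrob (hSS hpS) hPrS hr hrS hrp hr1 har A hA σ hσ
          x hx hrel
    have ih' := ih ((Finset.subset_insert r Q).trans hsub) hQ'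
    have key : ∀ M : ℕ, M = P * r → ∀ [NeZero M],
        Module.finrank O (latLoc M (1 : (ZMod M)ˣ →* Unit) O S' a) =
          Module.finrank O (latLoc (P * r) (1 : (ZMod (P * r))ˣ →* Unit) O S' a) :=
      fun M h _ => by subst h; rfl
    rw [key _ (by rw [hP, Finset.prod_insert hrQ]; ring), Finset.card_insert_of_notMem hrQ,
      pow_succ', mul_assoc 2 (2 ^ Q.card)]
    exact hstep.trans (Nat.mul_le_mul_left 2 ih')

end Fermat.Agent.R59.Levels
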