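import Fermat.Agent.R59.Levels.Bridge
import Fermat.Agent.R59.Levels.Rank
import Fermat.Agent.R59.Levels.Frobenius
import Mathlib.LinearAlgebra.Dimension.Torsion.Finite
import Mathlib.LinearAlgebra.Dimension.RankNullity

/-!
S59, unit C1: at a Taylor-Wiles prime the residual part of level `N q` is two copies of the one of
level `N`, equivariantly for the Hecke operators.
-/

set_option autoImplicit false
set_option linter.unusedSectionVars false
set_option linter.style.haveILetI false
set_option synthInstance.maxHeartbeats 400000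

noncomputable section

namespace Fermat.Agent.R59.Levels

open CongruenceSubgroup IsLocalRing
open Fermat.Agent.Auto hiding finrank_latLoc_qm_le finrank_latLoc_mul_le finrank_latLoc_prod_le
open Fermat.Agent.GalRep (GoodPrime transferHom)
open Fermat.Agent.Galois (GQ)
open Fermat.Agent.Raise (LevData)

section Sat

variable {O : Type} [CommRing O] [IsDomain O] [IsDiscreteValuationRing O] {V W : Type}
  [AddCommGroup V] [Module O V] [AddCommGroup W] [Module O W] [Module.IsTorsionFree O V]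
  [Module.IsTorsionFree O W]

/-- A map which is injective modulo a uniformiser between lattices of the same rank is bijective. -/
theorem bijective_of_saturated [Module.Finite O V] [Module.Finite O W] [Module.Free O V] {ϖ : O}
    (hϖ : Irreducible ϖ) (f : V →ₗ[O] W) (h : ∀ v z, f v = ϖ • z → ∃ v', v = ϖ • v')
    (hle : Module.finrank O W ≤ Module.finrank O V) : Function.Bijective f := by
  haveI : IsHausdorff (maximalIdeal O) V :=
    IsHausdorff.of_le_jacobson _ _ (IsLocalRing.maximalIdeal_le_jacobson _)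
  have hinj : Function.Injective f := by
    refine (injective_iff_map_eq_zero f).mpr fun v hv => ?_
    refine IsHausdorff.haus (inferInstance : IsHausdorff (maximalIdeal O) V) v fun k => ?_
    rw [SModEq.zero, mem_pow_smul_of_irreducible hϖ]
    induction k with
    | zero => exact ⟨v, by rw [pow_zero, one_smul]⟩
    | succ k ih =>
      obtain ⟨y, rfl⟩ := ih
      have hy : f y = 0 := by
        rw [map_smul] at hv
        exact (smul_eq_zero.mp hv).resolve_left (pow_ne_zero k hϖ.ne_zero)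
      obtain ⟨y', rfl⟩ := h y 0 (by rw [hy, smul_zero])
      exact ⟨y', by rw [smul_smul, pow_succ]⟩
  refine ⟨hinj, fun z => ?_⟩
  have hfin : Module.finrank O (LinearMap.range f) = Module.finrank O V :=
    LinearMap.finrank_range_of_inj hinj
  have hq : Module.finrank O (W ⧸ LinearMap.range f) = 0 := by
    have := Submodule.finrank_quotient_add_finrank (R := O) (LinearMap.range f)
    omega
  obtain ⟨⟨r, hr⟩, hrz⟩ :=
    (Module.finrank_eq_zero_iff_isTorsion.mp hq) (x := Submodule.Quotient.mk z)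
  rw [← Submodule.Quotient.mk_smul, Submodule.Quotient.mk_eq_zero] at hrz
  have key : ∀ (k : ℕ) (z : W), ϖ ^ k • z ∈ LinearMap.range f → z ∈ LinearMap.range f := by
    intro k
    induction k with
    | zero => intro z hz; rwa [pow_zero, one_smul] at hz
    | succ k ih =>
      intro z hz
      obtain ⟨v, hv⟩ := hz
      rw [pow_succ', mul_smul] at hv
      obtain ⟨v', rfl⟩ := h v _ hv
      rw [map_smul] at hv
      exact ih z ⟨v', smul_right_injective W hϖ.ne_zero hv⟩
  obtain ⟨k, u, hu⟩ := IsDiscreteValuationRing.eq_unit_mul_pow_irreducible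
    (nonZeroDivisors.ne_zero hr) hϖ
  have hrz' : r • z ∈ LinearMap.range f := hrz
  refine key k z ?_
  have := Submodule.smul_mem (LinearMap.range f) ((u⁻¹ : Oˣ) : O) hrz'
  rwa [smul_smul, hu, ← mul_assoc, Units.inv_mul, one_mul] at this

/-- `c - U²` is invertible when `U` is residually `a` and `c - a²` is a unit. -/
theorem bijective_sub_sq [Module.Finite O V] {U : Module.End O V} {a c : O}
    (hN : IsNilpotent (Reduce.redEnd V 1 (U - algebraMap O (Module.End O V) a)))
    (hc : IsUnit (c - a ^ 2)) : Function.Bijective fun v : V => c • v - U (U v) := by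
  suffices h : IsUnit (algebraMap O (Module.End O V) c - U * U) from (Module.End.isUnit_iff _).mp h
  refine Reduce.isUnit_of_redEnd ?_
  set E := U - algebraMap O (Module.End O V) a with hE
  have hcomm : Commute E (U + algebraMap O _ a) :=
    ((Commute.refl U).add_right (Algebra.commutes a U).symm).sub_left
      (Algebra.commute_algebraMap_left a _)
  have e : algebraMap O (Module.End O V) c - U * U = -(E * (U + algebraMap O _ a)) +
      algebraMap O (Module.End O V) (c - a ^ 2) := by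
    have h1 : E * (U + algebraMap O _ a) = U * U - algebraMap O _ (a ^ 2) := by
      rw [hE, sub_mul, mul_add, mul_add, (Algebra.commutes a U).symm, ← map_mul, sq]
      abel
    rw [h1, map_sub]
    abel
  rw [e, map_add, map_neg, map_mul]
  refine (((hcomm.map (Reduce.redEnd V 1)).isNilpotent_mul_right hN).neg).isUnit_add_right_of_commute
    ((hc.map (algebraMap O _)).map (Reduce.redEnd V 1)) ?_
  rw [← map_mul, ← map_neg]
  exact (Algebra.commute_algebraMap_right _ _).map (Reduce.redEnd V 1)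

/-- Cramer's rule modulo the uniformiser. -/
theorem exists_pair_smul {U : Module.End O V} {c ϖ : O}
    (hX : Function.Bijective fun v : V => c ^ 2 • v - U (U v)) {x y b₁ b₂ : V}
    (h1 : c • x + U y = ϖ • b₁) (h2 : U x + c • y = ϖ • b₂) :
    ∃ x' y' : V, x = ϖ • x' ∧ y = ϖ • y' := by
  obtain ⟨x', hx'⟩ := hX.2 (c • b₁ - U b₂)
  obtain ⟨y', hy'⟩ := hX.2 (c • b₂ - U b₁)
  have hlin : ∀ w : V, c ^ 2 • (ϖ • w) - U (U (ϖ • w)) = ϖ • (c ^ 2 • w - U (U w)) := fun w => by
    rw [map_smul, map_smul, smul_sub, smul_comm ϖ]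
  dsimp only at hx' hy'
  refine ⟨x', y', hX.1 ?_, hX.1 ?_⟩
  · show c ^ 2 • x - U (U x) = c ^ 2 • (ϖ • x') - U (U (ϖ • x'))
    rw [hlin, hx', smul_sub, smul_comm ϖ, ← map_smul U, ← h1, ← h2]
    simp only [map_add, map_smul, smul_add, smul_smul, sq]
    abel
  · show c ^ 2 • y - U (U y) = c ^ 2 • (ϖ • y') - U (U (ϖ • y'))
    rw [hlin, hy', smul_sub, smul_comm ϖ, ← map_smul U, ← h1, ← h2]
    simp only [map_add, map_smul, smul_add, smul_smul, sq]
    abel

/-- Equivariance of a map given by the degeneracy formula. -/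
theorem degeneracy_equivariant {L L' : Type} [AddCommGroup L] [Module O L] [AddCommGroup L']
    [Module O L'] {V : Submodule O L} {W : Submodule O L'} (r : L →ₗ[O] L') (w : L' →ₗ[O] L')
    (e : (V × V) ≃ₗ[O] W) (he : ∀ x : V × V, ((e x : W) : L') = r (x.1 : L) + w (r (x.2 : L)))
    (T : L →ₗ[O] L) (T' : L' →ₗ[O] L')
    (hres : ∀ v, r (T v) = T' (r v)) (hw : ∀ v, w (T' v) = T' (w v))
    (hVT : ∀ v ∈ V, T v ∈ V) (x : W) (hx : T' (x : L') ∈ W) :
    (((e.symm ⟨T' (x : L'), hx⟩).1 : V) : L) = T ((e.symm x).1 : L) ∧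
      (((e.symm ⟨T' (x : L'), hx⟩).2 : V) : L) = T ((e.symm x).2 : L) := by
  have key : e ((⟨T (e.symm x).1.1, hVT _ (e.symm x).1.2⟩ : V),
      (⟨T (e.symm x).2.1, hVT _ (e.symm x).2.2⟩ : V)) = (⟨T' (x : L'), hx⟩ : W) := by
    have hx' : (x : L') = r (e.symm x).1.1 + w (r (e.symm x).2.1) := by
      rw [← he, e.apply_symm_apply]
    exact Subtype.ext (by
      rw [he]
      simp only [hres, hw, hx', map_add])
  rw [← key, e.symm_apply_apply]
  exact ⟨rfl, rfl⟩

end Sat

variable {p : ℕ} [Fact p.Prime] {O : Type} [CommRing O] [IsDomain O] [IsDiscreteValuationRing O]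
  [IsAdicComplete (maximalIdeal O) O] [Finite (ResidueField O)]
  [Algebra ℤ_[p] O] [Module.Finite ℤ_[p] O] [CharZero O]
  {S : Finset ℕ} {a : ℕ → O}

/-- Classes with values divisible by the uniformiser are divisible. -/
theorem exists_eq_smul_of_toG {M : ℕ} [NeZero M] {ϖ : O} (hϖ : Irreducible ϖ)
    {V : Submodule O (Lat M (1 : (ZMod M)ˣ →* Unit) O)} (hV : ∀ v, ϖ • v ∈ V → v ∈ V)
    {x : V} {h : Raise.GHom (Gamma0 M) O}
    (hx : toG (x : Lat M (1 : (ZMod M)ˣ →* Unit) O).1 = ϖ • h) :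
    ∃ y : V, x = ϖ • y := by
  have hpar : ofG h ∈ ModularCurve.Period.parabolicHoms O (grp M (1 : (ZMod M)ˣ →* Unit)) O :=
    fun γ hγ => by
      have h1 := DFunLike.congr_fun hx
        (Additive.ofMul (⟨(γ : Matrix.SpecialLinearGroup (Fin 2) ℤ), grp_one_le_gamma0 γ.2⟩ : Gamma0 M))
      have h2 : ϖ * ofG h (Additive.ofMul γ) = 0 := h1.symm.trans (x.1.2 γ hγ)
      exact (mul_eq_zero.mp h2).resolve_left hϖ.ne_zero
  have e : (x : Lat M (1 : (ZMod M)ˣ →* Unit) O) = ϖ • (⟨ofG h, hpar⟩ : Lat M (1 : (ZMod M)ˣ →* Unit) O) :=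
    Subtype.ext (toG_injective (hx.trans (congrArg (ϖ • ·) (toG_ofG h).symm)))
  exact ⟨⟨⟨ofG h, hpar⟩, hV _ (by rw [← e]; exact x.2)⟩, Subtype.ext e⟩

set_option maxHeartbeats 800000 in
/-- The degeneracy isomorphism between parts. -/
theorem exists_degeneracy_core {N q : ℕ} [NeZero N] [NeZero (N * q)] (D : LevData N q)
    (hqN : ¬ q ∣ N) {ϖ : O} (hϖ : Irreducible ϖ)
    (V : Submodule O (Lat N (1 : (ZMod N)ˣ →* Unit) O))
    (W : Submodule O (Lat (N * q) (1 : (ZMod (N * q))ˣ →* Unit) O))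
    (hV : ∀ v, ϖ • v ∈ V → v ∈ V) (hres : ∀ x ∈ V, resL (q := q) x ∈ W)
    (hw : ∀ x ∈ W, wL D x ∈ W) (U : Module.End O V)
    (hU : ∀ x : V, ((U x : V) : Lat N (1 : (ZMod N)ˣ →* Unit) O) = latT N (1 : (ZMod N)ˣ →* Unit) O ⟨⟨q, D.prime⟩, hqN⟩ (x : Lat N (1 : (ZMod N)ˣ →* Unit) O))
    (hX : Function.Bijective fun v : V => ((q + 1 : ℕ) : O) ^ 2 • v - U (U v))
    (hle : Module.finrank O W ≤ 2 * Module.finrank O V) :
    ∃ e : (V × V) ≃ₗ[O] W, ∀ x : V × V,
      ((e x : W) : Lat (N * q) (1 : (ZMod (N * q))ˣ →* Unit) O) = resL (x.1 : Lat N (1 : (ZMod N)ˣ →* Unit) O) + wL D (resL (x.2 : Lat N (1 : (ZMod N)ˣ →* Unit) O)) := by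
  haveI hVt : Module.IsTorsionFree O V :=
    Function.Injective.moduleIsTorsionFree _ V.injective_subtype fun r x => map_smul V.subtype r x
  haveI hWt : Module.IsTorsionFree O W :=
    Function.Injective.moduleIsTorsionFree _ W.injective_subtype fun r x => map_smul W.subtype r x
  haveI hVf : Module.Finite O V := inferInstance
  haveI hWf : Module.Finite O W := inferInstance
  haveI hVfree : Module.Free O V := @Module.free_of_finite_type_torsion_free' O _ V V.addCommGroup
    V.module _ _ _ _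
  let f : V × V →ₗ[O] W :=
    ((resL (q := q)).restrict hres).coprod (((wL D).restrict hw) ∘ₗ (resL (q := q)).restrict hres)
  have hsat : ∀ (v : V × V) (z : W), f v = ϖ • z → ∃ v', v = ϖ • v' := by
    rintro ⟨x, y⟩ z hz
    have hz' : toG (resL (q := q) (x : Lat N (1 : (ZMod N)ˣ →* Unit) O) + wL D (resL (y : Lat N (1 : (ZMod N)ˣ →* Unit) O))).1 =
        ϖ • toG (z : Lat (N * q) (1 : (ZMod (N * q))ˣ →* Unit) O).1 := congrArg (fun w : W => toG w.1.1) hz
    obtain ⟨c1, c2⟩ := cor_pair D hqN (x : Lat N (1 : (ZMod N)ˣ →* Unit) O) (y : Lat N (1 : (ZMod N)ˣ →* Unit) O)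
    rw [hz', ← hU, LevData.cor, trans_smul] at c1
    rw [hz', ← hU, LevData.wOp, trans_smul, LevData.cor, trans_smul] at c2
    obtain ⟨b₁, hb₁⟩ := exists_eq_smul_of_toG hϖ hV
      (x := ((q + 1 : ℕ) : O) • x + U y) c1.symm
    obtain ⟨b₂, hb₂⟩ := exists_eq_smul_of_toG hϖ hV
      (x := U x + ((q + 1 : ℕ) : O) • y) c2.symm
    obtain ⟨x', y', hx, hy⟩ := exists_pair_smul (V := V) (U := U) (x := x) (y := y) (b₁ := b₁) (b₂ := b₂)
      (c := ((q + 1 : ℕ) : O)) (ϖ := ϖ) hX hb₁ hb₂
    exact ⟨(x', y'), Prod.ext hx hy⟩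
  haveI : Module.IsTorsionFree O (V × V) := inferInstance
  haveI : Module.Free O (V × V) := inferInstance
  haveI : Module.Finite O (V × V) := inferInstance
  have hle' : Module.finrank O W ≤ Module.finrank O (V × V) := by
    rwa [Module.finrank_prod, ← two_mul]
  have hb : Function.Bijective f :=
    bijective_of_saturated (V := V × V) (W := W) hϖ f hsat hle'
  exact ⟨LinearEquiv.ofBijective f hb, fun x => rfl⟩

set_option maxHeartbeats 1000000 in
/-- The residual part at level `N q`. -/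
theorem exists_degeneracy (hp2 : p ≠ 2) (hp : (p : O) ∈ maximalIdeal O)
    (ρbar : ResidualGaloisRep (ResidueField O)) (habs : ρbar.IsAbsolutelyIrreducible)
    (hfrob : ∀ l : ℕ, l.Prime → l ∉ S → ∀ A : ValuationSubring (AlgebraicClosure ℚ),
      A.LiesOverPrime l → ∀ σ : GQ, A.IsFrobeniusAt σ l →
        LinearMap.charpoly (ρbar.ρ σ) = Polynomial.X ^ 2 -
          Polynomial.C (residue O (a l)) * Polynomial.X + Polynomial.C ((l : ResidueField O)))
    {N q : ℕ} [NeZero N] [NeZero (N * q)] (hpS : p ∈ S)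
    (hNS : ∀ l : ℕ, l.Prime → l ∣ N → l ∈ S) (hq : q.Prime) (hqS : q ∉ S) (hq1 : q ≡ 1 [MOD p])
    (haq : residue O (a q) ^ 2 ≠ 4) :
    ∃ e : (latLoc N (1 : (ZMod N)ˣ →* Unit) O S a × latLoc N (1 : (ZMod N)ˣ →* Unit) O S a) ≃ₗ[O]
        latLoc (N * q) (1 : (ZMod (N * q))ˣ →* Unit) O (insert q S) a,
      ∀ (i : GoodPrime (N * q)) (x : latLoc (N * q) (1 : (ZMod (N * q))ˣ →* Unit) O (insert q S) a),
        (e.symm ⟨latT (N * q) (1 : (ZMod (N * q))ˣ →* Unit) O i x, latT_mem_latLoc i x.2⟩).1.1 =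
            latT N (1 : (ZMod N)ˣ →* Unit) O (downPrime (dvd_mul_right N q) i) (e.symm x).1.1 ∧
          (e.symm ⟨latT (N * q) (1 : (ZMod (N * q))ˣ →* Unit) O i x, latT_mem_latLoc i x.2⟩).2.1 =
            latT N (1 : (ZMod N)ˣ →* Unit) O (downPrime (dvd_mul_right N q) i) (e.symm x).2.1 := by
  have hqN : ¬ q ∣ N := fun h => hqS (hNS q hq h)
  have hqp : q ≠ p := fun h => hqS (h ▸ hpS)
  have hNqS : ∀ l : ℕ, l.Prime → l ∣ N * q → l ∈ insert q S := fun l hl h => by
    rcases hl.dvd_mul.mp h with h | h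
    · exact Finset.mem_insert_of_mem (hNS l hl h)
    · rw [(Nat.prime_dvd_prime_iff_eq hl hq).mp h]; exact Finset.mem_insert_self q S
  have hins : latLoc N (1 : (ZMod N)ˣ →* Unit) O (insert q S) a =
      latLoc N (1 : (ZMod N)ˣ →* Unit) O S a :=
    latLoc_insert_eq hp2 hp ρbar habs hfrob hpS hNS hq hqS
  obtain ⟨D⟩ := Raise.exists_levData hq hqN
  set V := latLoc N (1 : (ZMod N)ˣ →* Unit) O S a
  set W := latLoc (N * q) (1 : (ZMod (N * q))ˣ →* Unit) O (insert q S) a
  have hres : ∀ x ∈ V, resL (q := q) x ∈ W := fun x hx =>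
    map_mem_locPart (T := fun i : PrimeOff (N * q) (insert q S) =>
        latT N (1 : (ZMod N)ˣ →* Unit) O (downPrime (dvd_mul_right N q) i.1))
      (resL (q := q)) (fun i v => resL_latT i.1.1 (downPrime (dvd_mul_right N q) i.1).2 i.1.2 v)
      fun i => by rw [← hins] at hx; exact hx ⟨downPrime (dvd_mul_right N q) i.1, i.2⟩
  have hw : ∀ x ∈ W, wL D x ∈ W := fun x hx =>
    map_locPart_le (T := fun i : PrimeOff (N * q) (insert q S) => latT (N * q) (1 : (ZMod (N * q))ˣ →* Unit) O i.1) (wL D)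
      (fun i => LinearMap.ext fun v => wL_latT D i.1 v) hx
  obtain ⟨ϖ, hϖ⟩ := IsDiscreteValuationRing.exists_irreducible O
  haveI : Module.IsTorsionFree O V :=
    Function.Injective.moduleIsTorsionFree _ V.injective_subtype fun r x => map_smul V.subtype r x
  set iq : PrimeOff N S := ⟨⟨⟨q, D.prime⟩, hqN⟩, by simpa using hqS⟩
  let U : Module.End O V := (latT N (1 : (ZMod N)ˣ →* Unit) O iq.1).restrict fun x hx => latT_mem_latLoc iq.1 hx
  have hN : IsNilpotent (Reduce.redEnd V 1 (U - algebraMap O (Module.End O V) (a q))) := by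
    refine Reduce.isNilpotent_redEnd (fun x => ?_) 1
    obtain ⟨j, hj⟩ := (mem_locPart.mp x.2) iq 1
    refine ⟨j, ?_⟩
    have key := coe_restrict_pow (f := latT N (1 : (ZMod N)ˣ →* Unit) O iq.1 - algebraMap O _ (a q))
      (g := U - algebraMap O (Module.End O V) (a q)) (fun y => rfl) j x
    rw [← pow_one (maximalIdeal O)]
    exact mem_smul_top_locPart (by rw [key]; exact hj j le_rfl)
  have hp0 : (p : ResidueField O) = 0 := by
    rw [← map_natCast (residue O), residue_eq_zero_iff]; exact hp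
  have hc : IsUnit (((q + 1 : ℕ) : O) ^ 2 - a q ^ 2) := by
    rw [← residue_ne_zero_iff_isUnit, map_sub, map_pow, map_pow, map_natCast, sub_ne_zero]
    obtain ⟨t, ht⟩ := Nat.modEq_iff_dvd.mp hq1
    have e : ((q : ℤ) : ResidueField O) = 1 := by
      rw [show (q : ℤ) = 1 - (p : ℤ) * t by push_cast at ht ⊢; linarith]
      simp [hp0]
    push_cast at e ⊢
    rw [e]
    intro h
    exact haq (by rw [← h]; norm_num)
  haveI hVfin : Module.Finite O V := inferInstance
  have hX : Function.Bijective fun v : V => ((q + 1 : ℕ) : O) ^ 2 • v - U (U v) :=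
    bijective_sub_sq (O := O) (V := V) hN hc
  have hle : Module.finrank O W ≤ 2 * Module.finrank O V := by
    have hh := finrank_latLoc_mul_le (M := N) (S := insert q S) (a := a) q hq hqN hqp hp2
      (Finset.mem_insert_of_mem hpS) (Finset.mem_insert_self q S)
      (fun l hl h => Finset.mem_insert_of_mem (hNS l hl h))
      (nonEis_of_absIrr hp habs fun l hl hlS => hfrob l hl fun h => hlS (Finset.mem_insert_of_mem h))
      ρbar habs (fun l hl hlS => hfrob l hl fun h => hlS (Finset.mem_insert_of_mem h))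
      fun A hA σ hσ w hw hrel => hno_of_distinct hp2 hp ρbar habs (Finset.subset_insert q S) hfrob
        (Finset.mem_insert_of_mem hpS) hNqS hq hqS hqp hq1 haq A hA σ hσ w hw hrel
    rwa [hins] at hh
  obtain ⟨e, he⟩ := exists_degeneracy_core D hqN hϖ V W
    (fun v hv => locPart_saturated hϖ hv) hres hw U (fun x => rfl) hX hle
  exact ⟨e, fun i x => degeneracy_equivariant (V := V) (W := W) (resL (q := q)) (wL D) e he
    (latT N (1 : (ZMod N)ˣ →* Unit) O (downPrime (dvd_mul_right N q) i))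
    (latT (N * q) (1 : (ZMod (N * q))ˣ →* Unit) O i)
    (fun v => resL_latT i.1 (downPrime (dvd_mul_right N q) i).2 i.2 v) (fun v => wL_latT D i v)
    (fun v hv => latT_mem_latLoc _ hv) x (latT_mem_latLoc i x.2)⟩

end Fermat.Agent.R59.Levels
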