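import Fermat.Agent.Auto.Diamond
import Fermat.Agent.Auto.Free.Ops
import Mathlib.FieldTheory.Finite.Basic

/-!
S59, unit C1: `Hom(G, ·)` is right exact, and restrictions are norms, when `2` is invertible and the
element of order six fixes no coset, in place of the invertibility of `3`.
-/

set_option autoImplicit false
set_option linter.unusedSectionVars false

noncomputable section

namespace Fermat.Agent.R59.Levels

open Function CongruenceSubgroup
open Fermat.Agent.Auto
open scoped MatrixGroups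

/-- A fixed point free permutation of order three has a choice of one point on each orbit. -/
theorem exists_orbit_choice {X : Type*} (σ : Equiv.Perm X) (h3 : ∀ x, σ (σ (σ x)) = x)
    (hfree : ∀ x, σ x ≠ x) :
    ∃ R : X → Prop, ∀ x, (R x ∧ ¬ R (σ x) ∧ ¬ R (σ (σ x))) ∨
      (¬ R x ∧ R (σ x) ∧ ¬ R (σ (σ x))) ∨ (¬ R x ∧ ¬ R (σ x) ∧ R (σ (σ x))) := by
  let s : Setoid X :=
    { r := fun x y => y = x ∨ y = σ x ∨ y = σ (σ x)
      iseqv :=
        { refl := fun x => Or.inl rfl
          symm := by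
            rintro x y (rfl | rfl | rfl) <;> simp [h3]
          trans := by
            rintro x y z (rfl | rfl | rfl) (rfl | rfl | rfl) <;> simp [h3] } }
  refine ⟨fun x => (Quotient.mk s x).out = x, fun x => ?_⟩
  have hout : s.r x (Quotient.mk s x).out :=
    Setoid.symm' s (Quotient.exact (Quotient.out_eq (Quotient.mk s x)))
  have e1 : Quotient.mk s (σ x) = Quotient.mk s x :=
    Quotient.sound (Setoid.symm' s (Or.inr (Or.inl rfl)))
  have e2 : Quotient.mk s (σ (σ x)) = Quotient.mk s x :=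
    Quotient.sound (Setoid.symm' s (Or.inr (Or.inr rfl)))
  have h02 : x ≠ σ (σ x) := fun h => hfree x (by
    conv_lhs => rw [h, h3])
  simp only [e1, e2]
  rcases hout with h | h | h <;> simp only [h]
  · exact Or.inl ⟨trivial, fun e => hfree x e.symm, h02⟩
  · exact Or.inr (Or.inl ⟨hfree x, trivial, fun e => hfree (σ x) e.symm⟩)
  · exact Or.inr (Or.inr ⟨fun e => h02 e.symm, hfree (σ x), trivial⟩)

/-- An invariant function is the sum of its restriction to the chosen points. -/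
theorem ite_orbit_sum {X A : Type*} [AddCommMonoid A] (σ : Equiv.Perm X) (R : X → Prop)
    [DecidablePred R]
    (hR : ∀ x, (R x ∧ ¬ R (σ x) ∧ ¬ R (σ (σ x))) ∨
      (¬ R x ∧ R (σ x) ∧ ¬ R (σ (σ x))) ∨ (¬ R x ∧ ¬ R (σ x) ∧ R (σ (σ x))))
    (w : X → A) (hw : ∀ x, w (σ x) = w x) (x : X) :
    (if R x then w x else 0) + (if R (σ x) then w (σ x) else 0) +
      (if R (σ (σ x)) then w (σ (σ x)) else 0) = w x := by
  rcases hR x with ⟨a, b, c⟩ | ⟨a, b, c⟩ | ⟨a, b, c⟩ <;> simp [a, b, c, hw]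

variable {A B : Type*} [AddCommGroup A] [AddCommGroup B]

/-- The values of a cube. -/
theorem val_pow_three {X : Type*} (m : Monom X A) (x : X) :
    (m ^ 3).val x = m.val x + m.val (m.perm x) + m.val (m.perm (m.perm x)) := by
  rw [Monom.val_pow]
  simp [Finset.sum_range_succ, pow_succ, Equiv.Perm.mul_apply]

theorem perm_three {X : Type*} {m : Monom X A} (h : (m ^ 3).perm = 1) (x : X) :
    m.perm (m.perm (m.perm x)) = x := by
  have := Equiv.congr_fun h x
  rw [Monom.perm_pow] at this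
  simpa [pow_succ, Equiv.Perm.mul_apply] using this

/-- An element of order three without fixed points lifts to one of order three. -/
theorem exists_lift_cube_eq_one {X : Type*} (π : A →+ B) (hπ : Surjective π) {m : Monom X B}
    (hm : m ^ 3 = 1) (hfree : ∀ x, m.perm x ≠ x) :
    ∃ m' : Monom X A, m' ^ 3 = 1 ∧ Monom.map π m' = m := by
  classical
  let g : Monom X A := ⟨m.perm, fun x => surjInv hπ (m.val x)⟩
  have hg : Monom.map π g = m := Monom.ext rfl (funext fun x => surjInv_eq hπ _)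
  have hperm : (g ^ 3).perm = 1 :=
    (map_pow Monom.permHom g 3).trans
      ((map_pow Monom.permHom m 3).symm.trans (congrArg Monom.perm hm))
  set w : X → A := (g ^ 3).val
  have hw : ∀ x, w (g.perm x) = w x := fun x => by
    have h := congrArg (fun p : Monom X A => p.val x) (Commute.self_pow g 3).eq
    simp only [Monom.val_mul, hperm, Equiv.Perm.coe_one, id_eq] at h
    exact (add_left_cancel (a := g.val x) ((add_comm _ _).trans h)).symm
  have hw0 : ∀ x, π (w x) = 0 := fun x => by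
    have h := congrArg (fun p : Monom X B => p.val x)
      ((map_pow (Monom.map π) g 3).trans ((congrArg (· ^ 3) hg).trans hm))
    exact h
  obtain ⟨R, hR⟩ := exists_orbit_choice g.perm (perm_three hperm) hfree
  set c : X → A := fun x => if R x then w x else 0
  refine ⟨⟨g.perm, fun x => g.val x - c x⟩, Monom.ext ?_ (funext fun x => ?_), ?_⟩
  · rw [Monom.perm_pow, Monom.perm_one]
    rw [Monom.perm_pow] at hperm
    exact hperm
  · have e := val_pow_three g x
    have h := ite_orbit_sum g.perm R hR w hw x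
    rw [val_pow_three, Monom.val_one]
    show g.val x - c x + (g.val (g.perm x) - c (g.perm x)) +
      (g.val (g.perm (g.perm x)) - c (g.perm (g.perm x))) = 0
    rw [show g.val x - c x + (g.val (g.perm x) - c (g.perm x)) +
      (g.val (g.perm (g.perm x)) - c (g.perm (g.perm x))) =
        (g.val x + g.val (g.perm x) + g.val (g.perm (g.perm x))) -
          (c x + c (g.perm x) + c (g.perm (g.perm x))) by abel, ← e]
    exact sub_eq_zero.mpr h.symm
  · refine Monom.ext rfl (funext fun x => ?_)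
    show π (g.val x - c x) = m.val x
    rw [map_sub, show π (c x) = 0 by simp only [c]; split_ifs <;> simp [hw0], sub_zero]
    exact surjInv_eq hπ _

/-- Every homomorphism `G → B` lifts along a surjection `A → B`. -/
theorem exists_lift_hom_free (G : Subgroup SL(2, ℤ)) (hneg : (-1 : SL(2, ℤ)) ∈ G) (π : A →+ B)
    (hπ : Surjective π) (h2 : Bijective fun a : A => 2 • a) (h2B : Injective fun b : B => 2 • b)
    (hfree : ∀ x : SL(2, ℤ) ⧸ G, uGen • x ≠ x) (χ : Additive G →+ B) :
    ∃ χ' : Additive G →+ A, π.comp χ' = χ := by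
  set F := indHom G χ
  have hχ : χ (.ofMul (⟨-1, hneg⟩ : G)) = 0 := h2B <| by
    show 2 • _ = 2 • (0 : B)
    rw [← map_nsmul, ← ofMul_pow, show (⟨-1, hneg⟩ : G) ^ 2 = 1 from Subtype.ext (by simp)]
    simp
  have hF : F (-1) = 1 := by
    have hfix : ∀ x : SL(2, ℤ) ⧸ G, (-1 : SL(2, ℤ)) • x = x := fun x => by
      induction x using QuotientGroup.induction_on with
      | H y => exact QuotientGroup.eq.mpr (by simpa using hneg)
    refine Monom.ext (Equiv.ext hfix) (funext fun x => ?_)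
    show χ (.ofMul (indPart G (-1) x)) = 0
    convert hχ using 3
    refine Subtype.ext ?_
    show ((-1 : SL(2, ℤ)) • x).out⁻¹ * ((-1) * x.out) = -1
    rw [hfix]
    simp
  have hs : F ModularGroup.S ^ 2 = 1 := by rw [← map_pow, pow_two, S_mul_S, hF]
  have hu : F uGen ^ 3 = 1 := by rw [← map_pow, pow_three, uGen_cube, hF]
  obtain ⟨s, hs1, hs2⟩ := Monom.exists_lift_pow_eq_one π hπ h2 h2B hs
  obtain ⟨u, hu1, hu2⟩ := exists_lift_cube_eq_one π hπ hu hfree
  rw [pow_two] at hs1
  rw [pow_three] at hu1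
  obtain ⟨f, fS, fu, -⟩ := exists_hom_of_orders hs1 hu1
  have hfF : (Monom.map π).comp f = F :=
    hom_ext_gens (by simp [fS, hs2]) (by simp [fu, hu2])
  set x₀ : SL(2, ℤ) ⧸ G := ((1 : SL(2, ℤ)) : SL(2, ℤ) ⧸ G)
  have hstab : ∀ γ : G, (f γ).perm x₀ = x₀ := fun γ => by
    have h : (f (γ : SL(2, ℤ))).perm = (F γ).perm := congrArg Monom.perm (DFunLike.congr_fun hfF _)
    rw [h]
    exact QuotientGroup.eq.mpr (by simp)
  refine ⟨AddMonoidHom.mk' (fun γ => (f ((γ.toMul : G) : SL(2, ℤ))).val x₀) fun a b => ?_,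
    AddMonoidHom.ext fun γ => ?_⟩
  · show (f ((a.toMul * b.toMul : G) : SL(2, ℤ))).val x₀ = _
    rw [Subgroup.coe_mul, map_mul, Monom.val_mul, hstab, add_comm]
  · exact (congrArg (fun m => m.val x₀) (DFunLike.congr_fun hfF _)).trans (indHom_base G χ γ.toMul)

section Norm

variable {Δ : Type*} [Group Δ] [Fintype Δ] {G G' : Subgroup SL(2, ℤ)} (P : LevQuot G G' Δ)

/-- An element of order three over a given fixed point free one, with prescribed fibre sums. -/
theorem exists_lift_push_free {g : SL(2, ℤ)} (hact : ∀ x : SL(2, ℤ) ⧸ G, g ^ 3 • x = x)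
    (hfree : ∀ y : SL(2, ℤ) ⧸ G', g • y ≠ y)
    (F : Monom (SL(2, ℤ) ⧸ G') A) (hF : F ^ 3 = 1) (hperm : ∀ y, F.perm y = g • y) :
    ∃ m : Monom (SL(2, ℤ) ⧸ G) A,
      (∀ x, m.perm x = g • x) ∧ m ^ 3 = 1 ∧ ∀ y, P.push m y = F.val y := by
  classical
  choose yy dd hpt using P.exists_eq_pt
  set v₀ : SL(2, ℤ) ⧸ G → A := fun x => if dd x = 1 then F.val (yy x) else 0
  have hv : ∀ y, ∑ δ, v₀ (P.pt y δ) = F.val y := fun y => by
    rw [Finset.sum_eq_single (1 : Δ)]
    · obtain ⟨e1, e2⟩ := P.pt_inj (hpt (P.pt y 1))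
      show (if _ then _ else _) = _
      rw [if_pos e2.symm, ← e1]
    · intro δ _ hδ
      obtain ⟨-, e2⟩ := P.pt_inj (hpt (P.pt y δ))
      exact if_neg (e2 ▸ hδ)
    · exact fun h => absurd (Finset.mem_univ _) h
  set m₀ : Monom (SL(2, ℤ) ⧸ G) A := ⟨MulAction.toPerm g, v₀⟩
  have hm₀ : ∀ x, m₀.perm x = g • x := fun x => rfl
  have hperm₀ : (m₀ ^ 3).perm = 1 := Equiv.ext fun x => by
    rw [Monom.perm_pow]
    simp only [pow_succ, pow_zero, one_mul, Equiv.Perm.mul_apply, hm₀, Equiv.Perm.coe_one, id_eq]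
    rw [← mul_smul, ← mul_smul]
    have := hact x
    simpa [pow_succ] using this
  set w : SL(2, ℤ) ⧸ G → A := (m₀ ^ 3).val
  have hw : ∀ x, w (g • x) = w x := fun x => by
    have h := congrArg (fun p : Monom (SL(2, ℤ) ⧸ G) A => p.val x) (Commute.self_pow m₀ 3).eq
    simp only [Monom.val_mul, hperm₀, Equiv.Perm.coe_one, id_eq] at h
    exact (add_left_cancel (a := m₀.val x) ((add_comm _ _).trans h)).symm
  have h3' : ∀ y : SL(2, ℤ) ⧸ G', g • g • g • y = y := fun y => by
    have h := perm_three (m := F) (by rw [hF]; rfl) y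
    rwa [hperm, hperm, hperm] at h
  obtain ⟨R, hR⟩ := exists_orbit_choice (MulAction.toPerm g : Equiv.Perm (SL(2, ℤ) ⧸ G'))
    h3' hfree
  have hyy : ∀ x, yy (g • x) = g • yy x := fun x => by
    have h := hpt (g • x)
    nth_rewrite 1 [hpt x] at h
    rw [P.smul_pt] at h
    exact (P.pt_inj h).1.symm
  set c : SL(2, ℤ) ⧸ G → A := fun x => if R (yy x) then w x else 0
  set m : Monom (SL(2, ℤ) ⧸ G) A := ⟨MulAction.toPerm g, fun x => v₀ x - c x⟩
  have hv' : ∀ y, ∑ δ, m₀.val (P.pt y δ) = F.val y := hv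
  have hpush : ∀ y, ∑ δ, c (P.pt y δ) = 0 := fun y => by
    have hyp : ∀ δ, yy (P.pt y δ) = y := fun δ => ((P.pt_inj (hpt (P.pt y δ))).1).symm
    simp only [c, hyp]
    by_cases hy : R y
    · simp only [if_pos hy, w, val_pow_three, Finset.sum_add_distrib, hm₀, P.smul_pt, hv']
      have s1 : ∀ (z : SL(2, ℤ) ⧸ G') (d : Δ), ∑ δ, m₀.val (P.pt z (d * δ)) = F.val z := fun z d =>
        (Equiv.sum_comp (Equiv.mulLeft d) (fun δ => m₀.val (P.pt z δ))).trans (hv' z)
      simp only [← mul_assoc, s1]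
      have h1 := val_pow_three F y
      rw [hF, Monom.val_one, hperm, hperm] at h1
      exact h1.symm
    · simp only [if_neg hy, Finset.sum_const_zero]
  refine ⟨m, fun x => rfl, Monom.ext ?_ (funext fun x => ?_), fun y => ?_⟩
  · rw [Monom.perm_one, ← hperm₀, Monom.perm_pow, Monom.perm_pow]
  · have e := val_pow_three m₀ x
    have h := ite_orbit_sum (MulAction.toPerm g : Equiv.Perm (SL(2, ℤ) ⧸ G)) (fun x => R (yy x))
      (fun x => by simpa only [MulAction.toPerm_apply, hyy] using hR (yy x)) w hw x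
    rw [val_pow_three, Monom.val_one]
    simp only [MulAction.toPerm_apply] at h
    show v₀ x - c x + (v₀ (g • x) - c (g • x)) + (v₀ (g • g • x) - c (g • g • x)) = 0
    rw [show v₀ x - c x + (v₀ (g • x) - c (g • x)) + (v₀ (g • g • x) - c (g • g • x)) =
        (v₀ x + v₀ (g • x) + v₀ (g • g • x)) - (c x + c (g • x) + c (g • g • x)) by abel]
    exact sub_eq_zero.mpr (e.symm.trans h.symm)
  · show ∑ δ, (v₀ (P.pt y δ) - c (P.pt y δ)) = _
    rw [Finset.sum_sub_distrib, hv, hpush, sub_zero]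

variable (R : Type*) [Ring R] [Module R A]

/-- Restrictions from `G'` are norms. -/
theorem exists_norm_eq_free (hneg : (-1 : SL(2, ℤ)) ∈ G) (h2 : Bijective fun a : A => 2 • a)
    (hfree : ∀ y : SL(2, ℤ) ⧸ G', uGen • y ≠ y) (φ : Additive G' →+ A) :
    ∃ χ : Additive G →+ A, ∑ δ, P.dia R δ χ = P.res R φ := by
  classical
  set F := indHom G' φ
  have hnegX : ∀ x : SL(2, ℤ) ⧸ G, (-1 : SL(2, ℤ)) • x = x := fun x => by
    induction x using QuotientGroup.induction_on with
    | H y => exact QuotientGroup.eq.mpr (by simpa using hneg)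
  have hnegY : ∀ x : SL(2, ℤ) ⧸ G', (-1 : SL(2, ℤ)) • x = x := fun x => by
    induction x using QuotientGroup.induction_on with
    | H y => exact QuotientGroup.eq.mpr (by simpa using P.le hneg)
  have hF : F (-1) = 1 := by
    refine Monom.ext (Equiv.ext hnegY) (funext fun x => h2.1 ?_)
    show 2 • φ (.ofMul (indPart G' (-1) x)) = 2 • (0 : A)
    rw [← map_nsmul, ← ofMul_pow, smul_zero,
      show indPart G' (-1) x ^ 2 = 1 from Subtype.ext (by
        show (((-1 : SL(2, ℤ)) • x).out⁻¹ * ((-1) * x.out)) ^ 2 = 1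
        rw [hnegY]; simp)]
    simp
  have hS : (ModularGroup.S : SL(2, ℤ)) ^ 2 = -1 := by rw [pow_two, S_mul_S]
  have hU : uGen ^ 3 = (-1 : SL(2, ℤ)) := by rw [pow_three, uGen_cube]
  obtain ⟨s, sperm, hs1, hs2⟩ := P.exists_lift_push (g := ModularGroup.S) (n := 2)
    (fun x => by rw [hS, hnegX]) h2 (F ModularGroup.S) (by rw [← map_pow, hS, hF]) fun y => rfl
  obtain ⟨u, uperm, hu1, hu2⟩ := exists_lift_push_free P (g := uGen)
    (fun x => by rw [hU, hnegX]) hfree (F uGen) (by rw [← map_pow, hU, hF]) fun y => rfl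
  rw [pow_two] at hs1
  rw [pow_three] at hu1
  obtain ⟨f, fS, fu, -⟩ := exists_hom_of_orders hs1 hu1
  have hperm : Monom.permHom.comp f = MulAction.toPermHom SL(2, ℤ) (SL(2, ℤ) ⧸ G) :=
    hom_ext_gens (Equiv.ext fun x => by
      rw [MonoidHom.comp_apply, fS]; exact sperm x) (Equiv.ext fun x => by
      rw [MonoidHom.comp_apply, fu]; exact uperm x)
  have hp : ∀ g x, (f g).perm x = g • x := fun g x => Equiv.congr_fun (DFunLike.congr_fun hperm g) x
  let F₁ : SL(2, ℤ) →* Monom (SL(2, ℤ) ⧸ G') A :=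
    MonoidHom.mk' (fun g => ⟨MulAction.toPerm g, P.push (f g)⟩) fun g h => by
      refine Monom.ext (Equiv.ext fun y => mul_smul g h y) (funext fun y => ?_)
      show P.push (f (g * h)) y = P.push (f h) y + P.push (f g) (h • y)
      simp only [LevQuot.push, map_mul, Monom.val_mul, Finset.sum_add_distrib, hp, P.smul_pt]
      exact congrArg (_ + ·) (Equiv.sum_comp (Equiv.mulLeft (P.toHom (indPart G' h y)))
        fun δ => (f g).val (P.pt (h • y) δ))
  have hF₁ : F₁ = F := hom_ext_gens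
    (Monom.ext rfl (funext fun y => by show P.push (f _) y = _; rw [fS, hs2]))
    (Monom.ext rfl (funext fun y => by show P.push (f _) y = _; rw [fu, hu2]))
  set x₀ : SL(2, ℤ) ⧸ G := ((1 : SL(2, ℤ)) : SL(2, ℤ) ⧸ G)
  have hstab : ∀ γ : G, (f γ).perm x₀ = x₀ := fun γ => by
    rw [hp]
    exact QuotientGroup.eq.mpr (by simp)
  refine ⟨AddMonoidHom.mk' (fun γ => (f ((γ.toMul : G) : SL(2, ℤ))).val x₀) fun a b => ?_, ?_⟩
  · show (f ((a.toMul * b.toMul : G) : SL(2, ℤ))).val x₀ = _
    rw [Subgroup.coe_mul, map_mul, Monom.val_mul, hstab, add_comm]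
  refine AddMonoidHom.ext fun γ => ?_
  obtain ⟨γ, rfl⟩ := Additive.ofMul.surjective γ
  rw [AddMonoidHom.finsetSum_apply]
  simp only [LevQuot.dia_apply]
  have hbase := indHom_base G' φ (Subgroup.inclusion P.le γ)
  rw [P.res_apply, ← hbase, ← show F₁ = indHom G' φ from hF₁]
  show _ = ∑ δ, (f (γ : SL(2, ℤ))).val (P.pt _ δ)
  obtain ⟨r, hr⟩ := QuotientGroup.mk_out_eq_mul G' (1 : SL(2, ℤ))
  rw [one_mul] at hr
  rw [← Equiv.sum_comp (Equiv.mulLeft (P.toHom r))]
  refine Finset.sum_congr rfl fun δ _ => ?_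
  have hx : P.pt ((1 : SL(2, ℤ)) : SL(2, ℤ) ⧸ G') δ =
      ((P.sec (P.toHom r * δ) : SL(2, ℤ)) : SL(2, ℤ) ⧸ G) := by
    refine QuotientGroup.eq.mpr ?_
    rw [hr, show ((r : SL(2, ℤ)) * (P.sec δ : SL(2, ℤ)))⁻¹ * (P.sec (P.toHom r * δ) : SL(2, ℤ)) =
      (((r * P.sec δ)⁻¹ * P.sec (P.toHom r * δ) : G') : SL(2, ℤ)) by simp, ← P.ker_iff, map_mul,
      map_inv, map_mul, P.toHom_sec, P.toHom_sec, inv_mul_cancel]
  rw [hx]
  set h : SL(2, ℤ) := ((P.sec (P.toHom r * δ) : G') : SL(2, ℤ))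
  set γ' : G := P.conj (P.sec (P.toHom r * δ)) γ
  have e : (γ : SL(2, ℤ)) * h = h * (γ' : SL(2, ℤ)) := by
    show _ = h * (h⁻¹ * _ * h); group
  have e' := congrArg (fun g => (f g).val x₀) e
  simp only [map_mul, Monom.val_mul, hp] at e'
  rw [show h • x₀ = (h : SL(2, ℤ) ⧸ G) from congrArg (QuotientGroup.mk (s := G)) (mul_one h),
    show (γ' : SL(2, ℤ)) • x₀ = x₀ from QuotientGroup.eq.mpr (by simp),
    add_comm ((f (γ' : SL(2, ℤ))).val x₀)] at e'
  exact (add_left_cancel e').symm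

end Norm

/-- The element of order six fixes no coset of `Γ₀(M)` when a prime `≡ 2 (mod 3)` divides `M`. -/
theorem uGen_smul_ne {M : ℕ} {G : Subgroup SL(2, ℤ)} (hG : G ≤ Gamma0 M) {r : ℕ} (hr : r.Prime)
    (hrM : r ∣ M) (hr3 : r % 3 = 2) (x : SL(2, ℤ) ⧸ G) : uGen • x ≠ x := by
  haveI : Fact r.Prime := ⟨hr⟩
  induction x using QuotientGroup.induction_on with
  | H g =>
    intro hfix
    have hmem : (g⁻¹ * uGen * g)⁻¹ ∈ Gamma0 M := hG (by
      have h : (uGen * g)⁻¹ * g ∈ G := QuotientGroup.eq.mp hfix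
      rwa [show (g⁻¹ * uGen * g)⁻¹ = (uGen * g)⁻¹ * g by group])
    have hw : g⁻¹ * uGen * g ∈ Gamma0 M := by simpa using inv_mem hmem
    set γ := g⁻¹ * uGen * g
    have htr : (γ : Matrix (Fin 2) (Fin 2) ℤ).trace = 1 := by
      simp only [γ, Matrix.SpecialLinearGroup.coe_mul]
      rw [Matrix.trace_mul_comm, ← Matrix.mul_assoc, ← Matrix.SpecialLinearGroup.coe_mul,
        mul_inv_cancel, Matrix.SpecialLinearGroup.coe_one, Matrix.one_mul, val_uGen]
      simp [Matrix.trace_fin_two]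
    have hdet := γ.2
    rw [Matrix.det_fin_two] at hdet
    rw [Matrix.trace_fin_two] at htr
    have hc : ((γ 1 0 : ℤ) : ZMod r) = 0 := by
      have h := congrArg (ZMod.castHom hrM (ZMod r)) (Gamma0_mem.mp hw)
      rwa [map_intCast, map_zero] at h
    set a : ZMod r := ((γ 0 0 : ℤ) : ZMod r)
    have e1 : a + ((γ 1 1 : ℤ) : ZMod r) = 1 := by
      rw [← Int.cast_add, htr, Int.cast_one]
    have e2 : a * ((γ 1 1 : ℤ) : ZMod r) = 1 := by
      have h := congrArg (Int.cast : ℤ → ZMod r) hdet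
      push_cast at h
      linear_combination h + ((γ 0 1 : ℤ) : ZMod r) * hc
    have ha : (-a) ^ 3 = 1 := by linear_combination (-(a + 1)) * (a * e1 - e2)
    have ha0 : (-a) ≠ 0 := fun h => by simp [h] at ha
    have h1 : orderOf (-a) ∣ 1 := by
      have d3 : orderOf (-a) ∣ 3 := orderOf_dvd_of_pow_eq_one ha
      have dr : orderOf (-a) ∣ r - 1 := orderOf_dvd_of_pow_eq_one (ZMod.pow_card_sub_one_eq_one ha0)
      have hco : Nat.Coprime 3 (r - 1) :=
        (Nat.prime_three.coprime_iff_not_dvd).mpr fun h => by omega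
      exact (Nat.dvd_gcd d3 dr).trans hco.dvd
    have h2 : -a = 1 := orderOf_eq_one_iff.mp (Nat.dvd_one.mp h1)
    have h3 : ((3 : ℕ) : ZMod r) = 0 := by
      push_cast
      linear_combination a * e1 - e2 + (a - 2) * h2
    rw [ZMod.natCast_eq_zero_iff] at h3
    have := (Nat.prime_dvd_prime_iff_eq hr Nat.prime_three).mp h3
    omega

end Fermat.Agent.R59.Levels
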