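import Fermat.Agent.Auto.Free
import Fermat.Agent.R59.Levels.Neat

/-!
S59, unit C1: the localised lattice is free over the group ring of the diamond operators for `p` odd
(for `p = 3`: at a neat level).
-/

set_option autoImplicit false
set_option linter.unusedSectionVars false
set_option linter.style.haveILetI false

noncomputable section

namespace Fermat.Agent.R59.Levels

open CongruenceSubgroup IsLocalRing
open Fermat.Agent.GalRep (GoodPrime GoodIndex)
open Fermat.Agent.Auto hiding homLoc_le_parabolic mem_latLoc_iff exists_latLoc_equiv norm_criterion exists_latLoc_basis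
open scoped MatrixGroups

variable {p : ℕ} [Fact p.Prime] {O : Type} [CommRing O] [IsDomain O] [IsDiscreteValuationRing O]
  [IsAdicComplete (maximalIdeal O) O] [Finite (ResidueField O)] [CharZero O]
  {M : ℕ} [NeZero M] {Δ : Type} [CommGroup Δ] [Fintype Δ] {c : (ZMod M)ˣ →* Δ}
  {S : Finset ℕ} {a : ℕ → O}

/-- The dichotomy behind neatness. -/
theorem neat_free (hneat : p = 3 → ∃ r : ℕ, r.Prime ∧ r ∣ M ∧ r % 3 = 2) :
    ¬ p ∣ 3 ∨ ∀ x : SL(2, ℤ) ⧸ grp M (1 : (ZMod M)ˣ →* Δ), uGen • x ≠ x := by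
  by_cases h : p = 3
  · obtain ⟨r, hr, hrM, hr3⟩ := hneat h
    exact Or.inr (uGen_smul_ne (fun _ hg => mem_grp_one.mp hg) hr hrM hr3)
  · exact Or.inl fun hd => h ((Nat.prime_dvd_prime_iff_eq Fact.out Nat.prime_three).mp hd)

theorem isUnit_two' (hp2 : p ≠ 2) (hp : (p : O) ∈ maximalIdeal O) : IsUnit ((2 : ℕ) : O) :=
  isUnit_natCast hp fun h => hp2 ((Nat.prime_dvd_prime_iff_eq Fact.out Nat.prime_two).mp h)

section Loc

variable (hp2 : p ≠ 2) (hneat : p = 3 → ∃ r : ℕ, r.Prime ∧ r ∣ M ∧ r % 3 = 2)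
  (hp : (p : O) ∈ maximalIdeal O) (hΔ : IsPGroup p Δ)
  (hMS : ∀ r : ℕ, r.Prime → r ∣ M → r ∈ S) (hne : NonEis S a)

include hp2 hp hMS hne in
/-- The localised part is parabolic. -/
theorem homLoc_le_parabolic :
    homLoc M c O S a ≤ ModularCurve.Period.parabolicHoms O (grp M c) O := by
  intro x hx
  obtain ⟨i, hi1, hiu, hiE⟩ := exists_eis_prime hp hMS hne
  obtain ⟨y, hy⟩ := (bijective_restrict_locPart hT'_commute i hiE).2 ⟨x, hx⟩
  rw [← show ((hT' M c O S i - algebraMap O _ ((((i.1 : Nat.Primes) : ℕ) : O) + 1)) y.1) = x from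
    congrArg Subtype.val hy, LinearMap.sub_apply, Module.algebraMap_end_apply,
    ← Nat.cast_add_one, Nat.cast_smul_eq_nsmul]
  exact transfer_sub_mem_parabolic (K := O) ⟨i.1.1.2, i.1.2⟩ hi1 (gpDia i.1)
    (bijective_nsmul (isUnit_two' hp2 hp)).1 (bijective_nsmul hiu).1 y.1

include hp2 hp hMS hne in
theorem mem_latLoc_iff (v : Lat M c O) :
    v ∈ latLoc M c O S a ↔ (v : Additive (grp M c) →+ O) ∈ homLoc M c O S a := by
  refine ⟨fun h => map_mem_locPart (T := fun i : PrimeOff M S => latT M c O i.1)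
    (T' := hT' M c O S) (ModularCurve.Period.parabolicHoms O (grp M c) O).subtype
    (fun i y => coe_latT i.1 y) h, fun h i k => ?_⟩
  obtain ⟨j, hj⟩ := h i k
  refine ⟨j, fun j' hj' => ?_⟩
  obtain ⟨π, hπ⟩ := IsDiscreteValuationRing.exists_irreducible O
  have hk : maximalIdeal O ^ k = Ideal.span {π ^ k} := by
    rw [hπ.maximalIdeal_eq, Ideal.span_singleton_pow]
  set fL : Module.End O (Lat M c O) :=
    latT M c O i.1 - algebraMap O _ (a ((i.1 : Nat.Primes) : ℕ)) with hfL
  set fH : Module.End O (Additive (grp M c) →+ O) :=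
    hT' M c O S i - algebraMap O _ (a ((i.1 : Nat.Primes) : ℕ)) with hfH
  have hpow : ∀ (n : ℕ) (w : Lat M c O),
      (((fL ^ n) w : Lat M c O) : Additive (grp M c) →+ O) = (fH ^ n) w.1 := fun n => by
    induction n with
    | zero => intro w; rfl
    | succ n ih =>
      intro w
      rw [pow_succ, pow_succ, Module.End.mul_apply, Module.End.mul_apply, ih]
      rfl
  have h1 := hj j' hj'
  rw [← hpow j' v, hk, Submodule.ideal_span_singleton_smul, Submodule.mem_smul_pointwise_iff_exists]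
    at h1
  obtain ⟨y, -, hy⟩ := h1
  have hpar : y ∈ ModularCurve.Period.parabolicHoms O (grp M c) O := fun γ hγ => by
    have h2 : π ^ k * y (Additive.ofMul γ) = 0 :=
      (DFunLike.congr_fun hy (Additive.ofMul γ)).trans (((fL ^ j') v).2 γ hγ)
    exact (mul_eq_zero.mp h2).resolve_left (pow_ne_zero _ hπ.ne_zero)
  rw [hk, Submodule.ideal_span_singleton_smul, Submodule.mem_smul_pointwise_iff_exists]
  exact ⟨⟨y, hpar⟩, trivial, Subtype.ext hy⟩

include hp2 hp hMS hne in
/-- The localised lattice is the localised part of all homomorphisms. -/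
theorem exists_latLoc_equiv : ∃ e : latLoc M c O S a ≃ₗ[O] homLoc M c O S a,
    ∀ v, ((e v : homLoc M c O S a) : Additive (grp M c) →+ O) = v.1.1 := by
  let j : latLoc M c O S a →ₗ[O] homLoc M c O S a :=
    ((ModularCurve.Period.parabolicHoms O (grp M c) O).subtype ∘ₗ
      (latLoc M c O S a).subtype).codRestrict _
      fun v => (mem_latLoc_iff hp2 hp hMS hne v.1).mp v.2
  refine ⟨LinearEquiv.ofBijective j ⟨fun v w h => Subtype.ext (Subtype.ext
    (congrArg Subtype.val h : _)), fun x => ?_⟩, fun v => rfl⟩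
  exact ⟨⟨⟨x.1, homLoc_le_parabolic hp2 hp hMS hne x.2⟩,
    (mem_latLoc_iff hp2 hp hMS hne _).mpr x.2⟩, rfl⟩

variable (hc : Function.Surjective c)

set_option maxHeartbeats 1000000 in
include hp2 hneat hp hΔ hMS hne in
/-- Invariant vectors of the localised part are norms modulo the maximal ideal. -/
theorem norm_criterion (x : homLoc M c O S a)
    (hx : ∀ u, locDia S a hc u x - x ∈ maximalIdeal O • (⊤ : Submodule O _)) :
    ∃ y, x - ∑ u, locDia S a hc u y ∈ maximalIdeal O • (⊤ : Submodule O (homLoc M c O S a)) := by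
  classical
  set k := ResidueField O
  set P := grpQuot (M := M) hc
  obtain ⟨i, -, -, hiE⟩ := exists_eis_prime hp hMS hne
  set ℓ : ℕ := ((i.1 : Nat.Primes) : ℕ)
  let ρ : O →+ k := (residue O).toAddMonoidHom
  set f : Additive (grp M c) →+ k := ρ.comp x.1
  have hres : ∀ w : Additive (grp M c) →+ O,
      w ∈ maximalIdeal O • (⊤ : Submodule O (Additive (grp M c) →+ O)) → ρ.comp w = 0 := fun w hw => by
    refine Submodule.smul_induction_on hw (fun r hr y _ => AddMonoidHom.ext fun γ => ?_)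
      (fun v w hv hw => by rw [AddMonoidHom.comp_add, hv, hw, add_zero])
    show residue O (r * y γ) = 0
    rw [map_mul, (residue_eq_zero_iff _).mpr hr, zero_mul]
  have hsub : ∀ w : homLoc M c O S a, w ∈ maximalIdeal O • (⊤ : Submodule O _) →
      w.1 ∈ maximalIdeal O • (⊤ : Submodule O (Additive (grp M c) →+ O)) := fun w hw =>
    coe_mem_smul_top _ hw
  have hf : ∀ u, P.dia O u f = f := fun u => by
    have h1 := hres _ (hsub _ (hx u))
    rw [Submodule.coe_sub, AddMonoidHom.comp_sub] at h1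
    exact sub_eq_zero.mp h1
  obtain ⟨φb, hφb⟩ := exists_res_homT_sub (R := O) hc i.1 f hf
  have h2 := bijective_nsmul (A := O) (isUnit_two' hp2 hp)
  have hfree := neat_free (p := p) (M := M) (Δ := Δ) hneat
  have hneg : ∀ c' : (ZMod M)ˣ →* Δ, (-1 : SL(2, ℤ)) ∈ grp M c' := fun c' =>
    neg_one_mem_grp hp2 hΔ
  obtain ⟨φ, hφ⟩ : ∃ φ : Additive (grp M (1 : (ZMod M)ˣ →* Δ)) →+ O, ρ.comp φ = φb := by
    rcases hfree with h | h
    · exact exists_lift_hom _ (hneg 1) ρ residue_surjective h2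
        (bijective_nsmul (A := O) (isUnit_natCast hp h))
        (bijective_nsmul (A := k) (isUnit_two' hp2 hp)).1
        (bijective_nsmul (A := k) (isUnit_natCast hp h)).1 φb
    · exact exists_lift_hom_free _ (hneg 1) ρ residue_surjective h2
        (bijective_nsmul (A := k) (isUnit_two' hp2 hp)).1 h φb
  obtain ⟨χ, hχ⟩ : ∃ χ, ∑ u, P.dia O u χ = P.res O φ := by
    rcases neat_free (p := p) (M := M) (Δ := Δ) hneat with h | h
    · exact P.exists_norm_eq O (hneg c) h2 (bijective_nsmul (A := O) (isUnit_natCast hp h)) φ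
    · exact exists_norm_eq_free P O (hneg c) h2 h φ
  set TT := hT' M c O S i
  set z := (TT x.1 - (ℓ + 1) • x.1) - ∑ u, P.dia O u χ with hz
  have hzmem : z ∈ maximalIdeal O • (⊤ : Submodule O (Additive (grp M c) →+ O)) := by
    refine mem_smul_top_of_residue z fun γ => ?_
    have e1 : ρ.comp (∑ u, P.dia O u χ) = homT c O k i.1 f - (ℓ + 1) • f := by
      rw [hχ, ← hφb, ← hφ]; rfl
    rw [homT_comp] at e1
    have e2 := DFunLike.congr_fun e1 γ
    simp only [AddMonoidHom.comp_apply, AddMonoidHom.sub_apply, AddMonoidHom.smul_apply, f] at e2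
    show ρ (z γ) = 0
    simp only [z, AddMonoidHom.sub_apply, AddMonoidHom.smul_apply, map_sub, map_nsmul]
    rw [e2, sub_self]
  set E := locProj (L := Additive (grp M c) →+ O) (fun i : PrimeOff M S => a ((i.1 : Nat.Primes) : ℕ))
    (T := hT' M c O S) hT'_commute
  let E' := E.codRestrict (homLoc M c O S a) (locProj_mem _ hT'_commute)
  have hbij := bijective_restrict_locPart (a := fun i : PrimeOff M S => a ((i.1 : Nat.Primes) : ℕ))
    (T := hT' M c O S) hT'_commute i hiE
  set U := LinearEquiv.ofBijective _ hbij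
  obtain ⟨y, hy⟩ := U.surjective (E' χ)
  refine ⟨y, ?_⟩
  have hU : ∀ w : homLoc M c O S a, ((U w : homLoc M c O S a) : Additive (grp M c) →+ O) =
      TT w.1 - (ℓ + 1) • w.1 := fun w => by
    show (TT - algebraMap O _ ((ℓ : O) + 1)) w.1 = _
    rw [LinearMap.sub_apply, Module.algebraMap_end_apply, ← Nat.cast_add_one, Nat.cast_smul_eq_nsmul]
  have hUd : ∀ u w, U (locDia S a hc u w) = locDia S a hc u (U w) := fun u w => Subtype.ext (by
    rw [hU, coe_locDia, coe_locDia, hU, map_sub, map_nsmul]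
    congr 1
    exact (LinearMap.congr_fun (homT_dia hc i.1 u).eq w.1).symm)
  have key : U (x - ∑ u, locDia S a hc u y) = E' z := by
    rw [map_sub U, map_sum U, Finset.sum_congr rfl fun u _ => hUd u y, hy]
    refine Subtype.ext ?_
    rw [Submodule.coe_sub, hU, Submodule.coe_sum]
    show _ = E z
    simp only [coe_locDia, E', LinearMap.codRestrict_apply]
    rw [hz, map_sub, map_sum]
    congr 1
    · have hx1 : E x.1 = x.1 := locProj_apply_of_mem _ hT'_commute x.2
      have hx2 : E (TT x.1) = TT x.1 := locProj_apply_of_mem _ hT'_commute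
        (map_locPart_le TT (fun j => hT'_commute i j) x.2)
      rw [map_sub, map_nsmul, hx1, hx2]
    · exact Finset.sum_congr rfl fun u _ =>
        LinearMap.congr_fun (commute_locProj _ hT'_commute fun j => homT_dia hc j.1 u).eq χ
  have h4 : x - ∑ u, locDia S a hc u y = U.symm.toLinearMap (E' z) :=
    (U.symm_apply_apply _).symm.trans (congrArg U.symm key)
  rw [h4]
  have h5 : E' z ∈ maximalIdeal O • (⊤ : Submodule O (homLoc M c O S a)) :=
    map_mem_smul_top (L := Additive (grp M c) →+ O) (L' := ↥(homLoc M c O S a)) E' hzmem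
  exact map_mem_smul_top (L := ↥(homLoc M c O S a)) (L' := ↥(homLoc M c O S a)) U.symm.toLinearMap h5

end Loc

/-- Freeness over the diamond operators, with rank that of the level `Γ₀(M)`. -/
theorem exists_latLoc_basis (hp2 : p ≠ 2) (hneat : p = 3 → ∃ r : ℕ, r.Prime ∧ r ∣ M ∧ r % 3 = 2) (hp : (p : O) ∈ maximalIdeal O) (hΔ : IsPGroup p Δ)
    (hc : Function.Surjective c) (hpS : p ∈ S) (hMS : ∀ r : ℕ, r.Prime → r ∣ M → r ∈ S)
    (hne : NonEis S a) :
    ∃ (n : ℕ) (b : Fin n → Lat M c O), (∀ i, b i ∈ latLoc M c O S a) ∧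
      n = Module.finrank O (latLoc M (1 : (ZMod M)ˣ →* Δ) O S a) ∧
      ∀ x ∈ latLoc M c O S a, ∃! f : Fin n → Δ → O,
        x = ∑ i, ∑ u, f i u • latDelta M c O hc u (b i) := by
  classical
  haveI : Module.Finite O (homLoc M c O S a) := Module.IsNoetherian.finite O _
  haveI : Module.IsTorsionFree O (homLoc M c O S a) := inferInstance
  have hcrit : ∀ x : homLoc M c O S a,
      (∀ u, locDia S a hc u x - x ∈ maximalIdeal O • (⊤ : Submodule O (homLoc M c O S a))) →
      ∃ y, x - ∑ u, locDia S a hc u y ∈ maximalIdeal O • (⊤ : Submodule O (homLoc M c O S a)) :=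
    norm_criterion hp2 hneat hp hΔ hMS hne hc
  have key := fun h => exists_groupSum_bijective (p := p) (M := ↥(homLoc M c O S a))
    (locDia S a hc) hΔ hp h
  obtain ⟨n, b, hb⟩ := key hcrit
  have key₂ := fun (n : ℕ) (b : Fin n → homLoc M c O S a) h =>
    exists_invariants_equiv (M := ↥(homLoc M c O S a)) (locDia S a hc) (b := b) h
  obtain ⟨V, hV, ⟨eV⟩⟩ := key₂ n b hb
  obtain ⟨j⟩ := exists_invariants_iso hp hMS hne hc V hV
  obtain ⟨e, he⟩ := exists_latLoc_equiv (c := c) hp2 hp hMS hne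
  obtain ⟨e₁, -⟩ := exists_latLoc_equiv (c := (1 : (ZMod M)ˣ →* Δ)) hp2 hp hMS hne
  have hn : n = Module.finrank O (latLoc M (1 : (ZMod M)ˣ →* Δ) O S a) := by
    rw [(e₁.trans (j.trans eV)).finrank_eq, Module.finrank_pi, Fintype.card_fin]
  refine ⟨n, fun i => (e.symm (b i)).1, fun i => (e.symm (b i)).2, hn, fun x hx => ?_⟩
  have hcoe : ∀ f : Fin n → Δ → O,
      ((∑ i, ∑ u, f i u • latDelta M c O hc u (e.symm (b i)).1 : Lat M c O) :
        Additive (grp M c) →+ O) = (groupSum (locDia S a hc) b f).1 := fun f => by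
    rw [groupSum_apply]
    simp only [Submodule.coe_sum, Submodule.coe_smul, coe_latDelta, coe_locDia]
    refine Finset.sum_congr rfl fun i _ => Finset.sum_congr rfl fun u _ => ?_
    rw [← he (e.symm (b i)), e.apply_symm_apply]
  obtain ⟨f, hf⟩ := hb.2 (e ⟨x, hx⟩)
  refine ⟨f, Subtype.ext ?_, fun g hg => hb.1 (Subtype.ext ?_)⟩
  · rw [hcoe, hf, he]
  · rw [← hcoe, ← hg, hf, he]

end Fermat.Agent.R59.Levels
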