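import Fermat.Agent.Auto.New.Theta
import Fermat.Agent.R59.Defs
import Mathlib.RingTheory.Support
import Mathlib.RingTheory.LocalRing.ResidueField.Fiber
import Mathlib.LinearAlgebra.Dual.Lemmas

/-!
S59, unit C1a: an integral eigen-functional on the lattice from a point of the Hecke algebra, not
vanishing on the residual part.
-/

set_option autoImplicit false
set_option linter.unusedSectionVars false
set_option linter.style.haveILetI false

noncomputable section

namespace Fermat.Agent.R59.Levels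

open CongruenceSubgroup IsLocalRing
open Fermat.Agent.Auto
open Fermat.Agent.GalRep (GoodPrime ParHom heckePolyHom heckeHomAt evFormsOff)
open scoped TensorProduct IsMulCommutative

/-- A functional with prescribed eigenvalues in a field on a finite module. -/
theorem exists_addHom_field {A W K : Type} [CommRing A] [AddCommGroup W] [Module A W]
    [Module.Finite A W] [Field K] [Algebra A K]
    (hker : ∀ r : A, (∀ w : W, r • w = 0) → algebraMap A K r = 0) :
    ∃ ψ : W →ₗ[A] K, ψ ≠ 0 := by
  let P : PrimeSpectrum A := ⟨RingHom.ker (algebraMap A K), RingHom.ker_isPrime _⟩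
  have hmem : P ∈ Module.support A W := by
    rw [Module.support_eq_zeroLocus, PrimeSpectrum.mem_zeroLocus]
    exact fun r hr => RingHom.mem_ker.mpr (hker r fun w => Module.mem_annihilator.mp hr w)
  haveI : P.asIdeal.IsPrime := P.isPrime
  haveI := (Module.mem_support_iff_nontrivial_residueField_tensorProduct P).mp hmem
  let j : P.asIdeal.ResidueField →ₐ[A] K :=
    Ideal.ResidueField.liftₐ P.asIdeal (Algebra.ofId A K)
      (fun x hx => RingHom.mem_ker.mpr (RingHom.mem_ker.mp hx :))
      (fun x hx => isUnit_iff_ne_zero.mpr fun h0 => hx (RingHom.mem_ker.mpr h0))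
  letI : Algebra P.asIdeal.ResidueField K := j.toRingHom.toAlgebra
  haveI : IsScalarTower A P.asIdeal.ResidueField K :=
    IsScalarTower.of_algebraMap_eq fun c => (j.commutes c).symm
  haveI : Nontrivial (K ⊗[A] W) :=
    (TensorProduct.AlgebraTensorModule.cancelBaseChange A P.asIdeal.ResidueField K K
      W).symm.toEquiv.nontrivial
  obtain ⟨v, hv⟩ := exists_ne (0 : K ⊗[A] W)
  obtain ⟨ξ, hξ⟩ := not_forall.mp ((Module.forall_dual_apply_eq_zero_iff K v).not.mpr hv)
  refine ⟨(ξ.restrictScalars A) ∘ₗ TensorProduct.mk A K W 1, fun h => hξ ?_⟩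
  induction v using TensorProduct.induction_on with
  | zero => exact map_zero ξ
  | tmul c w =>
    rw [← mul_one c, ← smul_eq_mul, ← TensorProduct.smul_tmul', map_smul]
    exact (congrArg (c • ·) (LinearMap.congr_fun h w)).trans (smul_zero c)
  | add x y hx hy =>
    rw [map_add]
    by_cases h1 : x = 0
    · rw [h1, map_zero, zero_add]
      by_cases h2 : y = 0
      · rw [h2, map_zero]
      · by_contra h3; exact h3 (hy h2 h3)
    · by_cases h2 : y = 0
      · rw [h2, map_zero, add_zero]; by_contra h3; exact h3 (hx h1 h3)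
      · have hx0 : ξ x = 0 := by by_contra h3; exact h3 (hx h1 h3)
        have hy0 : ξ y = 0 := by by_contra h3; exact h3 (hy h2 h3)
        rw [hx0, hy0, add_zero]

variable {O : Type} [CommRing O] [IsDomain O] [IsDiscreteValuationRing O] [CharZero O]
  [IsAdicComplete (maximalIdeal O) O] [Finite (ResidueField O)] {M : ℕ} [NeZero M] {S : Finset ℕ}
  {a : ℕ → O}

/-- A functional with the residual eigenvalues does not vanish on the part. -/
theorem exists_mem_functional_ne_zero {L : Type} [AddCommGroup L]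
    [Module O L] [Module.Finite O L] {ι : Type} {T : ι → Module.End O L} {a : ι → O}
    (hT : ∀ i j, Commute (T i) (T j)) (φ : L →ₗ[O] ResidueField O) (hφ : φ ≠ 0)
    (h : ∀ i x, φ (T i x) = residue O (a i) * φ x) : ∃ x ∈ locPart T a, φ x ≠ 0 := by
  classical
  by_contra hbot
  simp only [not_exists, not_and, not_not] at hbot
  have hm : ∀ x ∈ mPow O L 1, φ x = 0 := fun x hx => by
    rw [mPow_one] at hx
    refine Submodule.smul_induction_on hx (fun r hr y _ => ?_)
      (fun u v hu hv => by rw [map_add, hu, hv, add_zero])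
    rw [map_smul, Algebra.smul_def, ResidueField.algebraMap_eq, (residue_eq_zero_iff _).mpr hr,
      zero_mul]
  have hf : ∀ i x, φ (shiftOp T a i x) = 0 := fun i x => by
    rw [shiftOp, LinearMap.sub_apply, Module.algebraMap_end_apply, map_sub, h, map_smul,
      Algebra.smul_def, ResidueField.algebraMap_eq, sub_self]
  have hn : ∀ i x, φ (nilProj T a i x) = φ x := fun i x => by
    obtain ⟨n₀, hn₀⟩ := fitProj_spec (shiftOp T a i) 1
    have h1 := hm _ (hn₀ n₀ le_rfl x).1
    rw [map_sub, ← Nat.sub_add_cancel (Nat.factorial_pos n₀), pow_succ', Module.End.mul_apply,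
      hf, sub_zero] at h1
    rw [nilProj, LinearMap.sub_apply, Module.End.one_apply, map_sub, h1, sub_zero]
  have hF : ∀ (F : Finset ι) x, φ (finProj a hT F x) = φ x := fun F => by
    induction F using Finset.induction with
    | empty => intro x; rw [finProj_empty]; rfl
    | insert i F _ ih => intro x; rw [finProj_insert, Module.End.mul_apply, hn, ih]
  refine hφ (LinearMap.ext fun x => ?_)
  exact (hF (exists_stable a hT).choose x).symm.trans (hbot _ (locProj_mem a hT x))

set_option maxHeartbeats 800000 in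
/-- An integral eigen-functional, one on a class of the residual part. -/
theorem exists_eigen_functional
    (χ : CuspForm.heckeAlgebra M 2 (↑S : Set ℕ) →+* O)
    (hχ : ∀ (l : ℕ) (hl : l.Prime) (hlM : ¬ l ∣ M) (hlS : l ∉ (↑S : Set ℕ)),
      residue O (χ (CuspForm.heckeAlgebra.T hl hlM hlS)) = residue O (a l)) :
    ∃ φ : Lat M (1 : (ZMod M)ˣ →* Unit) O →ₗ[O] O,
      (∃ x ∈ latLoc M (1 : (ZMod M)ˣ →* Unit) O S a, φ x = 1) ∧
      ∀ (i : PrimeOff M S) x, φ (latT M 1 O i.1 x) =
        χ (CuspForm.heckeAlgebra.T i.1.1.2 i.1.2 i.2) * φ x := by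
  classical
  let K := FractionRing O
  let act : MvPolynomial (PrimeOff M S) ℤ →ₐ[ℤ] Module.End ℤ (ParHom M ℤ) :=
    (heckePolyHom M ℤ).comp (MvPolynomial.rename (Subtype.val : PrimeOff M S → GoodPrime M))
  letI : Module (MvPolynomial (PrimeOff M S) ℤ) (ParHom M ℤ) := Module.compHom _ act.toRingHom
  haveI : IsScalarTower ℤ (MvPolynomial (PrimeOff M S) ℤ) (ParHom M ℤ) := ⟨fun n r w => by
    show act (n • r) w = n • act r w
    rw [map_zsmul]; rfl⟩
  haveI : Module.Finite (MvPolynomial (PrimeOff M S) ℤ) (ParHom M ℤ) :=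
    Module.Finite.of_restrictScalars_finite ℤ _ _
  letI : Algebra (MvPolynomial (PrimeOff M S) ℤ) K :=
    ((algebraMap O K).comp (χ.comp (evFormsOff (N := M) (↑S : Set ℕ)).toRingHom)).toAlgebra
  obtain ⟨ψ, hψ0⟩ := exists_addHom_field (A := MvPolynomial (PrimeOff M S) ℤ)
    (W := ParHom M ℤ) (K := K) fun r hr => by
      have h0 : act r = 0 := LinearMap.ext hr
      rw [AlgHom.comp_apply] at h0
      have h1 := GalRep.evForms_eq_zero (P := MvPolynomial.rename Subtype.val r) h0
      have h2 : evFormsOff (N := M) (↑S : Set ℕ) r = 0 := Subtype.ext (by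
        rw [GalRep.coe_evFormsOff, h1]; exact (ZeroMemClass.coe_zero _).symm)
      show algebraMap O K (χ (evFormsOff (N := M) (↑S : Set ℕ) r)) = 0
      rw [h2, map_zero, map_zero]
  have hψ : ∀ (i : PrimeOff M S) w, ψ (heckeHomAt i.1 w) =
      algebraMap O K (χ (CuspForm.heckeAlgebra.T i.1.1.2 i.1.2 i.2)) * ψ w := fun i w => by
    have h := map_smul ψ (MvPolynomial.X i : MvPolynomial (PrimeOff M S) ℤ) w
    rw [Algebra.smul_def] at h
    refine Eq.trans (congrArg ψ ?_) (h.trans (congrArg (· * ψ w) ?_))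
    · show heckeHomAt i.1 w = act (MvPolynomial.X i) w
      rw [AlgHom.comp_apply, MvPolynomial.rename_X, GalRep.heckePolyHom_X]
    · show algebraMap O K (χ (evFormsOff (N := M) (↑S : Set ℕ) (MvPolynomial.X i))) = _
      rw [evFormsOff, MvPolynomial.aeval_X]
  obtain ⟨J, _, w, b, hb⟩ := exists_basis_ofInt (M := M) (O := O)
  obtain ⟨⟨d, hd⟩, hint⟩ :=
    IsLocalization.exist_integer_multiples_of_finite (nonZeroDivisors O) fun j => ψ (w j)
  choose c hc using hint
  obtain ⟨ϖ, hϖ⟩ := IsDiscreteValuationRing.exists_irreducible O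
  have hne : ∃ j, c j ≠ 0 := by
    by_contra h
    simp only [not_exists, not_not] at h
    refine hψ0 (LinearMap.ext fun u => ?_)
    have h0 : ∀ j, ψ (w j) = 0 := fun j => by
      have h1 := hc j
      rw [h j, map_zero, Algebra.smul_def] at h1
      exact (mul_eq_zero.mp h1.symm).resolve_left
        fun h2 => nonZeroDivisors.ne_zero hd ((map_eq_zero_iff _ (IsFractionRing.injective O K)).mp h2)
    rw [← w.sum_repr u, map_sum]
    exact Finset.sum_eq_zero fun j _ => by rw [map_zsmul, h0, zsmul_zero]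
  let e : O →ₗ[O] K := Algebra.linearMap O K
  have he : Function.Injective e := IsFractionRing.injective O K
  let φ₀ : Lat M (1 : (ZMod M)ˣ →* Unit) O →ₗ[O] O := b.constr O c
  have hφ₀ : ∀ u, e (φ₀ (ofInt u)) = algebraMap O K d * ψ u := by
    have hadd : ∀ u u' : ParHom M ℤ, ofInt (O := O) (u + u') = ofInt u + ofInt u' := fun u u' =>
      lat_ext_apply fun γ => by
        rw [ofInt_apply, Submodule.coe_add, AddMonoidHom.add_apply, Int.cast_add]; rfl
    have : (e ∘ₗ φ₀).toAddMonoidHom.comp (AddMonoidHom.mk' (ofInt (M := M) (O := O)) hadd) =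
        (AddMonoidHom.mulLeft (algebraMap O K d)).comp ψ.toAddMonoidHom := by
      refine AddMonoidHom.ext fun u => ?_
      rw [← w.sum_repr u, map_sum, map_sum]
      refine Finset.sum_congr rfl fun j _ => ?_
      rw [map_zsmul, map_zsmul]
      congr 1
      show e (φ₀ (ofInt (w j))) = algebraMap O K d * ψ (w j)
      rw [← hb, Module.Basis.constr_basis, ← Algebra.smul_def]
      exact hc j
    exact DFunLike.congr_fun this
  have hφ₀T : ∀ (i : PrimeOff M S) x, φ₀ (latT M 1 O i.1 x) =
      χ (CuspForm.heckeAlgebra.T i.1.1.2 i.1.2 i.2) * φ₀ x := fun i => by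
    have : φ₀ ∘ₗ latT M (1 : (ZMod M)ˣ →* Unit) O i.1 =
        χ (CuspForm.heckeAlgebra.T i.1.1.2 i.1.2 i.2) • φ₀ := b.ext fun j => he (by
      rw [LinearMap.comp_apply, LinearMap.smul_apply, map_smul, hb, latT_ofInt, hφ₀, hφ₀, hψ,
        Algebra.smul_def]
      ring)
    exact fun x => LinearMap.congr_fun this x
  -- divide by the largest common power of the uniformiser
  have hnorm : ∀ (n : ℕ) (φ : Lat M (1 : (ZMod M)ˣ →* Unit) O →ₗ[O] O),
      (∃ j, ¬ ϖ ^ n ∣ φ (b j)) →
      (∀ (i : PrimeOff M S) x, φ (latT M 1 O i.1 x) =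
        χ (CuspForm.heckeAlgebra.T i.1.1.2 i.1.2 i.2) * φ x) →
      ∃ φ' : Lat M (1 : (ZMod M)ˣ →* Unit) O →ₗ[O] O, (∃ x, IsUnit (φ' x)) ∧
        ∀ (i : PrimeOff M S) x, φ' (latT M 1 O i.1 x) =
          χ (CuspForm.heckeAlgebra.T i.1.1.2 i.1.2 i.2) * φ' x := by
    intro n
    induction n with
    | zero => rintro φ ⟨j, hj⟩; exact absurd (by rw [pow_zero]; exact one_dvd _) hj
    | succ n ih =>
      rintro φ ⟨j, hj⟩ hφ
      by_cases hu : ∃ x, IsUnit (φ x)
      · exact ⟨φ, hu, hφ⟩
      simp only [not_exists] at hu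
      have hdiv : ∀ x, ∃ y, φ x = ϖ * y := fun x => by
        have h := (mem_maximalIdeal _).mpr (hu x)
        rw [hϖ.maximalIdeal_eq, Ideal.mem_span_singleton] at h
        exact h
      choose f hf using hdiv
      have hϖ0 := hϖ.ne_zero
      let φ' : Lat M (1 : (ZMod M)ˣ →* Unit) O →ₗ[O] O :=
        { toFun := f
          map_add' := fun x y => mul_left_cancel₀ hϖ0 (by rw [← hf, map_add, hf, hf, mul_add])
          map_smul' := fun r x => mul_left_cancel₀ hϖ0 (by
            rw [← hf, map_smul, hf, smul_eq_mul, RingHom.id_apply, smul_eq_mul]; ring) }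
      refine ih φ' ⟨j, fun h => hj ?_⟩ fun i x => mul_left_cancel₀ hϖ0 (by
        show ϖ * f _ = ϖ * (_ * f x)
        rw [← hf, hφ, hf]; ring)
      rw [hf, pow_succ']
      exact mul_dvd_mul_left ϖ h
  obtain ⟨j, hj⟩ := hne
  obtain ⟨k, u, hu⟩ := IsDiscreteValuationRing.eq_unit_mul_pow_irreducible hj hϖ
  obtain ⟨φ, ⟨x, hx⟩, hφ⟩ := hnorm (k + 1) φ₀ ⟨j, fun h => by
    rw [show φ₀ (b j) = c j from b.constr_basis O c j, hu, Units.dvd_mul_left] at h
    have := (pow_dvd_pow_iff hϖ.ne_zero hϖ.not_isUnit).mp h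
    omega⟩ hφ₀T
  obtain ⟨x₀, hx₀, hx₀'⟩ := exists_mem_functional_ne_zero
    (L := Lat M (1 : (ZMod M)ˣ →* Unit) O) (T := fun i : PrimeOff M S => latT M 1 O i.1)
    (a := fun i : PrimeOff M S => a ((i.1 : Nat.Primes) : ℕ)) (fun i j => latT_commute' _ _)
    ((Algebra.linearMap O (ResidueField O)) ∘ₗ φ)
    (fun h => by
      have h1 := LinearMap.congr_fun h x
      exact (residue_ne_zero_iff_isUnit _).mpr hx h1)
    (fun i y => by
      show residue O (φ _) = _ * residue O (φ y)
      rw [hφ, map_mul, hχ _ i.1.1.2 i.1.2 i.2])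
  have hu₀ : IsUnit (φ x₀) := (residue_ne_zero_iff_isUnit _).mp hx₀'
  refine ⟨φ, ⟨(hu₀.unit⁻¹ : Oˣ).1 • x₀, Submodule.smul_mem _ _ hx₀, ?_⟩, hφ⟩
  rw [map_smul, smul_eq_mul]
  exact hu₀.val_inv_mul

end Fermat.Agent.R59.Levels
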