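import Fermat.Agent.R59.Levels.Assemble

/-!
S59, unit C1: the level data of the minimal patching exist.
-/

set_option autoImplicit false
set_option linter.unusedSectionVars false

noncomputable section

namespace Fermat.Agent.R59.Levels

open IsLocalRing CongruenceSubgroup

variable {p : ℕ} [Fact p.Prime] {O : Type} [CommRing O] [IsDomain O] [IsDiscreteValuationRing O]
  [IsAdicComplete (maximalIdeal O) O] [Finite (ResidueField O)]
  [Algebra ℤ_[p] O] [Module.Finite ℤ_[p] O] [CharZero O]

/-- The data at level `N` and at every Taylor-Wiles level over it. -/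
theorem exists_levelData {ρbar : ResidualGaloisRep (ResidueField O)} {N : ℕ} [NeZero N]
    {S : Finset ℕ} {a : ℕ → O} (H : Setting p O ρbar N S a) :
    ∃ B : BaseData p O ρbar N S a, ∀ (n : ℕ) (Q : Finset ℕ),
      (∀ v ∈ Q, v.Prime ∧ v ∉ S ∧ v ≡ 1 [MOD p ^ (n + 1)] ∧ residue O (a v) ^ 2 ≠ 4) →
        Nonempty (LevelData p O B Q n) := by
  obtain ⟨B⟩ := exists_baseData H
  exact ⟨B, fun n Q hQ => exists_levelData_at H B hQ⟩

end Fermat.Agent.R59.Levels
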