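import Fermat.Agent.GD.TW56.BaseChange
import Fermat.Agent.GalRep.Cyclo
import Fermat.Prelude.Def_GaloisRep_ResidualEquiv

/-!
S59, unit C2c: the conditions on a representation pass to quotients of the coefficient ring.
-/

set_option autoImplicit false
set_option linter.style.haveILetI false

noncomputable section

namespace Fermat.Agent.R59.Levels

open IsLocalRing
open scoped TensorProduct
open Fermat.Agent.Deform (Mat2 mapHom HasMatrix RHasMatrix)
open Fermat.Agent.Galois (GQ)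

variable {A B : Type} [CommRing A] [IsLocalRing A] [CommRing B] [IsLocalRing B]

/-- Ordinarity only depends on the isomorphism class. -/
theorem isOrdinaryAt_of_isEquiv {ρ ρ' : GaloisRepAdic A} {p : ℕ} (he : ρ.IsEquiv ρ')
    (h : ρ.IsOrdinaryAt p) : ρ'.IsOrdinaryAt p := fun P hP => by
  obtain ⟨e⟩ := he
  obtain ⟨L, ⟨b, rfl⟩, hD, hI⟩ := h P hP
  have hmem : ∀ v, v ∈ A ∙ b 0 → e.toLinearEquiv v ∈ A ∙ (b.map e.toLinearEquiv) 0 := fun v hv => by
    obtain ⟨c, rfl⟩ := Submodule.mem_span_singleton.mp hv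
    rw [map_smul, Module.Basis.map_apply]
    exact Submodule.smul_mem _ _ (Submodule.mem_span_singleton_self _)
  refine ⟨_, ⟨b.map e.toLinearEquiv, rfl⟩, fun σ hσ v hv => ?_, fun σ hσ v => ?_⟩
  · obtain ⟨c, rfl⟩ := Submodule.mem_span_singleton.mp hv
    rw [Module.Basis.map_apply, ← map_smul, ← e.map_apply]
    exact hmem _ (hD σ hσ _ (Submodule.smul_mem _ _ (Submodule.mem_span_singleton_self _)))
  · obtain ⟨w, rfl⟩ := e.toLinearEquiv.surjective v
    rw [← e.map_apply, ← map_sub]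
    exact hmem _ (hI σ hσ w)

/-- Ordinarity passes along maps of local rings. -/
theorem isOrdinaryAt_baseChange {φ : A →+* B} (hφ : IsLocalHom φ) {ρ : GaloisRepAdic A} {p : ℕ}
    (h : ρ.IsOrdinaryAt p) : (ρ.baseChangeAlong φ hφ).IsOrdinaryAt p := fun P hP => by
  letI : Algebra A B := φ.toAlgebra
  obtain ⟨L, ⟨b, rfl⟩, hD, hI⟩ := h P hP
  let b' : Module.Basis (Fin 2) B (B ⊗[A] ρ.V) := Algebra.TensorProduct.basis B b
  have hb' : b' 0 = (1 : B) ⊗ₜ[A] b 0 := Algebra.TensorProduct.basis_apply ..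
  have e1 : ∀ (c : B) (d : A) (v : ρ.V), c ⊗ₜ[A] (d • v) = (φ d * c) • ((1 : B) ⊗ₜ[A] v) := fun c d v => by
    rw [TensorProduct.smul_tmul', smul_eq_mul, mul_one, TensorProduct.tmul_smul,
      TensorProduct.smul_tmul', Algebra.smul_def]
    rfl
  refine ⟨B ∙ b' 0, ⟨b', rfl⟩, fun σ hσ v hv => ?_, fun σ hσ v => ?_⟩
  · obtain ⟨c, rfl⟩ := Submodule.mem_span_singleton.mp hv
    obtain ⟨d, hd⟩ := Submodule.mem_span_singleton.mp (hD σ hσ _ (Submodule.mem_span_singleton_self _))
    show (ρ.ρ σ).baseChange B (c • b' 0) ∈ B ∙ b' 0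
    rw [map_smul, hb', LinearMap.baseChange_tmul, ← hd, e1]
    exact Submodule.smul_mem _ _ (Submodule.smul_mem _ _ (Submodule.mem_span_singleton_self _))
  · suffices ∀ v : B ⊗[A] ρ.V, (ρ.ρ σ).baseChange B v - v ∈ B ∙ b' 0 from this v
    intro v
    induction v using TensorProduct.induction_on with
    | zero => simp
    | tmul c w =>
      obtain ⟨d, hd⟩ := Submodule.mem_span_singleton.mp (hI σ hσ w)
      rw [LinearMap.baseChange_tmul, ← TensorProduct.tmul_sub, ← hd, e1, hb']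
      exact Submodule.smul_mem _ _ (Submodule.mem_span_singleton_self _)
    | add v w hv hw =>
      rw [map_add, add_sub_add_comm]
      exact add_mem hv hw

/-- The residual representation being ordinary passes along an isomorphism over an extension. -/
theorem isOrdinaryAt_ofResidual {k k' : Type} [Field k] [Field k'] (ψ : k →+* k')
    {σbar : ResidualGaloisRep k'} {ρbar : ResidualGaloisRep k}
    (he : σbar.IsEquiv (ρbar.baseChangeAlong ψ)) {p : ℕ}
    (h : (GaloisRepAdic.ofResidualGaloisRep ρbar).IsOrdinaryAt p) :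
    (GaloisRepAdic.ofResidualGaloisRep σbar).IsOrdinaryAt p := by
  have hψ : IsLocalHom ψ := inferInstance
  obtain ⟨r, hr⟩ := Deform.exists_rhasMatrix ρbar
  obtain ⟨e⟩ := he
  have h1 := (hr.baseChangeAlong ψ).of_equiv ⟨e.symm⟩
  have h2 : HasMatrix (GaloisRepAdic.ofResidualGaloisRep ρbar) r := hr
  exact isOrdinaryAt_of_isEquiv
    ((h2.baseChangeAlong ψ hψ).isEquiv (ρ' := GaloisRepAdic.ofResidualGaloisRep σbar) h1)
    (isOrdinaryAt_baseChange hψ h)

/-- The trace of a base change. -/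
theorem trace_baseChangeAlong (ρ : GaloisRepAdic A) (φ : A →+* B) (hφ : IsLocalHom φ) (σ : GQ) :
    (ρ.baseChangeAlong φ hφ).trace σ = φ (ρ.trace σ) := by
  obtain ⟨r, hr⟩ := Deform.exists_hasMatrix ρ
  rw [(hr.baseChangeAlong φ hφ).trace_eq, hr.trace_eq]
  show ((r σ).map φ).trace = _
  exact (AddMonoidHom.map_trace φ.toAddMonoidHom (r σ)).symm

/-- The residual representation of a base change. -/
theorem residual_baseChangeAlong {k : Type} [Field k] {ρbar : ResidualGaloisRep k}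
    (ρ : GaloisRepAdic A) (ψA : k →+* ResidueField A) (φ : A →+* B) (hφ : IsLocalHom φ)
    (ψB : k →+* ResidueField B)
    (hψ : ∀ x, ψB x = (haveI := hφ; ResidueField.map φ) (ψA x))
    (he : ρ.residual.IsEquiv (ρbar.baseChangeAlong ψA)) :
    (ρ.baseChangeAlong φ hφ).residual.IsEquiv (ρbar.baseChangeAlong ψB) := by
  haveI := hφ
  obtain ⟨r₀, h₀⟩ := Deform.exists_rhasMatrix ρbar
  obtain ⟨r, hr, hrm⟩ := Deform.exists_hasMatrix_lifting ρ (h₀.baseChangeAlong ψA) he
  refine (hr.baseChangeAlong φ hφ).residual.isEquiv ?_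
  have e : (mapHom (residue B)).comp ((mapHom φ).comp r) = (mapHom ψB).comp r₀ :=
    MonoidHom.ext fun σ => Matrix.ext fun i j => by
      have h1 := congrFun (congrFun (hrm σ) i) j
      simp only [MonoidHom.comp_apply, Deform.mapHom_apply, Matrix.map_apply] at h1 ⊢
      rw [hψ, ← h1, ResidueField.map_residue]
  rw [e]
  exact h₀.baseChangeAlong ψB

variable {p : ℕ} [Fact p.Prime] {O : Type} [CommRing O] [Algebra ℤ_[p] O] [Algebra O A]

/-- A determinant equal to the cyclotomic character is cyclotomic. -/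
theorem detIsCyclotomic_of_eq (ρ : GaloisRepAdic A) (hp : (p : A) ∈ maximalIdeal A)
    (hdet : ∀ σ : GQ, LinearMap.det (ρ.ρ σ) =
      algebraMap O A (algebraMap ℤ_[p] O (GalRep.cyc p σ : ℤ_[p]))) : ρ.DetIsCyclotomic p := by
  refine ⟨hp, fun n σ a ha => ?_⟩
  have h1 : ((GalRep.cyc p σ : ℤ_[p]) - (a : ℤ_[p])) ∈ Ideal.span {((p ^ n : ℕ) : ℤ_[p])} := by
    rw [Nat.cast_pow, ← PadicInt.ker_toZModPow, RingHom.mem_ker, map_sub, map_natCast, sub_eq_zero]
    rcases eq_or_ne n 0 with rfl | hn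
    · have : Subsingleton (ZMod (p ^ 0)) := by rw [pow_zero]; infer_instance
      exact Subsingleton.elim _ _
    haveI : NeZero (p ^ n) := ⟨pow_ne_zero n (Fact.out : p.Prime).ne_zero⟩
    obtain ⟨ζ, hζ⟩ := HasEnoughRootsOfUnity.exists_primitiveRoot (AlgebraicClosure ℚ) (p ^ n)
    exact GalRep.toZModPow_cyc_eq p σ hn hζ (ha ζ hζ.pow_eq_one)
  have h2 := TW56.map_mem_span_natCast (φ := (algebraMap O A).comp (algebraMap ℤ_[p] O)) h1
  rwa [map_sub, map_natCast, RingHom.comp_apply, ← hdet σ] at h2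

end Fermat.Agent.R59.Levels
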