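import Fermat.Agent.R59.Defs
import Fermat.Agent.R59.Levels.Algebra
import Fermat.Agent.R59.Levels.Transfer
import Fermat.Prelude.Sol.S_IsLocalRing_isAdicComplete_of_module_finite

/-!
S59, units C1a and C2c: the quotient of a coefficient ring acting faithfully on a stable part.
-/

set_option autoImplicit false
set_option linter.unusedSectionVars false
set_option linter.style.haveILetI false

noncomputable section

namespace Fermat.Agent.R59.Levels

open IsLocalRing
open Fermat.Agent.Galois (GQ)

/-- The action on a stable part. -/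
theorem exists_restrictAct {O T L : Type} [CommRing O] [CommRing T] [Algebra O T] [AddCommGroup L]
    [Module O L] {V K : Submodule O L} (hK : K ≤ V) (act : T →ₐ[O] Module.End O V)
    (hmem : ∀ (t : T) (x : V), x.1 ∈ K → (act t x).1 ∈ K) :
    ∃ f : T →ₐ[O] Module.End O K, ∀ t (x : K), (f t x).1 = (act t ⟨x.1, hK x.2⟩).1 := by
  let F : T → Module.End O K := fun t =>
    ((V.subtype ∘ₗ act t) ∘ₗ Submodule.inclusion hK).codRestrict K fun x => hmem t _ x.2
  refine ⟨{ toFun := F
            map_one' := LinearMap.ext fun x => Subtype.ext ?_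
            map_mul' := fun t u => LinearMap.ext fun x => Subtype.ext ?_
            map_zero' := LinearMap.ext fun x => Subtype.ext ?_
            map_add' := fun t u => LinearMap.ext fun x => Subtype.ext ?_
            commutes' := fun c => LinearMap.ext fun x => Subtype.ext ?_ }, fun t x => rfl⟩
  · show (act 1 (Submodule.inclusion hK x)).1 = x.1
    rw [map_one]; rfl
  · show (act (t * u) (Submodule.inclusion hK x)).1 = _
    rw [map_mul]; rfl
  · show (act 0 (Submodule.inclusion hK x)).1 = _
    rw [map_zero]; rfl
  · show (act (t + u) (Submodule.inclusion hK x)).1 = _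
    rw [map_add]; rfl
  · show (act (algebraMap O T c) (Submodule.inclusion hK x)).1 = _
    rw [AlgHom.commutes]; rfl

variable {p : ℕ} [Fact p.Prime] {O : Type} [CommRing O] [IsDomain O] [IsDiscreteValuationRing O]
  [IsAdicComplete (maximalIdeal O) O] [Finite (ResidueField O)]
  [Algebra ℤ_[p] O] [Module.Finite ℤ_[p] O] [CharZero O]
  {ρbar : ResidualGaloisRep (ResidueField O)}

set_option maxHeartbeats 800000 in
/-- The quotient through which an action factors, with its lift of the residual representation. -/
theorem exists_quotient_lift {T : Type} [CommRing T] [IsLocalRing T] [Algebra O T]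
    [IsLocalHom (algebraMap O T)] [IsNoetherianRing T] [Module.Finite O T] (ρ : GaloisRepAdic T)
    (hsurj : Function.Surjective (residue T ∘ algebraMap O T))
    (hres : ρ.residual.IsEquiv (ρbar.baseChangeAlong (ResidueField.map (algebraMap O T))))
    (hadj : Algebra.adjoin O (Set.range ρ.trace) = ⊤) (hdet : ρ.DetIsCyclotomic p)
    {W : Type} [AddCommGroup W] [Module O W] [Nontrivial W] (f : T →ₐ[O] Module.End O W)
    (hred : ∀ t, f t * f t = 0 → f t = 0) :
    ∃ (X : Lift p O ρbar) (mk : T →ₐ[O] X.R) (Φ : X.R →ₐ[O] Module.End O W),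
      Function.Surjective mk ∧ Function.Injective Φ ∧ (∀ t, Φ (mk t) = f t) ∧
      (∀ z : X.R, z * z = 0 → z = 0) ∧ (∀ σ, X.ρ.trace σ = mk (ρ.trace σ)) ∧
      (∀ l, ρ.IsUnramifiedAt l → X.ρ.IsUnramifiedAt l) ∧
      (∀ l, ρ.IsUnipotentOnInertiaAt l → X.ρ.IsUnipotentOnInertiaAt l) ∧
      (ρ.IsFlatAt p → X.ρ.IsFlatAt p) ∧ (ρ.IsOrdinaryAt p → X.ρ.IsOrdinaryAt p) := by
  haveI : Nontrivial (T ⧸ RingHom.ker f.toRingHom) :=
    Ideal.Quotient.nontrivial_iff.mpr (RingHom.ker_ne_top f.toRingHom)
  let R := T ⧸ RingHom.ker f.toRingHom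
  let mk : T →+* R := Ideal.Quotient.mk _
  have hmk : Function.Surjective mk := Ideal.Quotient.mk_surjective
  haveI : IsLocalRing R := IsLocalRing.of_surjective' mk hmk
  haveI hlocmk : IsLocalHom mk := IsLocalHom.of_surjective mk hmk
  haveI : IsLocalHom (algebraMap O R) := by
    rw [show algebraMap O R = mk.comp (algebraMap O T) from rfl]
    infer_instance
  haveI : Module.Finite O R := Module.Finite.of_surjective (Ideal.Quotient.mkₐ O _).toLinearMap hmk
  haveI : IsNoetherianRing R := isNoetherianRing_of_surjective T R mk hmk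
  haveI : IsAdicComplete (maximalIdeal R) R :=
    P2MW.S_IsLocalRing_isAdicComplete_of_module_finite.solution (𝒪 := O) (T := R)
  let L : R →ₐ[O] Module.End O W := Ideal.Quotient.liftₐ _ f fun t ht => ht
  have hL : ∀ t, L (mk t) = f t := fun t => rfl
  have hLinj : Function.Injective L := by
    refine (injective_iff_map_eq_zero L).mpr fun r hr => ?_
    obtain ⟨t, rfl⟩ := hmk r
    exact Ideal.Quotient.eq_zero_iff_mem.mpr hr
  have hR : ∀ σ, (ρ.baseChangeAlong mk hlocmk).trace σ = mk (ρ.trace σ) :=
    trace_baseChangeAlong ρ mk hlocmk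
  have hadjR : Algebra.adjoin O (Set.range (ρ.baseChangeAlong mk hlocmk).trace) = ⊤ := by
    have h1 : (⊤ : Subalgebra O T).map (Ideal.Quotient.mkₐ O _) = (⊤ : Subalgebra O R) :=
      eq_top_iff.mpr fun r _ => by obtain ⟨t, rfl⟩ := hmk r; exact ⟨t, trivial, rfl⟩
    rw [eq_top_iff, ← h1, ← hadj, AlgHom.map_adjoin]
    refine Algebra.adjoin_mono ?_
    rintro _ ⟨_, ⟨σ, rfl⟩, rfl⟩
    exact ⟨σ, hR σ⟩
  refine ⟨{ R := R
            residue_surjective := fun y => by
              obtain ⟨r, rfl⟩ := residue_surjective y
              obtain ⟨t, rfl⟩ := hmk r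
              obtain ⟨c, hc⟩ := hsurj (residue T t)
              refine ⟨c, ?_⟩
              have h := congrArg (ResidueField.map mk) hc
              simp only [Function.comp_apply, ResidueField.map_residue] at h
              exact h
            ρ := ρ.baseChangeAlong mk hlocmk
            residual := residual_baseChangeAlong ρ _ mk hlocmk _ (fun x => by
              obtain ⟨c, rfl⟩ := residue_surjective x
              rw [ResidueField.map_residue, ResidueField.map_residue, ResidueField.map_residue]
              rfl) hres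
            adjoin_trace := hadjR
            det_cyclotomic := TW56.detIsCyclotomic_baseChange hlocmk hdet },
    Ideal.Quotient.mkₐ O _, L, hmk, hLinj, hL, fun z hz => ?_, hR,
    fun l h => TW56.isUnramifiedAt_baseChange hlocmk h,
    fun l h => TW56.isUnipotentOnInertiaAt_baseChange hlocmk h,
    fun h => TW56.isFlatAt_baseChange hlocmk hmk h, fun h => isOrdinaryAt_baseChange hlocmk h⟩
  obtain ⟨t, rfl⟩ := hmk z
  refine hLinj ?_
  rw [map_zero, hL]
  refine hred t ?_
  rw [← hL, ← map_mul, hz, map_zero]

end Fermat.Agent.R59.Levels
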