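import Fermat.Agent.R59.Defs
import Fermat.Agent.R59.Levels.Assemble
import Fermat.Agent.R59.Levels.Quotient

/-!
S59, units C1a and C2c: a saturated Hecke stable part of the residual lattice gives a system.
-/

set_option autoImplicit false
set_option linter.unusedSectionVars false
set_option linter.style.haveILetI false
set_option synthInstance.maxHeartbeats 400000

noncomputable section

namespace Fermat.Agent.R59.Levels

open IsLocalRing CongruenceSubgroup CuspForm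
open Fermat.Agent.Galois (GQ)
open Fermat.Agent.GalRep (GoodPrime)
open Fermat.Agent.Auto hiding homLoc_le_parabolic mem_latLoc_iff exists_latLoc_equiv norm_criterion exists_latLoc_basis exists_latRes_eq_norm galLat_inertia trace_inertia_levelRep finrank_latLoc_qm_le finrank_latLoc_mul_le finrank_latLoc_prod_le

variable {p : ℕ} [Fact p.Prime] {O : Type} [CommRing O] [IsDomain O] [IsDiscreteValuationRing O]
  [IsAdicComplete (maximalIdeal O) O] [Finite (ResidueField O)]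
  [Algebra ℤ_[p] O] [Module.Finite ℤ_[p] O] [CharZero O]
  {ρbar : ResidualGaloisRep (ResidueField O)} {M : ℕ} [NeZero M] {S : Finset ℕ} {a : ℕ → O}

/-- The setting of the levels at a multiple of the level of a seed. -/
theorem setting_of_seed {N : ℕ} [NeZero N] {U aux : Finset ℕ} {ord : Bool}
    (H : Seed p O ρbar N U aux S a ord) (hNM : N ∣ M) (hMS : ∀ l : ℕ, l.Prime → l ∣ M → l ∈ S)
    (hne : latLoc M (1 : (ZMod M)ˣ →* Unit) O S a ≠ ⊥) : Setting p O ρbar M S a where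
  ne_two := H.p_ne_two
  p_mem := H.p_mem
  level_mem := hMS
  neat h := by
    rcases H.neat with h5 | ⟨r, hr, hr3⟩
    · omega
    · obtain ⟨hrp, hrne, -, -⟩ := H.mem_aux r hr
      exact ⟨r, hrp, ((H.dvd_iff r hrp hrne).mpr (Or.inr hr)).trans hNM, hr3⟩
  absIrr := H.absIrr
  charpoly_frob l hl hlp hlM :=
    H.charpoly_frob l hl hlp fun h => hlM (((H.dvd_iff l hl hlp).mpr (Or.inl h)).trans hNM)
  ne_bot := hne

/-- The residual part at the level of a seed is not zero. -/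
theorem latLoc_ne_bot_of_seed {N : ℕ} [NeZero N] {U aux : Finset ℕ} {ord : Bool}
    (H : Seed p O ρbar N U aux S a ord) : latLoc N (1 : (ZMod N)ˣ →* Unit) O S a ≠ ⊥ := by
  obtain ⟨χ, hχ⟩ := H.point S (Finset.Subset.refl S)
  exact latLoc_ne_bot_aux ((residue O).comp χ) hχ

/-- A ring of Hecke operators of level `M * 1` is one of level `M`. -/
theorem exists_heckeHom_cast {M' : ℕ} [NeZero M'] (e : M' = M) {E : Type} [Semiring E]
    (φ : heckeAlgebra M' 2 (↑S : Set ℕ) →+* E) (P : Nat.Primes → E → Prop)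
    (hφ : ∀ (l : ℕ) (hl : l.Prime) (hlM : ¬ l ∣ M') (hlS : l ∉ (↑S : Set ℕ)),
      P ⟨l, hl⟩ (φ (heckeAlgebra.T hl hlM hlS))) :
    ∃ ψ : heckeAlgebra M 2 (↑S : Set ℕ) →+* E,
      ∀ (l : ℕ) (hl : l.Prime) (hlM : ¬ l ∣ M) (hlS : l ∉ (↑S : Set ℕ)),
        P ⟨l, hl⟩ (ψ (heckeAlgebra.T hl hlM hlS)) := by
  subst e
  exact ⟨φ, hφ⟩

/-- A hom into operators landing in the image of an action factors through the quotient. -/
theorem exists_factorHom {A T R E W : Type} [CommRing A] [CommRing T] [CommRing R] [Ring E]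
    [Ring W] [Algebra O T] [Algebra O R] [Algebra O E] [Algebra O W] (act : T →ₐ[O] E)
    (f : T →ₐ[O] W) (mk : T →+* R) (L : R →ₐ[O] W) (hLinj : Function.Injective L)
    (hL : ∀ t, L (mk t) = f t) (hwd : ∀ t t', act t = act t' → f t = f t')
    (φ : A →+* E) (τ : A → T) (hτ : ∀ u, act (τ u) = φ u) :
    ∃ ψ : A →+* R, ∀ u, ψ u = mk (τ u) := by
  have h : ∀ u t, act t = φ u → mk (τ u) = mk t := fun u t ht => hLinj (by
    rw [hL, hL]; exact hwd _ _ ((hτ u).trans ht.symm))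
  exact ⟨{ toFun := fun u => mk (τ u)
           map_one' := (h 1 1 (by rw [map_one, map_one])).trans (map_one mk)
           map_mul' := fun u v => (h (u * v) (τ u * τ v) (by rw [map_mul, map_mul, hτ, hτ])).trans
             (map_mul mk _ _)
           map_zero' := (h 0 0 (by rw [map_zero, map_zero])).trans (map_zero mk)
           map_add' := fun u v => (h (u + v) (τ u + τ v) (by rw [map_add, map_add, hτ, hτ])).trans
             (map_add mk _ _) }, fun u => rfl⟩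

/-- A system from a lift acting faithfully on a lattice. -/
def sysMk (X : Lift p O ρbar) (W : Type) [AddCommGroup W] [Module O W] [Module.Finite O W]
    [Module.Free O W] (L : X.R →ₐ[O] Module.End O W) (hL : Function.Injective L)
    (hred : ∀ z : X.R, z * z = 0 → z = 0)
    (hocc : ∀ g : X.R →ₐ[O] O, ∃ θ : heckeAlgebra M 2 (↑S : Set ℕ) →+* O,
      ∀ (l : ℕ) (hl : l.Prime) (hlN : ¬ l ∣ M) (hlS : l ∉ (↑S : Set ℕ))
        (A : ValuationSubring (AlgebraicClosure ℚ)), A.LiesOverPrime l →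
        ∀ σ : GQ, A.IsFrobeniusAt σ l →
          θ (heckeAlgebra.T hl hlN hlS) = g (X.ρ.trace σ)) : Sys p O ρbar M S :=
  letI : Module X.R W := Module.compHom W L.toRingHom
  haveI : IsScalarTower O X.R W := ⟨fun c r x => by
    show L (c • r) x = c • L r x
    rw [map_smul]; rfl⟩
  { X := X
    M := W
    faithful := eq_bot_iff.mpr fun r hr => hL (by
      rw [map_zero]
      exact LinearMap.ext fun x => Module.mem_annihilator.mp hr x)
    sep := fun g => exists_sep hred g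
    occurs := hocc }

set_option maxHeartbeats 1000000 in
/-- The system on a saturated Hecke stable part. -/
theorem exists_sys_of_part (HS : Setting p O ρbar M S a)
    (K : Submodule O (Lat M (1 : (ZMod M)ˣ →* Unit) O))
    (hK : K ≤ latLoc M (1 : (ZMod M)ˣ →* Unit) O S a) (hne : K ≠ ⊥)
    (hT : ∀ (l : PrimeOff M S), ∀ x ∈ K, latT M 1 O l.1 x ∈ K) :
    ∃ (Y : Sys p O ρbar M S) (e : Y.M ≃ₗ[O] K),
      (∀ (l : PrimeOff M S) (A : ValuationSubring (AlgebraicClosure ℚ)),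
        A.LiesOverPrime ((l.1 : Nat.Primes) : ℕ) → ∀ τ : GQ,
          A.IsFrobeniusAt τ ((l.1 : Nat.Primes) : ℕ) → ∀ y : Y.M,
            ((e (Y.X.ρ.trace τ • y) : K) : Lat M (1 : (ZMod M)ˣ →* Unit) O) =
              latT M 1 O l.1 (e y : Lat M (1 : (ZMod M)ˣ →* Unit) O)) ∧
      (∀ l : ℕ, l.Prime → l ≠ p → ¬ l ∣ M → Y.X.ρ.IsUnramifiedAt l) ∧
      (∀ l : ℕ, l.Prime → l ≠ p → l ∣ M → ¬ l ^ 2 ∣ M → Y.X.ρ.IsUnipotentOnInertiaAt l) ∧
      (¬ p ∣ M → Y.X.ρ.IsFlatAt p) ∧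
      (p ∣ M → ¬ p ^ 2 ∣ M → (GaloisRepAdic.ofResidualGaloisRep ρbar).IsOrdinaryAt p →
        Y.X.ρ.IsOrdinaryAt p) := by
  classical
  obtain ⟨B⟩ := exists_baseData HS
  have hlM : ∀ l : ℕ, l.Prime → l ∉ S → ¬ l ∣ M := fun l hl hlS h => hlS (HS.level_mem l hl h)
  have hmem : ∀ t : B.T, ∀ x : latLoc M (1 : (ZMod M)ˣ →* Unit) O S a, x.1 ∈ K → (B.act t x).1 ∈ K := by
    intro t
    have ht : t ∈ Algebra.adjoin O {t : B.T | ∃ l : ℕ, l.Prime ∧ l ∉ S ∧ l ∉ (∅ : Finset ℕ) ∧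
        ∃ A : ValuationSubring (AlgebraicClosure ℚ), A.LiesOverPrime l ∧
          ∃ σ : GQ, A.IsFrobeniusAt σ l ∧ t = B.ρ.trace σ} := B.repAt.adjoin_trace ▸ trivial
    induction ht using Algebra.adjoin_induction with
    | mem z hz =>
      obtain ⟨l, hl, hlS, -, A, hA, σ, hσ, rfl⟩ := hz
      intro x hx
      rw [B.act_frobenius ⟨⟨l, hl⟩, hlM l hl hlS⟩ hlS A hA σ hσ x]
      exact hT ⟨⟨⟨l, hl⟩, hlM l hl hlS⟩, hlS⟩ _ hx
    | algebraMap r =>
      intro x hx
      rw [AlgHom.commutes, Module.algebraMap_end_apply]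
      exact K.smul_mem r hx
    | add y z _ _ hy hz => intro x hx; rw [map_add]; exact K.add_mem (hy x hx) (hz x hx)
    | mul y z _ _ hy hz => intro x hx; rw [map_mul]; exact hy _ (hz x hx)
  obtain ⟨f, hf⟩ := exists_restrictAct hK B.act hmem
  haveI hnt : Nontrivial K := Submodule.nontrivial_iff_ne_bot.mpr hne
  set Alg := Algebra.adjoin O (Set.range (twT M (1 : (ZMod M)ˣ →* Unit) O) ∪
    Set.range (latDia M (1 : (ZMod M)ˣ →* Unit) O))
  have hAlg : ∀ z ∈ Alg, z * z = 0 → z = 0 := fun z hz h =>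
    twAlg_sq_eq_zero (one_dvd M) squarefree_one (fun u _ => rfl)
      (by rw [Nat.card_unique]; exact odd_one) hz h
  have hlift : ∀ t : B.T, ∃ z ∈ Alg, ∀ x : latLoc M (1 : (ZMod M)ˣ →* Unit) O S a,
      z x.1 = (B.act t x).1 := by
    intro t
    have ht : t ∈ Algebra.adjoin O {t : B.T | ∃ l : ℕ, l.Prime ∧ l ∉ S ∧ l ∉ (∅ : Finset ℕ) ∧
        ∃ A : ValuationSubring (AlgebraicClosure ℚ), A.LiesOverPrime l ∧
          ∃ σ : GQ, A.IsFrobeniusAt σ l ∧ t = B.ρ.trace σ} := B.repAt.adjoin_trace ▸ trivial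
    induction ht using Algebra.adjoin_induction with
    | mem z hz =>
      obtain ⟨l, hl, hlS, -, A, hA, σ, hσ, rfl⟩ := hz
      refine ⟨twT M 1 O ⟨⟨l, hl⟩, hlM l hl hlS⟩, Algebra.subset_adjoin (Or.inl ⟨_, rfl⟩), fun x => ?_⟩
      rw [twT_one, B.act_frobenius ⟨⟨l, hl⟩, hlM l hl hlS⟩ hlS A hA σ hσ x]
    | algebraMap r => exact ⟨algebraMap O _ r, Alg.algebraMap_mem r, fun x => by
        rw [AlgHom.commutes, Module.algebraMap_end_apply, Module.algebraMap_end_apply]; rfl⟩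
    | add y z _ _ hy hz =>
      obtain ⟨y', hy', hy''⟩ := hy
      obtain ⟨z', hz', hz''⟩ := hz
      exact ⟨y' + z', add_mem hy' hz', fun x => by
        rw [map_add, LinearMap.add_apply, hy'', hz'']; rfl⟩
    | mul y z _ _ hy hz =>
      obtain ⟨y', hy', hy''⟩ := hy
      obtain ⟨z', hz', hz''⟩ := hz
      exact ⟨y' * z', mul_mem hy' hz', fun x => by
        rw [map_mul, Module.End.mul_apply, hz'', hy'', Module.End.mul_apply]⟩
  have hredf : ∀ t, f t * f t = 0 → f t = 0 := by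
    intro t ht
    refine LinearMap.ext fun x => Subtype.ext ?_
    obtain ⟨z, hz, hzt⟩ := hlift t
    rw [hf, ← hzt]
    refine apply_eq_zero_of_sq (L := Lat M (1 : (ZMod M)ˣ →* Unit) O) Alg hAlg hz ?_
    have h3 := congrArg Subtype.val (LinearMap.congr_fun ht x)
    rw [Module.End.mul_apply, hf, ← hzt] at h3
    show z (z x.1) = 0
    rw [show z x.1 = ((f t x : K) : Lat M (1 : (ZMod M)ˣ →* Unit) O) from
      (hzt ⟨x.1, hK x.2⟩).trans (hf t x).symm]
    exact h3
  have hadj : Algebra.adjoin O (Set.range B.ρ.trace) = ⊤ := by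
    rw [eq_top_iff, ← B.repAt.adjoin_trace]
    exact Algebra.adjoin_mono (by rintro _ ⟨l, -, -, -, A, -, σ, -, rfl⟩; exact ⟨σ, rfl⟩)
  have hpT : (p : B.T) ∈ maximalIdeal B.T := by
    rw [← map_natCast (algebraMap O B.T)]
    exact map_nonunit (algebraMap O B.T) _ natCast_p_mem_maximalIdeal
  obtain ⟨X, mk, L, hmk, hLinj, hL, hred, hR, hunr, hunip, hflat, hord'⟩ :=
    exists_quotient_lift (W := K) B.ρ B.repAt.residue_surjective B.repAt.residual hadj
      (detIsCyclotomic_of_eq B.ρ hpT B.repAt.det_eq) f hredf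
  haveI hKfin : Module.Finite O K := inferInstance
  haveI : Module.IsTorsionFree O K :=
    Function.Injective.moduleIsTorsionFree _ K.injective_subtype fun r x => map_smul K.subtype r x
  haveI hKfree : Module.Free O K := @Module.free_of_finite_type_torsion_free' O _ K _ _ _ _ _ _
  obtain ⟨φ, hφ⟩ : ∃ φ : heckeAlgebra M 2 (↑S : Set ℕ) →+*
      Module.End O (latLoc M (1 : (ZMod M)ˣ →* Unit) O S a),
      ∀ (l : ℕ) (hl : l.Prime) (hlM : ¬ l ∣ M) (hlS : l ∉ (↑S : Set ℕ)),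
        ∀ h : ¬ l ∣ M, ∀ x : latLoc M (1 : (ZMod M)ˣ →* Unit) O S a,
          (φ (heckeAlgebra.T hl hlM hlS) x).1 = latT M 1 O ⟨⟨l, hl⟩, h⟩ x.1 := by
    haveI : NeZero (M * 1) := ⟨by rw [mul_one]; exact NeZero.ne M⟩
    obtain ⟨φ, hφ⟩ := exists_heckeHom_twT (O := O) (one_dvd M) squarefree_one
      (c := (1 : (ZMod M)ˣ →* Unit)) (fun u _ => rfl) (by rw [Nat.card_unique]; exact odd_one) S
      HS.level_mem (latLoc M (1 : (ZMod M)ˣ →* Unit) O S a) fun i x hx => twT_mem_latLoc i hx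
    exact exists_heckeHom_cast (mul_one M) φ
      (fun l E => ∀ h : ¬ (l : ℕ) ∣ M, ∀ x : latLoc M (1 : (ZMod M)ˣ →* Unit) O S a,
        (E x).1 = latT M 1 O ⟨l, h⟩ x.1)
      fun l hl hlN hlS h x => by rw [hφ l hl hlN hlS x, twT_one]; rfl
  have hex : ∀ u, ∃ t, B.act t = φ u := by
    intro u
    obtain ⟨P, rfl⟩ := evFormsOff_surjective M (↑S : Set ℕ) HS.level_mem u
    induction P using MvPolynomial.induction_on with
    | C r =>
      refine ⟨(r : B.T), ?_⟩
      rw [map_intCast, show (MvPolynomial.C r : MvPolynomial _ ℤ) = (r : MvPolynomial _ ℤ) from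
        map_intCast MvPolynomial.C r, map_intCast, map_intCast]
    | add P Q hP hQ =>
      obtain ⟨t, ht⟩ := hP
      obtain ⟨t', ht'⟩ := hQ
      exact ⟨t + t', by rw [map_add, map_add, map_add, ht, ht']⟩
    | mul_X P i hP =>
      obtain ⟨t, ht⟩ := hP
      obtain ⟨A, hA⟩ := Galois.exists_liesOverPrime i.1.1.2
      obtain ⟨σ, hσ⟩ := Galois.exists_isFrobeniusAt i.1.1.2 hA
      refine ⟨t * B.ρ.trace σ, ?_⟩
      rw [map_mul, map_mul, map_mul, ht, evFormsOff_X]
      congr 1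
      refine LinearMap.ext fun x => Subtype.ext ?_
      rw [B.act_frobenius i.1 i.2 A hA σ hσ x, hφ _ i.1.1.2 i.1.2 i.2 i.1.2 x]
      rfl
  choose τ hτ using hex
  have hwd : ∀ t t', B.act t = B.act t' → f t = f t' := fun t t' h =>
    LinearMap.ext fun x => Subtype.ext (by rw [hf, hf, h])
  obtain ⟨ψ, hψ⟩ := exists_factorHom (T := B.T) (R := X.R)
    (E := Module.End O ↥(latLoc M (1 : (ZMod M)ˣ →* Unit) O S a)) (W := Module.End O ↥K)
    B.act f (mk : B.T →+* X.R) L hLinj hL hwd φ τ hτ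
  have hocc : ∀ g : X.R →ₐ[O] O, ∃ θ : heckeAlgebra M 2 (↑S : Set ℕ) →+* O,
      ∀ (l : ℕ) (hl : l.Prime) (hlN : ¬ l ∣ M) (hlS : l ∉ (↑S : Set ℕ))
        (A : ValuationSubring (AlgebraicClosure ℚ)), A.LiesOverPrime l →
        ∀ σ : GQ, A.IsFrobeniusAt σ l →
          θ (heckeAlgebra.T hl hlN hlS) = g (X.ρ.trace σ) := fun g =>
    ⟨g.toRingHom.comp ψ, fun l hl hlN hlS A hA σ hσ => by
      show g (ψ _) = g (X.ρ.trace σ)
      rw [hR, hψ]
      refine congrArg g (hLinj (LinearMap.ext fun x => Subtype.ext ?_))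
      show (L (mk (τ _)) x).1 = (L (mk _) x).1
      rw [hL, hL, hf, hf, hτ, hφ l hl hlN hlS hlN, B.act_frobenius ⟨⟨l, hl⟩, hlN⟩ hlS A hA σ hσ]⟩
  have hcompat : ∀ (l : PrimeOff M S) (A : ValuationSubring (AlgebraicClosure ℚ)),
      A.LiesOverPrime ((l.1 : Nat.Primes) : ℕ) → ∀ σ : GQ,
        A.IsFrobeniusAt σ ((l.1 : Nat.Primes) : ℕ) → ∀ y : K,
          (L (X.ρ.trace σ) y).1 = latT M 1 O l.1 y.1 := fun l A hA σ hσ y => by
    rw [hR, hL, hf, B.act_frobenius l.1 l.2 A hA σ hσ]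
  refine ⟨sysMk X ↥K L hLinj hred hocc, LinearEquiv.refl O ↥K,
    fun l A hA σ hσ y => ?_,
    fun l hl hlp hlM' => ?_, fun l hl hlp hlM' hl2 => ?_, fun hpM => ?_, fun hpM hp2 hord => ?_⟩
  · exact hcompat l A hA σ hσ y
  · exact hunr l (B.repAt.unramified l hl hlp hlM' (Finset.notMem_empty l))
  · exact hunip l (B.repAt.unipotent l hl hlp hlM' hl2)
  · exact hflat (B.repAt.flat hpM)
  · exact hord' (B.repAt.ordinary hpM hp2 (isOrdinaryAt_ofResidual _ B.repAt.residual hord))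

end Fermat.Agent.R59.Levels
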