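import Fermat.Agent.R59.Levels.Functional
import Fermat.Agent.R59.Levels.Part
import Fermat.Agent.R59.Min.AuxUnramified

/-!
S59, units C1a and C2c: the systems on parts of the lattices over a seed, with their local
conditions, and their points.
-/

set_option autoImplicit false
set_option linter.unusedSectionVars false
set_option linter.style.haveILetI false

noncomputable section

namespace Fermat.Agent.R59.Levels

open IsLocalRing
open Fermat.Agent.Galois (GQ)
open Fermat.Agent.Auto (Lat latLoc latT PrimeOff CharGrp)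

variable {p : ℕ} [Fact p.Prime] {O : Type} [CommRing O] [IsDomain O] [IsDiscreteValuationRing O]
  [IsAdicComplete (maximalIdeal O) O] [Finite (ResidueField O)]
  [Algebra ℤ_[p] O] [Module.Finite ℤ_[p] O] [CharZero O]
  {ρbar : ResidualGaloisRep (ResidueField O)} {N : ℕ} [NeZero N] {U aux S : Finset ℕ} {a : ℕ → O}
  {ord : Bool}

theorem natCast_residue_ne (hp : (p : O) ∈ maximalIdeal O) {r : ℕ} (hr : r.Prime) (hrp : r ≠ p) :
    (r : ResidueField O) ≠ 0 := by
  intro h
  have h' : residue O (r : O) = 0 := by rw [map_natCast]; exact h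
  obtain ⟨u, v, huv⟩ := (Nat.isCoprime_iff_coprime.mpr
    ((Nat.coprime_primes hr (Fact.out : p.Prime)).mpr hrp))
  refine (maximalIdeal O).ne_top_iff_one.mp (maximalIdeal.isMaximal O).ne_top ?_
  have hsum := congrArg (fun z : ℤ => (z : O)) huv
  push_cast at hsum
  rw [← hsum]
  exact add_mem (Ideal.mul_mem_left _ _ ((residue_eq_zero_iff _).mp h')) (Ideal.mul_mem_left _ _ hp)

theorem natCast_residue_ne_one (hp : (p : O) ∈ maximalIdeal O) {r : ℕ} (hr : r.Prime)
    (h1 : ¬ r ≡ 1 [MOD p]) : (r : ResidueField O) ≠ 1 := by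
  intro h
  have h' : residue O ((r : O) - 1) = 0 := by rw [map_sub, map_natCast, map_one, h, sub_self]
  have hco : Nat.Coprime (r - 1) p := by
    refine Nat.Coprime.symm ((Fact.out : p.Prime).coprime_iff_not_dvd.mpr fun hd => h1 ?_)
    exact ((Nat.modEq_iff_dvd' hr.one_le).mpr hd).symm
  obtain ⟨u, v, huv⟩ := Nat.isCoprime_iff_coprime.mpr hco
  refine (maximalIdeal O).ne_top_iff_one.mp (maximalIdeal.isMaximal O).ne_top ?_
  have hsum := congrArg (fun z : ℤ => (z : O)) huv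
  rw [Nat.cast_sub hr.one_le] at hsum
  push_cast at hsum
  rw [← hsum]
  exact add_mem (Ideal.mul_mem_left _ _ ((residue_eq_zero_iff _).mp h')) (Ideal.mul_mem_left _ _ hp)

/-- A system on a part over a seed, with its local conditions. -/
theorem exists_sys_of_seed (H : Seed p O ρbar N U aux S a ord) (sig : Finset ℕ) (M : ℕ) [NeZero M]
    (o : Bool) (ho : o = true → (GaloisRepAdic.ofResidualGaloisRep ρbar).IsOrdinaryAt p)
    (hNM : N ∣ M) (hMS : ∀ l : ℕ, l.Prime → l ∣ M → l ∈ S) (hp2 : ¬ p ^ 2 ∣ M)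
    (hpM : p ∣ M ↔ o = true)
    (hprimes : ∀ l : ℕ, l.Prime → l ∣ M → l = p ∨ l ∈ U ∪ aux ∪ sig)
    (honce : ∀ l ∈ U ∪ aux, ¬ l ^ 2 ∣ M)
    (K : Submodule O (Lat M (1 : (ZMod M)ˣ →* Unit) O))
    (hK : K ≤ latLoc M (1 : (ZMod M)ˣ →* Unit) O S a) (hne : K ≠ ⊥)
    (hT : ∀ (l : PrimeOff M S), ∀ x ∈ K, latT M 1 O l.1 x ∈ K) :
    ∃ (Y : Sys p O ρbar M S) (e : Y.M ≃ₗ[O] K),
      Y.X.Cond (U ∪ sig) U o ∧
      ∀ (l : PrimeOff M S) (A : ValuationSubring (AlgebraicClosure ℚ)),
        A.LiesOverPrime ((l.1 : Nat.Primes) : ℕ) → ∀ τ : GQ,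
          A.IsFrobeniusAt τ ((l.1 : Nat.Primes) : ℕ) → ∀ y : Y.M,
            ((e (Y.X.ρ.trace τ • y) : K) : Lat M (1 : (ZMod M)ˣ →* Unit) O) =
              latT M 1 O l.1 (e y : Lat M (1 : (ZMod M)ˣ →* Unit) O) := by
  have HS : Setting p O ρbar M S a :=
    setting_of_seed H hNM hMS fun h => hne (le_bot_iff.mp (h ▸ hK))
  obtain ⟨Y, e, he, hunr, hunip, hflat, hord⟩ := exists_sys_of_part HS K hK hne hT
  refine ⟨Y, e, ⟨fun l hl hlp hlR => ?_, fun l hlU => ?_, fun h => ?_, fun h => ?_⟩, he⟩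
  · by_cases hlM : l ∣ M
    · have hlaux : l ∈ aux := by
        rcases hprimes l hl hlM with h | h
        · exact absurd h hlp
        · simp only [Finset.mem_union, not_or] at h hlR
          tauto
      obtain ⟨-, -, h1, hu⟩ := H.mem_aux l hlaux
      refine isUnramifiedAt_of_unipotent Y.X.residual hl (t := residue O (a l))
        (H.unramified l hl hlp fun h => hlR (Finset.mem_union_left _ h))
        (H.charpoly_frob l hl hlp fun h => hlR (Finset.mem_union_left _ h))
        (natCast_residue_ne H.p_mem_maximal hl hlp) (natCast_residue_ne_one H.p_mem_maximal hl h1)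
        (fun h => ?_) (hunip l hl hlp hlM (honce l (Finset.mem_union_right _ hlaux)))
      refine (residue_ne_zero_iff_isUnit _).mpr hu ?_
      rw [map_sub, map_pow, map_pow, map_add, map_natCast, map_one, h, sub_self]
    · exact hunr l hl hlp hlM
  · obtain ⟨hl, hlp, -, -⟩ := H.mem_U l hlU
    exact hunip l hl hlp (((H.dvd_iff l hl hlp).mpr (Or.inl hlU)).trans hNM)
      (honce l (Finset.mem_union_left _ hlU))
  · exact hflat fun h' => Bool.false_ne_true (h ▸ hpM.mp h')
  · exact hord (hpM.mpr h) hp2 (ho h)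

/-- The system of the whole residual part has a point. -/
theorem exists_point (H : Seed p O ρbar N U aux S a ord) (Y : Sys p O ρbar N S)
    (e : Y.M ≃ₗ[O] latLoc N (1 : (ZMod N)ˣ →* Unit) O S a)
    (he : ∀ (l : PrimeOff N S) (A : ValuationSubring (AlgebraicClosure ℚ)),
      A.LiesOverPrime ((l.1 : Nat.Primes) : ℕ) → ∀ τ : GQ,
        A.IsFrobeniusAt τ ((l.1 : Nat.Primes) : ℕ) → ∀ y : Y.M,
          ((e (Y.X.ρ.trace τ • y) : latLoc N (1 : (ZMod N)ˣ →* Unit) O S a) :
              Lat N (1 : (ZMod N)ˣ →* Unit) O) =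
            latT N 1 O l.1 (e y : latLoc N (1 : (ZMod N)ˣ →* Unit) O S a)) :
    Nonempty (Y.X.R →ₐ[O] O) := by
  obtain ⟨χ, hχ⟩ := H.point S (Finset.Subset.refl S)
  obtain ⟨φ, ⟨x₀, hx₀, hφx₀⟩, hφ⟩ := exists_eigen_functional (a := a) χ hχ
  let ξ : Y.M →ₗ[O] O := φ ∘ₗ (latLoc N (1 : (ZMod N)ˣ →* Unit) O S a).subtype ∘ₗ e.toLinearMap
  have hξ : ξ (e.symm ⟨x₀, hx₀⟩) = 1 := by
    show φ (e (e.symm ⟨x₀, hx₀⟩)).1 = 1
    rw [e.apply_symm_apply, hφx₀]
  have hex : ∀ r : Y.X.R, ∃ c : O, ∀ m : Y.M, ξ (r • m) = c * ξ m := by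
    intro r
    have hr := (adjoin_frobenius_eq_top Y.X.ρ Y.X.adjoin_trace S).ge
      (Algebra.mem_top : r ∈ (⊤ : Subalgebra O Y.X.R))
    induction hr using Algebra.adjoin_induction with
    | mem z hz =>
      obtain ⟨l, hl, hlS, A, hA, σ, hσ, rfl⟩ := hz
      let i : PrimeOff N S := ⟨⟨⟨l, hl⟩, fun h => hlS (H.level_mem l hl h)⟩, hlS⟩
      refine ⟨χ (CuspForm.heckeAlgebra.T i.1.1.2 i.1.2 i.2), fun m => ?_⟩
      show φ (e (Y.X.ρ.trace σ • m)).1 = _
      rw [he i A hA σ hσ m, hφ i]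
      rfl
    | algebraMap c => exact ⟨c, fun m => by rw [algebraMap_smul, map_smul, smul_eq_mul]⟩
    | add y z _ _ hy hz =>
      obtain ⟨c, hc⟩ := hy
      obtain ⟨d, hd⟩ := hz
      exact ⟨c + d, fun m => by rw [add_smul, map_add, hc, hd, add_mul]⟩
    | mul y z _ _ hy hz =>
      obtain ⟨c, hc⟩ := hy
      obtain ⟨d, hd⟩ := hz
      exact ⟨c * d, fun m => by rw [mul_smul, hc, hd, mul_assoc]⟩
  choose g hg using hex
  have huniq : ∀ r c, (∀ m, ξ (r • m) = c * ξ m) → g r = c := fun r c h => by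
    have h1 := (hg r (e.symm ⟨x₀, hx₀⟩)).symm.trans (h _)
    rwa [hξ, mul_one, mul_one] at h1
  exact ⟨{ toFun := g
           map_one' := huniq 1 1 fun m => by rw [one_smul, one_mul]
           map_mul' := fun r s => huniq _ _ fun m => by rw [mul_smul, hg, hg, mul_assoc]
           map_zero' := huniq 0 0 fun m => by rw [zero_smul, map_zero, zero_mul]
           map_add' := fun r s => huniq _ _ fun m => by rw [add_smul, map_add, hg, hg, add_mul]
           commutes' := fun c => huniq _ _ fun m => by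
             rw [algebraMap_smul, map_smul, smul_eq_mul]; rfl }⟩

end Fermat.Agent.R59.Levels
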